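import Fermat.Agent.EigenPrimes.Dirichlet

/-!
# Dirichlet series with real coefficients

Comparison, products, and the series of a logarithmic derivative.
-/

set_option autoImplicit false

noncomputable section

open Complex LSeries
open scoped LSeries.notation Topology

namespace FA.EigenPrimes

/-- The complex values of a real arithmetic function. -/
abbrev cast' (F : ArithmeticFunction ℝ) : ℕ → ℂ := fun n => (F n : ℂ)

theorem lSeriesSummable_of_le {u v : ℕ → ℝ} {s : ℂ} (h : ∀ n, n ≠ 0 → |u n| ≤ v n)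
    (hv : LSeriesSummable (fun n => (v n : ℂ)) s) : LSeriesSummable (fun n => (u n : ℂ)) s := by
  refine hv.norm.of_norm_bounded fun n => ?_
  rcases eq_or_ne n 0 with rfl | hn
  · simp
  rw [norm_term_eq, if_neg hn, norm_term_eq, if_neg hn, Complex.norm_real, Complex.norm_real]
  gcongr
  exact (h n hn).trans (le_abs_self _)

theorem lSeriesSummable_add {u v : ℕ → ℝ} {s : ℂ} (hu : LSeriesSummable (fun n => (u n : ℂ)) s)
    (hv : LSeriesSummable (fun n => (v n : ℂ)) s) :
    LSeriesSummable (fun n => ((u n + v n : ℝ) : ℂ)) s := by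
  simpa only [Pi.add_def, Complex.ofReal_add] using hu.add hv

theorem lSeriesSummable_const_mul {u : ℕ → ℝ} {s : ℂ} (c : ℝ)
    (hu : LSeriesSummable (fun n => (u n : ℂ)) s) :
    LSeriesSummable (fun n => ((c * u n : ℝ) : ℂ)) s := by
  simpa only [Pi.smul_def, smul_eq_mul, Complex.ofReal_mul] using hu.smul (c : ℂ)

theorem lSeriesSummable_one_real {s : ℂ} (hs : 1 < s.re) :
    LSeriesSummable (fun _ => ((1 : ℝ) : ℂ)) s := by
  simpa only [Complex.ofReal_one, Pi.one_def] using LSeriesSummable_one_iff.2 hs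

theorem cast'_mul (F G : ArithmeticFunction ℝ) : cast' (F * G) = cast' F ⍟ cast' G := by
  funext n
  rw [LSeries.convolution_def]
  simp only [cast', ArithmeticFunction.mul_apply, Complex.ofReal_sum, Complex.ofReal_mul]

theorem lSeriesSummable_mul {F G : ArithmeticFunction ℝ} {s : ℂ}
    (hF : LSeriesSummable (cast' F) s) (hG : LSeriesSummable (cast' G) s) :
    LSeriesSummable (cast' (F * G)) s := by
  rw [cast'_mul]
  exact hF.convolution hG

theorem lSeries_mul {F G : ArithmeticFunction ℝ} {s : ℂ}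
    (hF : LSeriesSummable (cast' F) s) (hG : LSeriesSummable (cast' G) s) :
    LSeries (cast' (F * G)) s = LSeries (cast' F) s * LSeries (cast' G) s := by
  rw [cast'_mul, LSeries_convolution' hF hG]

theorem abscissa_le_one {f : ℕ → ℂ} (h : ∀ s : ℂ, 1 < s.re → LSeriesSummable f s) :
    abscissaOfAbsConv f ≤ 1 :=
  abscissaOfAbsConv_le_of_forall_lt_LSeriesSummable (x := 1) fun y hy => h y (by simpa using hy)

theorem abscissa_lt_re {f : ℕ → ℂ} (h : ∀ s : ℂ, 1 < s.re → LSeriesSummable f s) {s : ℂ}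
    (hs : 1 < s.re) : abscissaOfAbsConv f < s.re :=
  lt_of_le_of_lt (abscissa_le_one h) (by exact_mod_cast hs)

theorem logMul_cast' (F : ArithmeticFunction ℝ) :
    logMul (cast' F) = fun n : ℕ => ((Real.log n * F n : ℝ) : ℂ) := by
  funext n
  simp [logMul, cast', Complex.natCast_log]

theorem lSeriesSummable_log_mul {F : ArithmeticFunction ℝ}
    (h : ∀ s : ℂ, 1 < s.re → LSeriesSummable (cast' F) s) {s : ℂ} (hs : 1 < s.re) :
    LSeriesSummable (fun n : ℕ => ((Real.log n * F n : ℝ) : ℂ)) s := by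
  rw [← logMul_cast']
  exact LSeriesSummable_logMul_of_lt_re (abscissa_lt_re h hs)

/-- The series of a logarithmic derivative. -/
theorem deriv_lSeries_of_isLogDeriv {G F : ArithmeticFunction ℝ} (hGF : IsLogDeriv G F)
    (hG : ∀ s : ℂ, 1 < s.re → LSeriesSummable (cast' G) s)
    (hF : ∀ s : ℂ, 1 < s.re → LSeriesSummable (cast' F) s) {s : ℂ} (hs : 1 < s.re) :
    deriv (LSeries (cast' F)) s = -LSeries (cast' G) s * LSeries (cast' F) s := by
  rw [LSeries_deriv (abscissa_lt_re hF hs), neg_mul, ← lSeries_mul (hG s hs) (hF s hs),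
    logMul_cast']
  exact congrArg Neg.neg (LSeries_congr (fun {n} _ => by simp only [cast', hGF n]) s)

theorem lSeries_eventuallyEq {F : ℂ → ℂ} {f : ℕ → ℂ}
    (h : ∀ s : ℂ, 1 < s.re → F s = LSeries f s) {s : ℂ} (hs : 1 < s.re) :
    F =ᶠ[𝓝 s] LSeries f :=
  Filter.eventually_of_mem ((isOpen_lt continuous_const Complex.continuous_re).mem_nhds hs) h

/-- A Dirichlet series with non-zero first coefficient is not zero far to the right. -/
theorem exists_lSeries_ne_zero {f : ℕ → ℂ} (h : ∀ s : ℂ, 1 < s.re → LSeriesSummable f s)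
    (h1 : f 1 ≠ 0) : ∃ s : ℂ, 1 < s.re ∧ LSeries f s ≠ 0 := by
  have hlim := LSeries.tendsto_atTop (f := f)
    (lt_of_le_of_lt (abscissa_le_one h) (EReal.coe_lt_top 1))
  obtain ⟨x, hx1, hx2⟩ :=
    ((Filter.eventually_gt_atTop (1 : ℝ)).and (hlim.eventually_ne h1)).exists
  exact ⟨x, by simpa using hx1, hx2⟩

end FA.EigenPrimes

end
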