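import Mathlib

/-!
# The local series of an eigenform and of its Rankin–Selberg convolution

With `x = α + α⁻¹`, the local series `1 / (1 - x X + X²)` has the power sums `α^i + α^(-i)` as
logarithmic derivative, and that of the Rankin–Selberg convolution has their squares.
-/

set_option autoImplicit false

noncomputable section

open PowerSeries

namespace FA.EigenPrimes

/-- `α^r + α^(r-2) + ⋯ + α^(-r)` for `x = α + α⁻¹`. -/
def cheb (x : ℝ) : ℕ → ℝ
  | 0 => 1
  | 1 => x
  | r + 2 => x * cheb x (r + 1) - cheb x r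

/-- `α^i + α^(-i)` for `x = α + α⁻¹`. -/
def powerSum (x : ℝ) : ℕ → ℝ
  | 0 => 2
  | 1 => x
  | i + 2 => x * powerSum x (i + 1) - powerSum x i

theorem powerSum_eq_cheb (x : ℝ) : ∀ i, powerSum x (i + 2) = cheb x (i + 2) - cheb x i
  | 0 => by simp only [powerSum, cheb]; ring
  | 1 => by simp only [powerSum, cheb]; ring
  | i + 2 => by
    rw [powerSum, powerSum_eq_cheb x (i + 1), powerSum_eq_cheb x i,
      show cheb x (i + 2 + 2) = x * cheb x (i + 2 + 1) - cheb x (i + 2) from rfl,
      show cheb x (i + 1 + 2) = cheb x (i + 2 + 1) from rfl,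
      show cheb x (i + 2) = x * cheb x (i + 1) - cheb x i from rfl]
    ring

theorem powerSum_invariant (x : ℝ) : ∀ i,
    powerSum x (i + 1) ^ 2 + powerSum x i ^ 2 - x * powerSum x (i + 1) * powerSum x i = 4 - x ^ 2
  | 0 => by simp only [powerSum]; ring
  | i + 1 => by
    rw [show powerSum x (i + 1 + 1) = x * powerSum x (i + 1) - powerSum x i from rfl]
    linear_combination powerSum_invariant x i

/-- Squares of power sums are power sums of `α²`, plus two. -/
theorem powerSum_sq (x : ℝ) : ∀ i, powerSum x i ^ 2 = powerSum (x ^ 2 - 2) i + 2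
  | 0 => by norm_num [powerSum]
  | 1 => by simp [powerSum]
  | i + 2 => by
    rw [show powerSum x (i + 2) = x * powerSum x (i + 1) - powerSum x i from rfl,
      show powerSum (x ^ 2 - 2) (i + 2) =
        (x ^ 2 - 2) * powerSum (x ^ 2 - 2) (i + 1) - powerSum (x ^ 2 - 2) i from rfl]
    linear_combination 2 * powerSum_invariant x i + (x ^ 2 - 2) * powerSum_sq x (i + 1) -
      powerSum_sq x i

/-- `1 - x X + X²`. -/
def quad (x : ℝ) : ℝ⟦X⟧ := 1 - C x * X + X * X

/-- The logarithmic derivative from the reciprocal. -/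
theorem X_mul_derivative {F B Q : ℝ⟦X⟧} (hFB : F * B = 1) (hQ : Q * B = -(X * d⁄dX ℝ B)) :
    X * d⁄dX ℝ F = Q * F := by
  have h := congrArg (d⁄dX ℝ) hFB
  rw [Derivation.leibniz, Derivation.map_one_eq_zero, smul_eq_mul, smul_eq_mul] at h
  linear_combination -(X * d⁄dX ℝ F) * hFB + X * F * h -
    F ^ 2 * hQ + Q * F * hFB

theorem nsmul_coeff_eq {F B Q : ℝ⟦X⟧} (hFB : F * B = 1) (hQ : Q * B = -(X * d⁄dX ℝ B)) (r : ℕ) :
    (r : ℝ) * coeff r F = coeff r (Q * F) := by
  rw [← X_mul_derivative hFB hQ]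
  rcases r with _ | r
  · simp
  · rw [coeff_succ_X_mul, coeff_derivative]
    push_cast
    ring

/-- The series of the coefficients at the powers of a prime. -/
def eigenSeries (x : ℝ) : ℝ⟦X⟧ := mk (cheb x)

/-- The series of the power sums, from degree one. -/
def powerSeriesSums (x : ℝ) : ℝ⟦X⟧ := mk fun i => if i = 0 then 0 else powerSum x i

theorem eigenSeries_mul_quad (x : ℝ) : eigenSeries x * quad x = 1 := by
  rw [eigenSeries, quad, mul_comm, add_mul, sub_mul, one_mul, mul_assoc (C x), mul_assoc X X]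
  ext n
  rcases n with _ | _ | n <;>
    simp [coeff_one, coeff_mk, cheb]

theorem powerSeriesSums_mul_quad (x : ℝ) :
    powerSeriesSums x * quad x = C x * X - 2 * (X * X) := by
  rw [powerSeriesSums, quad, mul_comm, add_mul, sub_mul, one_mul, mul_assoc (C x), mul_assoc X X,
    show (2 : ℝ⟦X⟧) = C (2 : ℝ) from (map_ofNat _ 2).symm]
  ext n
  rcases n with _ | _ | _ | n <;>
    simp [coeff_mk, coeff_X, powerSum]

theorem derivative_quad (x : ℝ) : -(X * d⁄dX ℝ (quad x)) = C x * X - 2 * (X * X) := by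
  simp only [quad, map_add, map_sub, Derivation.leibniz, derivative_X, derivative_C,
    Derivation.map_one_eq_zero, smul_eq_mul, mul_zero, add_zero, mul_one]
  ring

/-- **Newton's identity for the eigenform.** -/
theorem eigenSeries_newton (x : ℝ) (r : ℕ) :
    (r : ℝ) * cheb x r = coeff r (powerSeriesSums x * eigenSeries x) := by
  rw [← nsmul_coeff_eq (eigenSeries_mul_quad x)
    ((powerSeriesSums_mul_quad x).trans (derivative_quad x).symm), eigenSeries, coeff_mk]

/-- The squares of the coefficients. -/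
def squareSeries (x : ℝ) : ℝ⟦X⟧ := mk fun r => cheb x r ^ 2

/-- The even degrees. -/
def evenSeries : ℝ⟦X⟧ := mk fun r => if Even r then 1 else 0

/-- The local series of the convolution. -/
def rankinSeries (x : ℝ) : ℝ⟦X⟧ := evenSeries * squareSeries x

/-- The squares of the power sums, from degree one. -/
def squareSums (x : ℝ) : ℝ⟦X⟧ := mk fun i => if i = 0 then 0 else powerSum x i ^ 2

theorem squareSeries_mul (x : ℝ) :
    squareSeries x * ((1 - X) * quad (x ^ 2 - 2)) = 1 + X := by
  rw [show (1 - X) * quad (x ^ 2 - 2) =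
      (1 : ℝ⟦X⟧) - C (x ^ 2 - 1) * X + C (x ^ 2 - 1) * (X * X) - X * (X * X) by
    rw [quad, show x ^ 2 - 1 = x ^ 2 - 2 + 1 by ring, map_add, map_one]; ring,
    squareSeries, mul_comm, sub_mul, add_mul, sub_mul, one_mul, mul_assoc (C _), mul_assoc (C _),
    mul_assoc X (X * X), mul_assoc X X]
  obtain ⟨c, hc⟩ : ∃ c, c = x ^ 2 - 1 := ⟨_, rfl⟩
  rw [← hc]
  ext n
  rcases n with _ | _ | _ | n <;>
    simp [coeff_one, coeff_mk, coeff_X, cheb] <;> rw [hc] <;> ring

theorem evenSeries_mul : evenSeries * (1 - X * X) = 1 := by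
  rw [evenSeries, mul_comm, sub_mul, one_mul, mul_assoc]
  ext n
  rcases n with _ | _ | n <;> simp [coeff_one, coeff_mk, Nat.even_add_one]

theorem rankinSeries_mul (x : ℝ) :
    rankinSeries x * ((1 - X) * ((1 - X) * quad (x ^ 2 - 2))) = 1 := by
  have hne : (1 + X : ℝ⟦X⟧) ≠ 0 := fun h => by
    simpa using congrArg constantCoeff h
  refine mul_right_cancel₀ hne ?_
  rw [rankinSeries, one_mul]
  linear_combination (squareSeries x * ((1 - X) * quad (x ^ 2 - 2))) * evenSeries_mul +
    squareSeries_mul x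

theorem squareSums_mul (x : ℝ) :
    squareSums x * ((1 - X) * ((1 - X) * quad (x ^ 2 - 2))) =
      -(X * d⁄dX ℝ ((1 - X) * ((1 - X) * quad (x ^ 2 - 2)))) := by
  set G : ℝ⟦X⟧ := mk fun _ => (1 : ℝ) with hG
  have hG1 : G * (1 - X) = 1 := by
    rw [hG, mul_comm, sub_mul, one_mul]
    ext n
    rcases n with _ | n <;> simp [coeff_one, coeff_mk]
  have hsum : squareSums x = powerSeriesSums (x ^ 2 - 2) + 2 * (X * G) := by
    rw [squareSums, powerSeriesSums, show (2 : ℝ⟦X⟧) = C (2 : ℝ) from (map_ofNat _ 2).symm, hG]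
    ext n
    rcases n with _ | n <;> simp [coeff_mk, powerSum_sq]
  have hA := derivative_quad (x ^ 2 - 2)
  simp only [Derivation.leibniz, map_sub, derivative_X, Derivation.map_one_eq_zero, smul_eq_mul]
  rw [hsum]
  linear_combination ((1 - X) * (1 - X)) * powerSeriesSums_mul_quad (x ^ 2 - 2) -
    ((1 - X) * (1 - X)) * hA + (2 * X * (1 - X) * quad (x ^ 2 - 2)) * hG1

/-- **Newton's identity for the convolution.** -/
theorem rankinSeries_newton (x : ℝ) (r : ℕ) :
    (r : ℝ) * coeff r (rankinSeries x) = coeff r (squareSums x * rankinSeries x) :=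
  nsmul_coeff_eq (rankinSeries_mul x) (squareSums_mul x) r

end FA.EigenPrimes

end
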