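import Fermat.Agent.EigenPrimes.Hecke
import Fermat.Agent.EigenPrimes.Local
import Fermat.Agent.EigenPrimes.LSum
import Fermat.Agent.RankinSelberg.Strip
import Fermat.Agent.Root.SummaryPoincare

/-!
# The normalised coefficients and their logarithmic derivatives

`λ n = a n / n^((k-1)/2)`, the coefficients of the convolution of `f` with itself, and the
logarithmic derivatives of both series, with their sizes.
-/

set_option autoImplicit false

noncomputable section

namespace FA.EigenPrimes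

open UpperHalfPlane hiding I
open Complex CongruenceSubgroup LSeries
open scoped MatrixGroups ArithmeticFunction.vonMangoldt
open FA.KohnenNonvanishing (IsEigenformOne)

variable {k : ℕ}

/-- The indicator of the squares. -/
def sqInd : ArithmeticFunction ℝ := ⟨fun n => if n ≠ 0 ∧ IsSquare n then 1 else 0, by simp⟩

theorem sqInd_nonneg (n : ℕ) : 0 ≤ sqInd n := by
  show 0 ≤ if _ then (1 : ℝ) else 0
  split_ifs <;> norm_num

theorem sqInd_le_one (n : ℕ) : sqInd n ≤ 1 := by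
  show (if _ then (1 : ℝ) else 0) ≤ 1
  split_ifs <;> norm_num

theorem sqInd_sq {n : ℕ} (hn : n ≠ 0) : sqInd (n ^ 2) = 1 :=
  if_pos ⟨pow_ne_zero 2 hn, n, sq n⟩

theorem sqInd_prime_pow {p : ℕ} (hp : p.Prime) (r : ℕ) :
    sqInd (p ^ r) = if Even r then 1 else 0 := by
  refine if_congr ⟨fun h => ?_, fun h => ⟨pow_ne_zero r hp.ne_zero, ?_⟩⟩ rfl rfl
  · obtain ⟨-, c, hc⟩ := h
    have h2 := congrArg (fun m => m.factorization p) hc
    have hc0 : c ≠ 0 := fun h0 => by simp [h0, hp.ne_zero] at hc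
    simp only [hp.factorization_pow, Finsupp.single_eq_same, Nat.factorization_mul hc0 hc0,
      Finsupp.add_apply] at h2
    exact ⟨_, h2⟩
  · obtain ⟨c, rfl⟩ := h
    exact ⟨p ^ c, pow_add p c c⟩

theorem sqInd_isMultiplicative : sqInd.IsMultiplicative := by
  refine ⟨by simpa using sqInd_sq one_ne_zero, fun {m n} h => ?_⟩
  have key : (m * n ≠ 0 ∧ IsSquare (m * n)) ↔ (m ≠ 0 ∧ IsSquare m) ∧ (n ≠ 0 ∧ IsSquare n) := by
    refine ⟨fun ⟨h0, c, hc⟩ => ?_, fun ⟨⟨hm, hm'⟩, hn, hn'⟩ => ⟨mul_ne_zero hm hn, hm'.mul hn'⟩⟩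
    have hc' : m * n = c ^ 2 := hc.trans (sq c).symm
    obtain ⟨d, hd⟩ := exists_eq_pow_of_mul_eq_pow (Nat.isUnit_iff.2 h) hc'
    obtain ⟨e, he⟩ := exists_eq_pow_of_mul_eq_pow (Nat.isUnit_iff.2 h.symm)
      ((mul_comm n m).trans hc')
    exact ⟨⟨left_ne_zero_of_mul h0, d, hd.trans (sq d)⟩,
      right_ne_zero_of_mul h0, e, he.trans (sq e)⟩
  show (if m * n ≠ 0 ∧ IsSquare (m * n) then (1 : ℝ) else 0) =
    (if _ then (1 : ℝ) else 0) * if _ then (1 : ℝ) else 0
  rw [if_congr key rfl rfl]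
  split_ifs with h1 h2 h3 <;> simp_all

/-- `λ n = a n / n^((k-1)/2)`. -/
def eig (f : CuspForm (Gamma0 1) (k : ℤ)) : ArithmeticFunction ℝ :=
  ⟨fun n => (coef f n).re / (n : ℝ) ^ (((k : ℝ) - 1) / 2), by simp [coef_zero]⟩

theorem eig_apply (f : CuspForm (Gamma0 1) (k : ℤ)) (n : ℕ) :
    eig f n = (coef f n).re / (n : ℝ) ^ (((k : ℝ) - 1) / 2) := rfl

/-- `λ n ^ 2`. -/
def eigSq (f : CuspForm (Gamma0 1) (k : ℤ)) : ArithmeticFunction ℝ := (eig f).pmul (eig f)

/-- The coefficients of `ζ(2 w) ∑ λ n ^ 2 n ^ (-w)`. -/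
def rankinCoeff (f : CuspForm (Gamma0 1) (k : ℤ)) : ArithmeticFunction ℝ := sqInd * eigSq f

/-- The logarithmic derivative of the L-series. -/
def eigLift (f : CuspForm (Gamma0 1) (k : ℤ)) : ArithmeticFunction ℝ :=
  primeLift fun p i => powerSum (eig f p) i

/-- The logarithmic derivative of the convolution. -/
def rankinLift (f : CuspForm (Gamma0 1) (k : ℤ)) : ArithmeticFunction ℝ :=
  primeLift fun p i => powerSum (eig f p) i ^ 2

theorem eigSq_nonneg (f : CuspForm (Gamma0 1) (k : ℤ)) (n : ℕ) : 0 ≤ eigSq f n := by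
  rw [eigSq, ArithmeticFunction.pmul_apply]
  exact mul_self_nonneg _

theorem rankinCoeff_nonneg (f : CuspForm (Gamma0 1) (k : ℤ)) (n : ℕ) : 0 ≤ rankinCoeff f n := by
  rw [rankinCoeff, ArithmeticFunction.mul_apply]
  exact Finset.sum_nonneg fun _ _ => mul_nonneg (sqInd_nonneg _) (eigSq_nonneg f _)

theorem rankinLift_nonneg (f : CuspForm (Gamma0 1) (k : ℤ)) (n : ℕ) : 0 ≤ rankinLift f n :=
  primeLift_induction _ (P := fun _ v => 0 ≤ v) (fun _ => le_rfl)
    (fun _ _ _ _ => mul_nonneg (Real.log_natCast_nonneg _) (sq_nonneg _)) n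

theorem vonMangoldt_eq_primeLift : Λ = primeLift fun _ _ => 1 := by
  ext n
  show _ = if IsPrimePow n then Real.log n.minFac * 1 else 0
  rw [mul_one, ArithmeticFunction.vonMangoldt_apply]

theorem two_mul_abs_eigLift_le (f : CuspForm (Gamma0 1) (k : ℤ)) (n : ℕ) :
    2 * |eigLift f n| ≤ Λ n + rankinLift f n := by
  rw [vonMangoldt_eq_primeLift]
  show 2 * |(if IsPrimePow n then Real.log n.minFac * _ else 0 : ℝ)| ≤
    (if IsPrimePow n then Real.log n.minFac * 1 else 0) +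
      if IsPrimePow n then Real.log n.minFac * _ ^ 2 else 0
  split_ifs
  · have hl := Real.log_natCast_nonneg n.minFac
    set v := powerSum (eig f n.minFac) (n.factorization n.minFac)
    rw [abs_mul, abs_of_nonneg hl]
    nlinarith [mul_nonneg hl (sq_nonneg (|v| - 1)), sq_abs v]
  · simp

section Eigenform

variable {f : CuspForm (Gamma0 1) (k : ℤ)} (hf : IsEigenformOne f)

include hf

theorem eig_one : eig f 1 = 1 := by
  rw [eig_apply, show coef f 1 = 1 from hf.1]
  simp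

theorem eig_isMultiplicative : (eig f).IsMultiplicative := by
  refine ⟨eig_one hf, fun {m n} h => ?_⟩
  rw [eig_apply, eig_apply, eig_apply, coef_mul hf h, Nat.cast_mul,
    Real.mul_rpow (Nat.cast_nonneg m) (Nat.cast_nonneg n),
    show (coef f m * coef f n).re = (coef f m).re * (coef f n).re by
      rw [← ofReal_re_coef hf m, re_ofReal_mul, ofReal_re]]
  exact (div_mul_div_comm _ _ _ _).symm

theorem eig_prime_pow {p : ℕ} (hp : p.Prime) : ∀ r, eig f (p ^ r) = cheb (eig f p) r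
  | 0 => by rw [pow_zero, eig_one hf, cheb]
  | 1 => by rw [pow_one, cheb]
  | r + 2 => by
    rw [cheb, ← eig_prime_pow hp (r + 1), ← eig_prime_pow hp r, eig_apply, eig_apply, eig_apply,
      eig_apply, coef_prime_pow hf hp r]
    set c := ((k : ℝ) - 1) / 2 with hc
    have hp0 : (0 : ℝ) < p := Nat.cast_pos.2 hp.pos
    have hk1 : (p : ℂ) ^ ((k : ℤ) - 1) = (((p : ℝ) ^ c * (p : ℝ) ^ c : ℝ) : ℂ) := by
      rw [← Real.rpow_add hp0, hc, show ((k : ℝ) - 1) / 2 + ((k : ℝ) - 1) / 2 =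
        (((k : ℤ) - 1 : ℤ) : ℝ) by push_cast; ring, Real.rpow_intCast]
      push_cast
      rfl
    rw [sub_re, hk1, re_ofReal_mul, ← ofReal_re_coef hf p, re_ofReal_mul, ofReal_re]
    have hpow : ∀ m : ℕ, ((p ^ m : ℕ) : ℝ) ^ c = ((p : ℝ) ^ c) ^ m := fun m => by
      rw [Nat.cast_pow, ← Real.rpow_natCast, ← Real.rpow_mul hp0.le, ← Real.rpow_natCast,
        ← Real.rpow_mul hp0.le, mul_comm]
    rw [hpow, hpow, hpow]
    have hne : (p : ℝ) ^ c ≠ 0 := (Real.rpow_pos_of_pos hp0 c).ne'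
    field_simp
    ring

theorem eigSq_eq (n : ℕ) :
    eigSq f n = RankinSelberg.coeffSq f n / (n : ℝ) ^ ((k : ℝ) - 1) := by
  rw [eigSq, ArithmeticFunction.pmul_apply, eig_apply, div_mul_div_comm, RankinSelberg.coeffSq,
    show (k : ℝ) - 1 = ((k : ℝ) - 1) / 2 * (2 : ℕ) by push_cast; ring,
    Real.rpow_mul (Nat.cast_nonneg n), Real.rpow_natCast, sq, sq]
  congr 1
  · show _ = ‖coef f n‖ * ‖coef f n‖
    conv_rhs => rw [← ofReal_re_coef hf n, Complex.norm_real, Real.norm_eq_abs, abs_mul_abs_self]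
  · ring_nf

theorem lSeries_term_eigSq {n : ℕ} (hn : n ≠ 0) (s : ℂ) :
    term (cast' (eigSq f)) s n =
      term (fun n => (RankinSelberg.coeffSq f n : ℂ)) (s + k - 1) n := by
  rw [term_of_ne_zero hn, term_of_ne_zero hn, cast', eigSq_eq hf, ofReal_div,
    ofReal_cpow (Nat.cast_nonneg n), div_div, ofReal_natCast,
    ← cpow_add _ _ (Nat.cast_ne_zero.2 hn)]
  congr 2
  push_cast
  ring

theorem summable_eigSq {s : ℂ} (hs : 1 < s.re) : LSeriesSummable (cast' (eigSq f)) s := by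
  refine (RankinSelberg.lSeriesSummable f (s := s + k - 1) ?_).congr fun n => ?_
  · simp only [sub_re, add_re, natCast_re, one_re]
    linarith
  rcases eq_or_ne n 0 with rfl | hn
  · simp
  exact (lSeries_term_eigSq hf hn s).symm

theorem summable_eig {s : ℂ} (hs : 1 < s.re) : LSeriesSummable (cast' (eig f)) s := by
  refine lSeriesSummable_of_le (v := fun n => 1 + eigSq f n) (fun n _ => ?_)
    (lSeriesSummable_add (lSeriesSummable_one_real hs) (summable_eigSq hf hs))
  rw [eigSq, ArithmeticFunction.pmul_apply]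
  nlinarith [sq_nonneg (|eig f n| - 1), sq_abs (eig f n)]

theorem rankinCoeff_one : rankinCoeff f 1 = 1 := by
  rw [rankinCoeff, ArithmeticFunction.mul_apply_one, eigSq, ArithmeticFunction.pmul_apply,
    eig_one hf, sqInd_isMultiplicative.map_one]
  norm_num

theorem summable_rankinCoeff {s : ℂ} (hs : 1 < s.re) :
    LSeriesSummable (cast' (rankinCoeff f)) s :=
  lSeriesSummable_mul (lSeriesSummable_of_le (fun n _ => by
    rw [abs_of_nonneg (sqInd_nonneg n)]; exact sqInd_le_one n) (lSeriesSummable_one_real hs))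
    (summable_eigSq hf hs)

theorem isLogDeriv_eig : IsLogDeriv (eigLift f) (eig f) := by
  refine isLogDeriv_of_local (eig_isMultiplicative hf) _ fun p r hp => ?_
  simp only [eig_prime_pow hf hp]
  exact eigenSeries_newton (eig f p) r

theorem rankinCoeff_prime_pow {p : ℕ} (hp : p.Prime) (r : ℕ) :
    rankinCoeff f (p ^ r) = PowerSeries.coeff r (rankinSeries (eig f p)) := by
  rw [rankinCoeff, mul_prime_pow _ _ hp, rankinSeries, evenSeries, squareSeries]
  simp only [sqInd_prime_pow hp, eigSq, ArithmeticFunction.pmul_apply, eig_prime_pow hf hp, sq]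

theorem isLogDeriv_rankinCoeff : IsLogDeriv (rankinLift f) (rankinCoeff f) := by
  have hm : (rankinCoeff f).IsMultiplicative := sqInd_isMultiplicative.mul
    ((eig_isMultiplicative hf).pmul (eig_isMultiplicative hf))
  refine isLogDeriv_of_local hm _ fun p r hp => ?_
  rw [rankinCoeff_prime_pow hf hp]
  simp only [rankinCoeff_prime_pow hf hp]
  refine (rankinSeries_newton (eig f p) r).trans ?_
  congr 2
  exact PowerSeries.ext fun i => by rw [PowerSeries.coeff_mk]

theorem summable_rankinLift {s : ℂ} (hs : 1 < s.re) :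
    LSeriesSummable (cast' (rankinLift f)) s :=
  lSeriesSummable_of_le (fun n _ => by
    rw [abs_of_nonneg (rankinLift_nonneg f n)]
    exact (isLogDeriv_rankinCoeff hf).le_log_mul (rankinLift_nonneg f) (rankinCoeff_nonneg f)
      (rankinCoeff_one hf) n)
    (lSeriesSummable_log_mul (fun _ h => summable_rankinCoeff hf h) hs)

theorem summable_eigLift {s : ℂ} (hs : 1 < s.re) : LSeriesSummable (cast' (eigLift f)) s := by
  refine lSeriesSummable_of_le (v := fun n => Λ n + rankinLift f n) (fun n _ => ?_)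
    (lSeriesSummable_add (ArithmeticFunction.LSeriesSummable_vonMangoldt hs)
      (summable_rankinLift hf hs))
  linarith [two_mul_abs_eigLift_le f n, abs_nonneg (eigLift f n)]

end Eigenform

/-! ## Sizes -/

/-- The bound by the exponent `1/4 + 1/20`. -/
theorem exists_eig_bound (hk : 3 ≤ k) (f : CuspForm (Gamma0 1) (k : ℤ)) :
    ∃ C : ℝ, 0 ≤ C ∧ ∀ n : ℕ, |eig f n| ≤ C * (n : ℝ) ^ (3 / 10 : ℝ) := by
  obtain ⟨C, hC⟩ := Summary.cuspForm_coeff_bound (show (3 : ℤ) ≤ (k : ℤ) by exact_mod_cast hk) f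
  refine ⟨|C| * 121 ^ 6, by positivity, fun n => ?_⟩
  rcases Nat.eq_zero_or_pos n with rfl | hn
  · simp
  have hn1 : (1 : ℝ) ≤ n := by exact_mod_cast hn
  have hn0 : (0 : ℝ) < n := by linarith
  set e : ℝ := (n : ℝ) ^ (1 / 120 : ℝ) with he
  have hlog : 1 + Real.log n ≤ 121 * e := by
    have h := Real.log_le_rpow_div hn0.le (show (0 : ℝ) < 1 / 120 by norm_num)
    have h1 : 1 ≤ e := Real.one_le_rpow hn1 (by norm_num)
    rw [← he] at h
    linarith
  have hlog0 : 0 ≤ 1 + Real.log n := by linarith [Real.log_nonneg hn1]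
  have he6 : e ^ 6 = (n : ℝ) ^ (1 / 20 : ℝ) := by
    rw [he, ← Real.rpow_natCast, ← Real.rpow_mul hn0.le]
    norm_num
  rw [eig_apply, abs_div, abs_of_nonneg (Real.rpow_nonneg hn0.le _),
    div_le_iff₀ (Real.rpow_pos_of_pos hn0 _)]
  calc |(coef f n).re| ≤ ‖coef f n‖ := Complex.abs_re_le_norm _
    _ ≤ C * (n : ℝ) ^ (((k : ℤ) : ℝ) / 2 - 1 / 4) * (1 + Real.log n) ^ 6 := hC n hn
    _ ≤ |C| * (n : ℝ) ^ (((k : ℤ) : ℝ) / 2 - 1 / 4) * (121 * e) ^ 6 := by
        gcongr
        exact le_abs_self C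
    _ = |C| * 121 ^ 6 * ((n : ℝ) ^ (((k : ℤ) : ℝ) / 2 - 1 / 4) * (n : ℝ) ^ (1 / 20 : ℝ)) := by
        rw [mul_pow, he6]; ring
    _ = |C| * 121 ^ 6 * (n : ℝ) ^ (3 / 10 : ℝ) * (n : ℝ) ^ (((k : ℝ) - 1) / 2) := by
        rw [mul_assoc _ ((n : ℝ) ^ (3 / 10 : ℝ)), ← Real.rpow_add hn0, ← Real.rpow_add hn0]
        congr 2
        push_cast
        ring

theorem exists_powerSum_bound (hk : 3 ≤ k) {f : CuspForm (Gamma0 1) (k : ℤ)}
    (hf : IsEigenformOne f) : ∃ C : ℝ, 0 ≤ C ∧ ∀ p m : ℕ, p.Prime → m ≠ 0 →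
      |powerSum (eig f p) m| ≤ C * ((p : ℝ) ^ (3 / 10 : ℝ)) ^ m := by
  obtain ⟨C, hC0, hC⟩ := exists_eig_bound hk f
  refine ⟨2 * C, by positivity, fun p m hp hm => ?_⟩
  set q := (p : ℝ) ^ (3 / 10 : ℝ) with hq
  have hq1 : 1 ≤ q := Real.one_le_rpow (by exact_mod_cast hp.one_le) (by norm_num)
  have hb : ∀ j, |cheb (eig f p) j| ≤ C * q ^ j := fun j => by
    rw [← eig_prime_pow hf hp j]
    refine (hC (p ^ j)).trans_eq ?_
    rw [hq, Nat.cast_pow, ← Real.rpow_natCast, ← Real.rpow_mul (Nat.cast_nonneg p),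
      ← Real.rpow_natCast, ← Real.rpow_mul (Nat.cast_nonneg p), mul_comm (j : ℝ)]
  rcases m with _ | _ | m
  · exact absurd rfl hm
  · have h := hb 1
    simp only [cheb] at h
    simp only [powerSum, zero_add]
    nlinarith [mul_nonneg hC0 (pow_nonneg (zero_le_one.trans hq1) 1)]
  · rw [powerSum_eq_cheb]
    refine (abs_sub _ _).trans ((add_le_add (hb _) (hb _)).trans ?_)
    have h := mul_le_mul_of_nonneg_left (pow_le_pow_right₀ hq1 (by omega : m ≤ m + 1 + 1)) hC0
    linarith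

end FA.EigenPrimes

end
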