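import Fermat.Agent.EigenPrimes.CrossLine

/-!
# All cusp forms at the primes

A cusp form of level one is a combination of eigenforms, so the mean square of its coefficients at
primes is the sum of the squares of the multipliers; with the bound `p ^ (3/10)` for the
coefficients this makes at least `x ^ (2/5) / log x` of them non-zero.
-/

set_option autoImplicit false

noncomputable section

namespace FA.EigenPrimes

open UpperHalfPlane hiding I
open Complex CongruenceSubgroup Filter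
open scoped MatrixGroups Real Topology ComplexConjugate
open FA.KohnenNonvanishing (IsEigenformOne)

variable {k : ℕ}

theorem mem_span_eigenforms (F : CuspForm (Gamma0 1) (k : ℤ)) :
    F ∈ Submodule.span ℂ {f : CuspForm (Gamma0 1) (k : ℤ) | IsEigenformOne f} := by
  obtain ⟨S, v, hF, hv⟩ := KohnenNonvanishing.exists_joint_decomposition F
  rw [hF]
  refine Submodule.sum_mem _ fun χ hχ => ?_
  rcases eq_or_ne (v χ) 0 with h | h
  · rw [h]
    exact Submodule.zero_mem _
  obtain ⟨c, hc, he, -⟩ := KohnenNonvanishing.exists_eigenform_of_joint (hv χ hχ) h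
  rw [← inv_smul_smul₀ hc (v χ)]
  exact Submodule.smul_mem _ _ (Submodule.subset_span he)

/-- The normalised coefficient at `n` of any form. -/
def normCoeff (F : CuspForm (Gamma0 1) (k : ℤ)) (n : ℕ) : ℂ :=
  coef F n / (((n : ℝ) ^ (((k : ℝ) - 1) / 2) : ℝ) : ℂ)

theorem normCoeff_eigenform {f : CuspForm (Gamma0 1) (k : ℤ)} (hf : IsEigenformOne f) (n : ℕ) :
    normCoeff f n = (eig f n : ℂ) := by
  rw [normCoeff, eig_apply, ofReal_div, ofReal_re_coef hf]

theorem norm_normCoeff_sq (F : CuspForm (Gamma0 1) (k : ℤ)) (n : ℕ) :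
    ‖normCoeff F n‖ ^ 2 = ‖coef F n‖ ^ 2 / (n : ℝ) ^ ((k : ℝ) - 1) := by
  rw [normCoeff, norm_div, div_pow, Complex.norm_real,
    Real.norm_of_nonneg (Real.rpow_nonneg (Nat.cast_nonneg n) _),
    show (k : ℝ) - 1 = ((k : ℝ) - 1) / 2 * (2 : ℕ) by push_cast; ring,
    Real.rpow_mul (Nat.cast_nonneg n), Real.rpow_natCast]
  ring_nf

theorem normCoeff_sum (s : Finset (CuspForm (Gamma0 1) (k : ℤ)))
    (c : CuspForm (Gamma0 1) (k : ℤ) → ℂ) (n : ℕ) :
    normCoeff (∑ f ∈ s, c f • f) n = ∑ f ∈ s, c f * normCoeff f n := by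
  simp only [normCoeff, coef, ← VerticalSatoTate.coeffAt_apply, map_sum, map_smul, smul_eq_mul,
    Finset.sum_div, mul_div_assoc]

/-- `∑_{p ≤ x} λ p μ p log p ~ δ x`. -/
theorem tendsto_prime_product (hk : 3 ≤ k) {f g : CuspForm (Gamma0 1) (k : ℤ)}
    (hf : IsEigenformOne f) (hg : IsEigenformOne g) [Decidable (f = g)] :
    Tendsto (fun x => upToPrime (fun p => eig f p * eig g p * Real.log p) x / x) atTop
      (𝓝 (if f = g then 1 else 0)) := by
  split_ifs with h
  · subst h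
    refine (tendsto_prime_rankin hk hf).congr fun x => ?_
    unfold upToPrime
    congr 1
    refine Finset.sum_congr rfl fun p hp => ?_
    rw [rankinLift, primeLift_prime _ (Finset.mem_filter.1 hp).2,
      show powerSum (eig f p) 1 = eig f p from rfl]
    ring
  · refine (tendsto_prime_cross hf hg h hk).congr fun x => ?_
    unfold upToPrime
    congr 1
    refine Finset.sum_congr rfl fun p hp => ?_
    rw [crossLift, primeLift_prime _ (Finset.mem_filter.1 hp).2,
      show powerSum (eig f p) 1 = eig f p from rfl, show powerSum (eig g p) 1 = eig g p from rfl]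
    ring

/-- **The mean square at the primes of a combination of eigenforms.** -/
theorem tendsto_mean_square_combination (hk : 3 ≤ k) (s : Finset (CuspForm (Gamma0 1) (k : ℤ)))
    (hs : ∀ f ∈ s, IsEigenformOne f) (c : CuspForm (Gamma0 1) (k : ℤ) → ℂ) :
    Tendsto (fun x => upToPrime
        (fun p => ‖normCoeff (∑ f ∈ s, c f • f) p‖ ^ 2 * Real.log p) x / x) atTop
      (𝓝 (∑ f ∈ s, ‖c f‖ ^ 2)) := by
  classical
  have hexp : ∀ p : ℕ, ‖normCoeff (∑ f ∈ s, c f • f) p‖ ^ 2 * Real.log p =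
      ∑ f ∈ s, ∑ g ∈ s, (conj (c f) * c g).re * (eig f p * eig g p * Real.log p) := by
    intro p
    rw [Complex.sq_norm, show Complex.normSq (normCoeff (∑ f ∈ s, c f • f) p) =
        (conj (normCoeff (∑ f ∈ s, c f • f) p) * normCoeff (∑ f ∈ s, c f • f) p).re by
      rw [← Complex.normSq_eq_conj_mul_self, ofReal_re], normCoeff_sum, map_sum, Finset.sum_mul_sum,
      re_sum, Finset.sum_mul]
    refine Finset.sum_congr rfl fun f hf => ?_
    rw [re_sum, Finset.sum_mul]
    refine Finset.sum_congr rfl fun g hg => ?_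
    rw [normCoeff_eigenform (hs f hf), normCoeff_eigenform (hs g hg), map_mul, conj_ofReal,
      show conj (c f) * (eig f p : ℂ) * (c g * (eig g p : ℂ)) =
        ((eig f p * eig g p : ℝ) : ℂ) * (conj (c f) * c g) by push_cast; ring, re_ofReal_mul]
    ring
  have hlim := tendsto_finsetSum s fun f hf => tendsto_finsetSum s fun g hg =>
    ((tendsto_prime_product hk (hs f hf) (hs g hg)).const_mul (conj (c f) * c g).re)
  have hval : ∑ f ∈ s, ∑ g ∈ s, (conj (c f) * c g).re * (if f = g then (1 : ℝ) else 0) =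
      ∑ f ∈ s, ‖c f‖ ^ 2 := by
    refine Finset.sum_congr rfl fun f hf => ?_
    simp only [mul_ite, mul_one, mul_zero, Finset.sum_ite_eq, if_pos hf]
    rw [← Complex.normSq_eq_conj_mul_self, ofReal_re, Complex.sq_norm]
  rw [hval] at hlim
  refine hlim.congr fun x => ?_
  simp only [upToPrime, hexp]
  simp only [mul_div_assoc', ← Finset.sum_div, Finset.mul_sum]
  congr 1
  rw [Finset.sum_comm (s := (Finset.Icc 1 ⌊x⌋₊).filter Nat.Prime)]
  exact Finset.sum_congr rfl fun f _ => Finset.sum_comm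

theorem exists_mean_square (hk : 3 ≤ k) (F : CuspForm (Gamma0 1) (k : ℤ)) :
    ∃ (s : Finset (CuspForm (Gamma0 1) (k : ℤ))) (c : CuspForm (Gamma0 1) (k : ℤ) → ℂ),
      (∀ f ∈ s, IsEigenformOne f) ∧ F = ∑ f ∈ s, c f • f ∧
      Tendsto (fun x => upToPrime (fun p => ‖normCoeff F p‖ ^ 2 * Real.log p) x / x) atTop
        (𝓝 (∑ f ∈ s, ‖c f‖ ^ 2)) := by
  obtain ⟨c, hsub, hsum⟩ := Submodule.mem_span_set.1 (mem_span_eigenforms F)
  have hF : F = ∑ f ∈ c.support, c f • f := hsum.symm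
  exact ⟨c.support, c, fun f hf => hsub hf, hF,
    hF ▸ tendsto_mean_square_combination hk c.support (fun f hf => hsub hf) c⟩

/-- The primes at which the coefficient is non-zero. -/
def primeSupport (F : CuspForm (Gamma0 1) (k : ℤ)) (x : ℝ) : Finset ℕ :=
  ((Finset.Icc 1 ⌊x⌋₊).filter Nat.Prime).filter fun p => coef F p ≠ 0

theorem exists_count_lower (hk : 3 ≤ k) {F : CuspForm (Gamma0 1) (k : ℤ)} (hF : F ≠ 0) :
    ∃ c : ℝ, 0 < c ∧ ∀ᶠ x : ℝ in atTop,
      c * x ^ (2 / 5 : ℝ) / Real.log x ≤ ((primeSupport F x).card : ℝ) := by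
  obtain ⟨s, c, hs, hsum, hlim⟩ := exists_mean_square hk F
  set δ := ∑ f ∈ s, ‖c f‖ ^ 2
  have hδ : 0 < δ := by
    refine lt_of_le_of_ne (Finset.sum_nonneg fun f _ => sq_nonneg _) fun h0 => hF ?_
    rw [hsum]
    refine Finset.sum_eq_zero fun f hf => ?_
    have h1 := (Finset.sum_eq_zero_iff_of_nonneg fun f _ => sq_nonneg ‖c f‖).1 h0.symm f hf
    simp [norm_eq_zero.1 (pow_eq_zero_iff two_ne_zero |>.1 h1)]
  choose! B hB0 hB using fun f (_ : IsEigenformOne f) => exists_eig_bound hk f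
  set M := ∑ f ∈ s, ‖c f‖ * B f
  have hM : ∀ p : ℕ, ‖normCoeff F p‖ ≤ M * (p : ℝ) ^ (3 / 10 : ℝ) := fun p => by
    rw [hsum, normCoeff_sum, Finset.sum_mul]
    refine (norm_sum_le _ _).trans (Finset.sum_le_sum fun f hf => ?_)
    rw [norm_mul, normCoeff_eigenform (hs f hf), Complex.norm_real, Real.norm_eq_abs, mul_assoc]
    exact mul_le_mul_of_nonneg_left (hB f (hs f hf) p) (norm_nonneg _)
  refine ⟨δ / 2 / (M ^ 2 + 1), by positivity, ?_⟩
  filter_upwards [hlim.eventually (eventually_ge_nhds (half_lt_self hδ)),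
    eventually_gt_atTop (1 : ℝ)] with x hx hx1
  have hx0 : 0 < x := by linarith
  have hlog : 0 < Real.log x := Real.log_pos hx1
  rw [le_div_iff₀ hx0, upToPrime] at hx
  have hterm : ∀ p ∈ (Finset.Icc 1 ⌊x⌋₊).filter Nat.Prime,
      ‖normCoeff F p‖ ^ 2 * Real.log p ≤
        if coef F p ≠ 0 then (M ^ 2 + 1) * x ^ (3 / 5 : ℝ) * Real.log x else 0 := by
    intro p hp
    obtain ⟨hp1, hp2⟩ := Finset.mem_filter.1 hp
    split_ifs with h0
    · have hpx : (p : ℝ) ≤ x := (Nat.le_floor_iff hx0.le).1 (Finset.mem_Icc.1 hp1).2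
      have hp0 : (0 : ℝ) < p := Nat.cast_pos.2 hp2.pos
      have h1 : ‖normCoeff F p‖ ^ 2 ≤ M ^ 2 * x ^ (3 / 5 : ℝ) := by
        calc ‖normCoeff F p‖ ^ 2 ≤ (M * (p : ℝ) ^ (3 / 10 : ℝ)) ^ 2 :=
              pow_le_pow_left₀ (norm_nonneg _) (hM p) 2
          _ = M ^ 2 * (p : ℝ) ^ (3 / 5 : ℝ) := by
              rw [mul_pow, ← Real.rpow_natCast ((p : ℝ) ^ (3 / 10 : ℝ)) 2, ← Real.rpow_mul hp0.le]
              norm_num
          _ ≤ _ := mul_le_mul_of_nonneg_left (Real.rpow_le_rpow hp0.le hpx (by norm_num))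
              (sq_nonneg M)
      exact mul_le_mul (h1.trans (mul_le_mul_of_nonneg_right (by linarith)
        (Real.rpow_nonneg hx0.le _))) (Real.log_le_log hp0 hpx) (Real.log_natCast_nonneg p)
        (by positivity)
    · simp [normCoeff, not_not.1 h0]
  have hN := hx.trans (Finset.sum_le_sum hterm)
  rw [← Finset.sum_filter, Finset.sum_const, nsmul_eq_mul] at hN
  rw [div_mul_eq_mul_div, div_div, div_le_iff₀ (by positivity)]
  refine le_of_mul_le_mul_right (a := x ^ (3 / 5 : ℝ)) ?_ (Real.rpow_pos_of_pos hx0 _)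
  rw [mul_assoc (δ / 2), ← Real.rpow_add hx0, show (2 / 5 : ℝ) + 3 / 5 = 1 by norm_num,
    Real.rpow_one]
  exact hN.trans_eq (by rw [primeSupport]; ring)

/-- Forms differing at fewer than `x ^ (1/3)` primes are equal. -/
theorem eq_of_few_exceptions (hk : 3 ≤ k) {F G : CuspForm (Gamma0 1) (k : ℤ)}
    (h : ∃ C : ℝ, ∀ᶠ x : ℝ in atTop,
      ((((Finset.Icc 1 ⌊x⌋₊).filter Nat.Prime).filter fun p => coef F p ≠ coef G p).card : ℝ) ≤
        C * x ^ (1 / 3 : ℝ)) : F = G := by
  by_contra hne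
  obtain ⟨C, hC⟩ := h
  obtain ⟨c, hc, hlow⟩ := exists_count_lower hk (sub_ne_zero.2 hne)
  have hsmall := (isLittleO_log_rpow_atTop (show (0 : ℝ) < 1 / 15 by norm_num)).bound
    (show 0 < c / (|C| + 1) by positivity)
  obtain ⟨x, ⟨⟨hx, hlow'⟩, hs'⟩, hx1⟩ :=
    (((hC.and hlow).and hsmall).and (eventually_gt_atTop (1 : ℝ))).exists
  have hx0 : 0 < x := by linarith
  have hlog : 0 < Real.log x := Real.log_pos hx1
  have hcard : primeSupport (F - G) x =
      ((Finset.Icc 1 ⌊x⌋₊).filter Nat.Prime).filter fun p => coef F p ≠ coef G p := by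
    refine Finset.filter_congr fun p _ => ?_
    rw [coef, ← VerticalSatoTate.coeffAt_apply, map_sub, sub_ne_zero,
      VerticalSatoTate.coeffAt_apply, VerticalSatoTate.coeffAt_apply]
  rw [hcard] at hlow'
  rw [Real.norm_of_nonneg hlog.le, Real.norm_of_nonneg (Real.rpow_nonneg hx0.le _),
    div_mul_eq_mul_div, le_div_iff₀ (by positivity)] at hs'
  have h1 := hlow'.trans hx
  rw [div_le_iff₀ hlog] at h1
  have h2 : x ^ (2 / 5 : ℝ) = x ^ (1 / 3 : ℝ) * x ^ (1 / 15 : ℝ) := by
    rw [← Real.rpow_add hx0]; norm_num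
  have hpos := Real.rpow_pos_of_pos hx0 (1 / 3 : ℝ)
  have h3 := mul_le_mul_of_nonneg_left (le_abs_self C) (mul_nonneg hpos.le hlog.le)
  nlinarith [mul_le_mul_of_nonneg_left hs' hpos.le, mul_pos hpos hlog]

end FA.EigenPrimes

end
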