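import Fermat.Agent.EigenPrimes.Line

/-!
# The convolution of two eigenforms

Eigenforms with different eigenvalues are orthogonal, so by polarisation the series
`ζ(2 w) ∑ λ n μ n n^(-w)` of two of them continues to an entire function; its logarithmic derivative
has the products of the power sums as coefficients.
-/

set_option autoImplicit false

noncomputable section

namespace FA.EigenPrimes

section Algebra

open PowerSeries

/-- The reciprocal of the local series of the convolution. -/
def quartic (x y : ℝ) : ℝ⟦X⟧ :=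
  1 - C (x * y) * X + C (x ^ 2 + y ^ 2 - 2) * (X * X) - C (x * y) * (X * (X * X)) +
    X * (X * (X * X))

/-- The products of the coefficients. -/
def prodSeries (x y : ℝ) : ℝ⟦X⟧ := mk fun r => cheb x r * cheb y r

/-- The local series of the convolution. -/
def crossSeries (x y : ℝ) : ℝ⟦X⟧ := evenSeries * prodSeries x y

/-- The products of the power sums, from degree one. -/
def crossSums (x y : ℝ) : ℝ⟦X⟧ := mk fun i => if i = 0 then 0 else powerSum x i * powerSum y i

theorem quartic_mul (x y : ℝ) (F : ℝ⟦X⟧) : F * quartic x y =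
    F - C (x * y) * (X * F) + C (x ^ 2 + y ^ 2 - 2) * (X * (X * F)) -
      C (x * y) * (X * (X * (X * F))) + X * (X * (X * (X * F))) := by
  rw [quartic]
  ring

theorem prodSeries_mul (x y : ℝ) : prodSeries x y * quartic x y = 1 - X * X := by
  rw [prodSeries, quartic_mul]
  obtain ⟨a, ha⟩ : ∃ a, a = x * y := ⟨_, rfl⟩
  obtain ⟨b, hb⟩ : ∃ b, b = x ^ 2 + y ^ 2 - 2 := ⟨_, rfl⟩
  rw [← ha, ← hb]
  ext n
  rcases n with _ | _ | _ | _ | n <;>
    simp [coeff_one, coeff_mk, coeff_X, cheb] <;> simp only [ha, hb] <;> ring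

theorem crossSeries_mul (x y : ℝ) : crossSeries x y * quartic x y = 1 := by
  rw [crossSeries, mul_assoc, prodSeries_mul, evenSeries_mul]

theorem derivative_quartic (x y : ℝ) : -(X * d⁄dX ℝ (quartic x y)) =
    C (x * y) * X - 2 * (C (x ^ 2 + y ^ 2 - 2) * (X * X)) +
      3 * (C (x * y) * (X * (X * X))) - 4 * (X * (X * (X * X))) := by
  simp only [quartic, map_add, map_sub, Derivation.leibniz, derivative_X, derivative_C,
    Derivation.map_one_eq_zero, smul_eq_mul, mul_zero, add_zero, mul_one]
  ring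

theorem crossSums_mul (x y : ℝ) :
    crossSums x y * quartic x y = -(X * d⁄dX ℝ (quartic x y)) := by
  rw [derivative_quartic, crossSums, quartic_mul,
    show (2 : ℝ⟦X⟧) = C (2 : ℝ) from (map_ofNat _ 2).symm,
    show (3 : ℝ⟦X⟧) = C (3 : ℝ) from (map_ofNat _ 3).symm,
    show (4 : ℝ⟦X⟧) = C (4 : ℝ) from (map_ofNat _ 4).symm]
  obtain ⟨a, ha⟩ : ∃ a, a = x * y := ⟨_, rfl⟩
  obtain ⟨b, hb⟩ : ∃ b, b = x ^ 2 + y ^ 2 - 2 := ⟨_, rfl⟩
  rw [← ha, ← hb]
  ext n
  rcases n with _ | _ | _ | _ | _ | n <;>
    simp [coeff_mk, coeff_X, powerSum] <;> simp only [ha, hb] <;> ring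

/-- **Newton's identity for two forms.** -/
theorem crossSeries_newton (x y : ℝ) (r : ℕ) :
    (r : ℝ) * coeff r (crossSeries x y) = coeff r (crossSums x y * crossSeries x y) :=
  nsmul_coeff_eq (crossSeries_mul x y) (crossSums_mul x y) r

end Algebra

open UpperHalfPlane hiding I
open Complex CongruenceSubgroup LSeries Filter
open scoped MatrixGroups Real Topology
open FA.KohnenNonvanishing (IsEigenformOne)

variable {k : ℕ}

theorem coef_one {f : CuspForm (Gamma0 1) (k : ℤ)} (hf : IsEigenformOne f) : coef f 1 = 1 := hf.1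

theorem eq_of_coef_prime {f g : CuspForm (Gamma0 1) (k : ℤ)} (hf : IsEigenformOne f)
    (hg : IsEigenformOne g) (h : ∀ p : ℕ, p.Prime → coef f p = coef g p) : f = g := by
  refine sub_eq_zero.1 (KohnenNonvanishing.eq_zero_of_joint (f := f - g)
    (χ := fun l => coef f l) (fun l => ?_) ?_)
  · rw [map_sub, heckeT_eq_smul hf l.2, heckeT_eq_smul hg l.2, ← h l l.2, smul_sub]
  · rw [← VerticalSatoTate.coeffAt_apply, map_sub, VerticalSatoTate.coeffAt_apply,
      VerticalSatoTate.coeffAt_apply, hf.1, hg.1, sub_self]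

theorem pairing_eq_zero {f g : CuspForm (Gamma0 1) (k : ℤ)} (hf : IsEigenformOne f)
    (hg : IsEigenformOne g) (hne : f ≠ g) : Poincare.pairing f g = 0 := by
  by_contra h0
  refine hne (eq_of_coef_prime hf hg fun p hp => ?_)
  have h := VerticalSatoTate.pairing_heckeT hp hp.not_dvd_one f g
  have hr : Poincare.pairing f (coef g p • g) = coef g p * Poincare.pairing f g := by
    rw [← Poincare.pairing_symm, Poincare.pairing_smul_left, map_mul, Complex.conj_conj,
      Poincare.pairing_symm]
  rw [heckeT_eq_smul hf hp, heckeT_eq_smul hg hp, Poincare.pairing_smul_left,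
    conj_coef_prime hf hp, hr] at h
  exact mul_right_cancel₀ h0 h

/-- The coefficients of `ζ(2 w) ∑ λ n μ n n ^ (-w)`. -/
def crossCoeff (f g : CuspForm (Gamma0 1) (k : ℤ)) : ArithmeticFunction ℝ :=
  sqInd * (eig f).pmul (eig g)

/-- The logarithmic derivative of the convolution of two forms. -/
def crossLift (f g : CuspForm (Gamma0 1) (k : ℤ)) : ArithmeticFunction ℝ :=
  primeLift fun p i => powerSum (eig f p) i * powerSum (eig g p) i

theorem two_mul_abs_crossLift_le (f g : CuspForm (Gamma0 1) (k : ℤ)) (n : ℕ) :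
    2 * |crossLift f g n| ≤ rankinLift f n + rankinLift g n := by
  show 2 * |(if IsPrimePow n then Real.log n.minFac * _ else 0 : ℝ)| ≤
    (if IsPrimePow n then Real.log n.minFac * _ ^ 2 else 0) +
      if IsPrimePow n then Real.log n.minFac * _ ^ 2 else 0
  split_ifs
  · have hl := Real.log_natCast_nonneg n.minFac
    set u := powerSum (eig f n.minFac) (n.factorization n.minFac)
    set v := powerSum (eig g n.minFac) (n.factorization n.minFac)
    rw [abs_mul, abs_of_nonneg hl, abs_mul]
    nlinarith [mul_nonneg hl (sq_nonneg (|u| - |v|)), sq_abs u, sq_abs v]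
  · simp

/-- The continuation, by polarisation. -/
def crossHat (f g : CuspForm (Gamma0 1) (k : ℤ)) (w : ℂ) : ℂ :=
  dslope (fun z => rHat (f + (1 : ℂ) • g) z - rHat (f + (-1 : ℂ) • g) z) 1 w / 4

theorem differentiable_crossHat (f g : CuspForm (Gamma0 1) (k : ℤ)) :
    Differentiable ℂ (crossHat f g) := by
  refine Differentiable.div_const (fun w => ?_) 4
  exact ((Complex.differentiableOn_dslope (univ_mem (f := 𝓝 (1 : ℂ)))).2
    ((differentiable_rHat _).sub (differentiable_rHat _)).differentiableOn w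
      (Set.mem_univ w)).differentiableAt univ_mem

theorem rHat_one (h : CuspForm (Gamma0 1) (k : ℤ)) : rHat h 1 =
    (π : ℂ) ^ (1 : ℂ) * ((4 * π : ℝ) : ℂ) ^ ((1 : ℂ) + k - 1) / 2 *
      (Gamma ((1 : ℂ) + k - 1))⁻¹ * (RankinSelberg.mass h : ℂ) := by
  simp only [rHat, sub_self, zero_mul, mul_zero, zero_add, Gamma_one, inv_one, mul_one]

theorem rHat_neg_two (h : CuspForm (Gamma0 1) (k : ℤ)) : rHat h (-2) = 0 := by
  have h2 : Gamma (-2 : ℂ) = 0 := by simpa using Complex.Gamma_neg_nat_eq_zero 2
  have h1 : Gamma ((-2 : ℂ) + 1) = 0 := by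
    rw [show (-2 : ℂ) + 1 = -((1 : ℕ) : ℂ) by norm_num]
    exact Complex.Gamma_neg_nat_eq_zero 1
  simp [rHat, h1, h2]

section Pair

variable {f g : CuspForm (Gamma0 1) (k : ℤ)} (hf : IsEigenformOne f) (hg : IsEigenformOne g)

include hf hg

theorem crossCoeff_one : crossCoeff f g 1 = 1 := by
  rw [crossCoeff, ArithmeticFunction.mul_apply_one, ArithmeticFunction.pmul_apply, eig_one hf,
    eig_one hg, sqInd_isMultiplicative.map_one]
  norm_num

theorem summable_pmul_eig {s : ℂ} (hs : 1 < s.re) :
    LSeriesSummable (cast' ((eig f).pmul (eig g))) s :=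
  lSeriesSummable_of_le (v := fun n => eigSq f n + eigSq g n) (fun n _ => by
    simp only [eigSq, ArithmeticFunction.pmul_apply, abs_mul]
    nlinarith [sq_nonneg (|eig f n| - |eig g n|), abs_mul_abs_self (eig f n),
      abs_mul_abs_self (eig g n), abs_nonneg (eig f n), abs_nonneg (eig g n)])
    (lSeriesSummable_add (summable_eigSq hf hs) (summable_eigSq hg hs))

omit hf hg in
theorem summable_sqInd {s : ℂ} (hs : 1 < s.re) : LSeriesSummable (cast' sqInd) s :=
  lSeriesSummable_of_le (fun n _ => by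
    rw [abs_of_nonneg (sqInd_nonneg n)]; exact sqInd_le_one n) (lSeriesSummable_one_real hs)

theorem summable_crossCoeff {s : ℂ} (hs : 1 < s.re) :
    LSeriesSummable (cast' (crossCoeff f g)) s :=
  lSeriesSummable_mul (summable_sqInd hs) (summable_pmul_eig hf hg hs)

theorem summable_crossLift {s : ℂ} (hs : 1 < s.re) :
    LSeriesSummable (cast' (crossLift f g)) s :=
  lSeriesSummable_of_le (v := fun n => rankinLift f n + rankinLift g n) (fun n _ => by
    linarith [two_mul_abs_crossLift_le f g n, abs_nonneg (crossLift f g n)])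
    (lSeriesSummable_add (summable_rankinLift hf hs) (summable_rankinLift hg hs))

theorem crossCoeff_prime_pow {p : ℕ} (hp : p.Prime) (r : ℕ) :
    crossCoeff f g (p ^ r) = PowerSeries.coeff r (crossSeries (eig f p) (eig g p)) := by
  rw [crossCoeff, mul_prime_pow _ _ hp, crossSeries, evenSeries, prodSeries]
  simp only [sqInd_prime_pow hp, ArithmeticFunction.pmul_apply, eig_prime_pow hf hp,
    eig_prime_pow hg hp]

theorem isLogDeriv_crossCoeff : IsLogDeriv (crossLift f g) (crossCoeff f g) := by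
  have hm : (crossCoeff f g).IsMultiplicative := sqInd_isMultiplicative.mul
    ((eig_isMultiplicative hf).pmul (eig_isMultiplicative hg))
  refine isLogDeriv_of_local hm _ fun p r hp => ?_
  rw [crossCoeff_prime_pow hf hg hp]
  simp only [crossCoeff_prime_pow hf hg hp]
  refine (crossSeries_newton (eig f p) (eig g p) r).trans ?_
  congr 2
  exact PowerSeries.ext fun i => by rw [PowerSeries.coeff_mk]

omit hf hg in
theorem eig_mul_eig (n : ℕ) :
    eig f n * eig g n = (coef f n).re * (coef g n).re / (n : ℝ) ^ ((k : ℝ) - 1) := by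
  rw [eig_apply, eig_apply, div_mul_div_comm,
    show (k : ℝ) - 1 = ((k : ℝ) - 1) / 2 * (2 : ℕ) by push_cast; ring,
    Real.rpow_mul (Nat.cast_nonneg n), Real.rpow_natCast, sq]
  congr 2 <;> ring_nf

theorem coeffSq_polar (n : ℕ) :
    RankinSelberg.coeffSq (f + (1 : ℂ) • g) n - RankinSelberg.coeffSq (f + (-1 : ℂ) • g) n =
      4 * ((coef f n).re * (coef g n).re) := by
  simp only [RankinSelberg.coeffSq, RankinSelberg.coeff_add_smul, one_mul, neg_one_mul]
  show ‖coef f n + coef g n‖ ^ 2 - ‖coef f n + -coef g n‖ ^ 2 = _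
  conv_lhs => rw [← ofReal_re_coef hf n, ← ofReal_re_coef hg n, ← ofReal_neg, ← ofReal_add,
    ← ofReal_add, Complex.norm_real, Complex.norm_real, Real.norm_eq_abs, Real.norm_eq_abs,
    sq_abs, sq_abs]
  ring

theorem crossHat_eq (hk : 1 ≤ k) (hne : f ≠ g) {w : ℂ} (hw : 1 < w.re) :
    crossHat f g w = LSeries (cast' (crossCoeff f g)) w := by
  have hp := pairing_eq_zero hf hg hne
  have hp' : Poincare.pairing g f = 0 := pairing_eq_zero hg hf (Ne.symm hne)
  have hm : (RankinSelberg.mass (f + (1 : ℂ) • g) : ℂ) =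
      (RankinSelberg.mass (f + (-1 : ℂ) • g) : ℂ) := by
    rw [RankinSelberg.mass_add_smul, RankinSelberg.mass_add_smul]
    simp [hp, hp']
  have h1 : w ≠ 1 := fun e => by simp [e] at hw
  have hre : (k : ℝ) < (w + k - 1).re := by
    simp only [sub_re, add_re, natCast_re, one_re]
    linarith
  rw [crossHat, dslope_of_ne _ h1, slope_def_field, rHat_one, rHat_one, hm, sub_self, sub_zero,
    rHat_eq_series hk _ hw, rHat_eq_series hk _ hw, crossCoeff,
    lSeries_mul (summable_sqInd hw) (summable_pmul_eig hf hg hw), lSeries_sqInd hw]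
  have e : RankinSelberg.series (f + (1 : ℂ) • g) (w + k - 1) -
      RankinSelberg.series (f + (-1 : ℂ) • g) (w + k - 1) =
      4 * LSeries (cast' ((eig f).pmul (eig g))) w := by
    rw [RankinSelberg.series, RankinSelberg.series, ← LSeries_sub
      (RankinSelberg.lSeriesSummable _ hre) (RankinSelberg.lSeriesSummable _ hre), LSeries, LSeries,
      ← tsum_mul_left]
    refine tsum_congr fun n => ?_
    rcases eq_or_ne n 0 with rfl | hn
    · simp
    rw [term_of_ne_zero hn, term_of_ne_zero hn, Pi.sub_apply, ← ofReal_sub, coeffSq_polar hf hg,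
      cast', ArithmeticFunction.pmul_apply, eig_mul_eig, ofReal_div,
      ofReal_cpow (Nat.cast_nonneg n), div_div, ofReal_natCast,
      ← cpow_add _ _ (Nat.cast_ne_zero.2 hn), ofReal_mul, mul_div_assoc]
    push_cast
    ring_nf
  have h1' : w - 1 ≠ 0 := sub_ne_zero.2 h1
  rw [← mul_sub, ← mul_sub, e]
  field_simp

theorem deriv_crossHat (hk : 1 ≤ k) (hne : f ≠ g) {w : ℂ} (hw : 1 < w.re) :
    deriv (crossHat f g) w = -LSeries (cast' (crossLift f g)) w * crossHat f g w := by
  rw [(lSeries_eventuallyEq (fun _ h => crossHat_eq hf hg hk hne h) hw).deriv_eq,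
    crossHat_eq hf hg hk hne hw]
  exact deriv_lSeries_of_isLogDeriv (isLogDeriv_crossCoeff hf hg)
    (fun _ h => summable_crossLift hf hg h) (fun _ h => summable_crossCoeff hf hg h) hw

theorem exists_crossHat_ne_zero (hk : 1 ≤ k) (hne : f ≠ g) : ∃ w, crossHat f g w ≠ 0 := by
  obtain ⟨s, hs, hs'⟩ := exists_lSeries_ne_zero (f := cast' (crossCoeff f g))
    (fun _ h => summable_crossCoeff hf hg h) (by simp [cast', crossCoeff_one hf hg])
  exact ⟨s, by rwa [crossHat_eq hf hg hk hne hs]⟩

theorem crossHat_ne_zero_of_one_lt (hk : 1 ≤ k) (hne : f ≠ g) {w : ℂ} (hw : 1 < w.re) :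
    crossHat f g w ≠ 0 := by
  obtain ⟨w₁, h₁⟩ := exists_crossHat_ne_zero hf hg hk hne
  exact ne_zero_of_deriv_eq (differentiable_crossHat f g) h₁
    (continuousOn_lSeries fun _ h => summable_crossLift hf hg h).neg
    (fun _ h => deriv_crossHat hf hg hk hne h) hw

end Pair

end FA.EigenPrimes

end
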