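import Fermat.Agent.EigenPrimes.Line
import Fermat.Agent.Root.SummaryWienerIkehara

/-!
# Sums over prime powers and over primes

The theorem of Wiener and Ikehara for the logarithmic derivatives; the higher prime powers are
negligible.
-/

set_option autoImplicit false

noncomputable section

namespace FA.EigenPrimes

open UpperHalfPlane hiding I
open Complex CongruenceSubgroup LSeries Filter
open scoped MatrixGroups Real Topology ArithmeticFunction.vonMangoldt
open FA.KohnenNonvanishing (IsEigenformOne)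

variable {k : ℕ}

/-- `∑_{n ≤ x} u n`. -/
def upTo (u : ℕ → ℝ) (x : ℝ) : ℝ := ∑ n ∈ Finset.Icc 1 ⌊x⌋₊, u n

/-- `∑_{p ≤ x} u p`. -/
def upToPrime (u : ℕ → ℝ) (x : ℝ) : ℝ := ∑ p ∈ (Finset.Icc 1 ⌊x⌋₊).filter Nat.Prime, u p

theorem continuousOn_logDeriv {F : ℂ → ℂ} (hF : Differentiable ℂ F)
    (h : ∀ w : ℂ, 1 ≤ w.re → F w ≠ 0) :
    ContinuousOn (fun w => -(deriv F w / F w)) {w | 1 ≤ w.re} := fun w hw =>
  ((hF.analyticAt w).deriv.continuousAt.div hF.continuous.continuousAt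
    (h w hw)).neg.continuousWithinAt

theorem neg_deriv_div {F : ℂ → ℂ} {w H : ℂ} (h0 : F w ≠ 0) (h : deriv F w = H * F w) :
    -(deriv F w / F w) = -H := by
  rw [h, mul_div_cancel_right₀ _ h0]

theorem tendsto_vonMangoldt : Tendsto (fun x => upTo (fun n => Λ n) x / x) atTop (𝓝 1) := by
  refine Summary.wiener_ikehara_dirichlet (fun _ => ArithmeticFunction.vonMangoldt_nonneg)
    (fun σ hσ => ArithmeticFunction.LSeriesSummable_vonMangoldt (by simpa using hσ))
    (continuousOn_logDeriv differentiable_zHat fun _ h => zHat_ne_zero h) fun s hs => ?_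
  rw [neg_deriv_div (zHat_ne_zero hs.le) (deriv_zHat hs)]
  push_cast
  ring

section Eigenform

variable {f : CuspForm (Gamma0 1) (k : ℤ)} (hf : IsEigenformOne f) (hk : 1 ≤ k)

include hf hk

theorem tendsto_rankinLift : Tendsto (fun x => upTo (rankinLift f) x / x) atTop (𝓝 1) := by
  refine Summary.wiener_ikehara_dirichlet (rankinLift_nonneg f)
    (fun σ hσ => summable_rankinLift hf (by simpa using hσ))
    (continuousOn_logDeriv (differentiable_rHat f) fun _ h => rHat_ne_zero hf hk h) fun s hs => ?_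
  rw [neg_deriv_div (rHat_ne_zero hf hk hs.le) (deriv_rHat hk hf hs)]
  push_cast
  ring

theorem tendsto_eigLift : Tendsto (fun x => upTo (eigLift f) x / x) atTop (𝓝 0) := by
  have hZ : ∀ s : ℂ, 1 < s.re → LSeriesSummable (fun n => (Λ n : ℂ)) s := fun _ h =>
    ArithmeticFunction.LSeriesSummable_vonMangoldt h
  have key := Summary.wiener_ikehara_dirichlet
    (a := fun n => Λ n + 2 * eigLift f n + rankinLift f n) (A := 2)
    (G := fun w => -(deriv zHat w / zHat w) + 2 * -(deriv (lHat f) w / lHat f w) +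
      -(deriv (rHat f) w / rHat f w))
    (fun n => by linarith [two_mul_abs_eigLift_le f n, neg_abs_le (eigLift f n)])
    (fun σ hσ => lSeriesSummable_add (lSeriesSummable_add (hZ _ (by simpa using hσ))
      (lSeriesSummable_const_mul 2 (summable_eigLift hf (by simpa using hσ))))
      (summable_rankinLift hf (by simpa using hσ)))
    (((continuousOn_logDeriv differentiable_zHat fun _ h => zHat_ne_zero h).add
      (continuousOn_const.mul (continuousOn_logDeriv (differentiable_lHat (by omega) f)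
        fun _ h => lHat_ne_zero hf hk h))).add
      (continuousOn_logDeriv (differentiable_rHat f) fun _ h => rHat_ne_zero hf hk h))
    fun s hs => ?_
  · have h := (((key.sub tendsto_vonMangoldt).sub (tendsto_rankinLift hf hk)).div_const 2)
    norm_num at h
    refine h.congr fun x => ?_
    simp only [upTo, Finset.sum_add_distrib, ← Finset.mul_sum]
    ring
  · have e : (fun n => ((Λ n + 2 * eigLift f n + rankinLift f n : ℝ) : ℂ)) =
        (fun n => (Λ n : ℂ)) + (2 : ℂ) • cast' (eigLift f) + cast' (rankinLift f) := by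
      funext n
      simp [cast']
    rw [e, LSeries_add ((hZ s hs).add ((summable_eigLift hf hs).smul 2))
      (summable_rankinLift hf hs), LSeries_add (hZ s hs) ((summable_eigLift hf hs).smul 2),
      LSeries_smul, neg_deriv_div (zHat_ne_zero hs.le) (deriv_zHat hs),
      neg_deriv_div (lHat_ne_zero hf hk hs.le) (deriv_lHat hf hk hs),
      neg_deriv_div (rHat_ne_zero hf hk hs.le) (deriv_rHat hk hf hs)]
    push_cast
    ring

end Eigenform

/-! ## Higher prime powers -/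

/-- `Λ + gR` away from the primes. -/
def higherPart (f : CuspForm (Gamma0 1) (k : ℤ)) (n : ℕ) : ℝ :=
  if n.Prime then 0 else Λ n + rankinLift f n

theorem higherPart_nonneg (f : CuspForm (Gamma0 1) (k : ℤ)) (n : ℕ) : 0 ≤ higherPart f n := by
  unfold higherPart
  split_ifs
  · exact le_rfl
  · exact add_nonneg ArithmeticFunction.vonMangoldt_nonneg (rankinLift_nonneg f n)

theorem summable_mul_rpow {u : ℕ → ℝ} (h0 : u 0 = 0) {σ : ℝ}
    (h : LSeriesSummable (fun n => (u n : ℂ)) (σ : ℂ)) :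
    Summable fun n => u n * (n : ℝ) ^ (-σ) := by
  refine Summable.of_norm_bounded h.norm fun n => ?_
  rcases eq_or_ne n 0 with rfl | hn
  · simp [h0]
  rw [norm_term_eq, if_neg hn, Complex.norm_real, norm_mul, ofReal_re,
    Real.rpow_neg (Nat.cast_nonneg n), norm_inv,
    Real.norm_of_nonneg (Real.rpow_nonneg (Nat.cast_nonneg n) σ), div_eq_mul_inv]

theorem higherPart_prime_pow_le {f : CuspForm (Gamma0 1) (k : ℤ)} {C : ℝ}
    (hC : ∀ p m : ℕ, p.Prime → m ≠ 0 →
      |powerSum (eig f p) m| ≤ C * ((p : ℝ) ^ (3 / 10 : ℝ)) ^ m) {p : ℕ} (hp : p.Prime) (j : ℕ) :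
    higherPart f (p ^ (j + 2)) * ((p ^ (j + 2) : ℕ) : ℝ) ^ (-(24 / 25) : ℝ) ≤
      (2 * C ^ 2 * (rankinLift f p * (p : ℝ) ^ (-(33 / 25) : ℝ)) +
        (C ^ 2 + 9) * 2 * (Λ p * (p : ℝ) ^ (-(27 / 25) : ℝ))) *
        ((2 : ℝ) ^ (-(9 / 25) : ℝ)) ^ j := by
  have hp0 : (0 : ℝ) < p := Nat.cast_pos.2 hp.pos
  have hp1 : (1 : ℝ) ≤ p := by exact_mod_cast hp.one_le
  have hl := Real.log_natCast_nonneg p
  have hnp : ¬ (p ^ (j + 2)).Prime := Nat.Prime.not_prime_pow (by omega)
  set r : ℝ := (2 : ℝ) ^ (-(9 / 25) : ℝ) with hr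
  have hpow : ((p ^ (j + 2) : ℕ) : ℝ) ^ (-(24 / 25) : ℝ) =
      (p : ℝ) ^ (((j + 2 : ℕ) : ℝ) * -(24 / 25)) := by
    rw [Nat.cast_pow, ← Real.rpow_natCast, ← Real.rpow_mul hp0.le]
  rw [hpow, higherPart, if_neg hnp, ArithmeticFunction.vonMangoldt_apply_pow (by omega),
    ArithmeticFunction.vonMangoldt_apply_prime hp, rankinLift,
    primeLift_prime_pow _ hp (by omega), primeLift_prime _ hp]
  set x := eig f p with hx
  rw [show powerSum x 1 = x from rfl]
  rcases j with _ | j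
  · have h1 := hC p 1 hp one_ne_zero
    rw [pow_one, show powerSum (eig f p) 1 = x from rfl] at h1
    have h2 : x ^ 2 ≤ C ^ 2 * (p : ℝ) ^ (3 / 5 : ℝ) := by
      calc x ^ 2 = |x| ^ 2 := (sq_abs x).symm
        _ ≤ (C * (p : ℝ) ^ (3 / 10 : ℝ)) ^ 2 := pow_le_pow_left₀ (abs_nonneg x) h1 2
        _ = _ := by
          rw [mul_pow, ← Real.rpow_natCast ((p : ℝ) ^ (3 / 10 : ℝ)) 2, ← Real.rpow_mul hp0.le]
          norm_num
    have h3 : (1 + (x ^ 2 - 2) ^ 2) ≤ 2 * C ^ 2 * (p : ℝ) ^ (3 / 5 : ℝ) * x ^ 2 + 9 := by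
      nlinarith [mul_le_mul_of_nonneg_right h2 (sq_nonneg x), sq_nonneg (x ^ 2 + 2)]
    have h4 : (p : ℝ) ^ (-(48 / 25) : ℝ) ≤ (p : ℝ) ^ (-(27 / 25) : ℝ) :=
      Real.rpow_le_rpow_of_exponent_le hp1 (by norm_num)
    have h5 : (p : ℝ) ^ (3 / 5 : ℝ) * (p : ℝ) ^ (-(48 / 25) : ℝ) =
        (p : ℝ) ^ (-(33 / 25) : ℝ) := by
      rw [← Real.rpow_add hp0]; norm_num
    rw [show (((0 + 2 : ℕ) : ℕ) : ℝ) * (-(24 / 25)) = -(48 / 25) by norm_num, pow_zero, mul_one,
      show powerSum x (0 + 2) = x ^ 2 - 2 by simp only [powerSum]; ring]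
    set P := (p : ℝ) ^ (-(48 / 25) : ℝ)
    have hP : 0 ≤ Real.log p * P := mul_nonneg hl (Real.rpow_nonneg hp0.le _)
    calc (Real.log p + Real.log p * (x ^ 2 - 2) ^ 2) * P
        = (Real.log p * P) * (1 + (x ^ 2 - 2) ^ 2) := by ring
      _ ≤ (Real.log p * P) * (2 * C ^ 2 * (p : ℝ) ^ (3 / 5 : ℝ) * x ^ 2 + 9) :=
          mul_le_mul_of_nonneg_left h3 hP
      _ = 2 * C ^ 2 * (Real.log p * x ^ 2 * ((p : ℝ) ^ (3 / 5 : ℝ) * P)) +
          9 * (Real.log p * P) := by ring
      _ ≤ _ := by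
          rw [h5]
          nlinarith [mul_le_mul_of_nonneg_left h4 hl, sq_nonneg C, hP,
            mul_nonneg (sq_nonneg C) hP]
  · set m := j + 1 + 2
    set q := (p : ℝ) ^ (3 / 10 : ℝ)
    have hq1 : 1 ≤ q := Real.one_le_rpow hp1 (by norm_num)
    have h1 : powerSum x m ^ 2 ≤ C ^ 2 * (q ^ m) ^ 2 := by
      rw [← mul_pow, ← sq_abs (powerSum x m)]
      exact pow_le_pow_left₀ (abs_nonneg _) (hC p m hp (by omega)) 2
    have h2 : 1 + powerSum x m ^ 2 ≤ (C ^ 2 + 9) * (q ^ m) ^ 2 := by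
      nlinarith [one_le_pow₀ (a := q) (n := m) hq1]
    have h3 : (q ^ m) ^ 2 * (p : ℝ) ^ ((m : ℝ) * -(24 / 25)) ≤
        (p : ℝ) ^ (-(27 / 25) : ℝ) * r ^ j := by
      rw [← pow_mul, ← Real.rpow_natCast q, ← Real.rpow_mul hp0.le, ← Real.rpow_add hp0,
        show (3 / 10 : ℝ) * ((m * 2 : ℕ) : ℝ) + (m : ℝ) * -(24 / 25) =
          -(27 / 25) + -(9 / 25) * (j : ℝ) by simp only [m]; push_cast; ring,
        Real.rpow_add hp0, Real.rpow_mul hp0.le, Real.rpow_natCast]
      refine mul_le_mul_of_nonneg_left (pow_le_pow_left₀ (Real.rpow_nonneg hp0.le _) ?_ j)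
        (Real.rpow_nonneg hp0.le _)
      exact Real.rpow_le_rpow_of_nonpos two_pos (by exact_mod_cast hp.two_le) (by norm_num)
    have hr2 : 1 ≤ 2 * r := by
      calc (1 : ℝ) ≤ (2 : ℝ) ^ (1 + -(9 / 25) : ℝ) := Real.one_le_rpow one_le_two (by norm_num)
        _ = 2 * r := by rw [Real.rpow_add two_pos, Real.rpow_one]
    have hrj : 0 ≤ r ^ j := pow_nonneg (Real.rpow_nonneg zero_le_two _) j
    calc (Real.log p + Real.log p * powerSum x m ^ 2) * (p : ℝ) ^ ((m : ℝ) * -(24 / 25))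
        = Real.log p * ((1 + powerSum x m ^ 2) * (p : ℝ) ^ ((m : ℝ) * -(24 / 25))) := by ring
      _ ≤ Real.log p * ((C ^ 2 + 9) * ((p : ℝ) ^ (-(27 / 25) : ℝ) * r ^ j)) := by
          refine mul_le_mul_of_nonneg_left ?_ hl
          refine (mul_le_mul_of_nonneg_right h2 (Real.rpow_nonneg hp0.le _)).trans ?_
          rw [mul_assoc]
          exact mul_le_mul_of_nonneg_left h3 (by positivity)
      _ ≤ (2 * C ^ 2 * (Real.log p * x ^ 2 * (p : ℝ) ^ (-(33 / 25) : ℝ)) +
          (C ^ 2 + 9) * 2 * (Real.log p * (p : ℝ) ^ (-(27 / 25) : ℝ))) * r ^ (j + 1) := by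
          have h0 : 0 ≤ 2 * C ^ 2 * (Real.log p * x ^ 2 * (p : ℝ) ^ (-(33 / 25) : ℝ)) *
              r ^ (j + 1) := by positivity
          have h1 := mul_le_mul_of_nonneg_left hr2 (show 0 ≤ (C ^ 2 + 9) *
            (Real.log p * (p : ℝ) ^ (-(27 / 25) : ℝ)) * r ^ j by positivity)
          rw [pow_succ r j] at h0 ⊢
          linarith

theorem summable_higherPart (hk : 3 ≤ k) {f : CuspForm (Gamma0 1) (k : ℤ)}
    (hf : IsEigenformOne f) :
    Summable fun n => higherPart f n * (n : ℝ) ^ (-(24 / 25) : ℝ) := by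
  obtain ⟨C, -, hC⟩ := exists_powerSum_bound hk hf
  set g : Nat.Primes × ℕ → ℕ := fun v => (v.1 : ℕ) ^ (v.2 + 2)
  have hg : Function.Injective g := fun v w h => by
    obtain ⟨h1, h2⟩ := Nat.Prime.pow_inj' v.1.2 w.1.2 (by omega) (by omega) h
    exact Prod.ext (Subtype.ext h1) (by omega)
  refine (hg.summable_iff fun n hn => ?_).1 ?_
  · by_cases hP : n.Prime
    · simp [higherPart, hP]
    have hpp : ¬ IsPrimePow n := fun hpp => by
      obtain ⟨p, m, hp, hm, rfl⟩ := (isPrimePow_nat_iff n).1 hpp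
      rcases m with _ | _ | m
      · omega
      · exact hP (by simpa using hp)
      · exact hn ⟨(⟨p, hp⟩, m), rfl⟩
    simp [higherPart, hP, ArithmeticFunction.vonMangoldt_eq_zero_iff.2 hpp, rankinLift,
      primeLift_apply_not hpp]
  set r : ℝ := (2 : ℝ) ^ (-(9 / 25) : ℝ)
  have hr : Summable fun j : ℕ => r ^ j := summable_geometric_of_lt_one
    (Real.rpow_nonneg zero_le_two _) (Real.rpow_lt_one_of_one_lt_of_neg one_lt_two (by norm_num))
  have hA : Summable fun p : Nat.Primes =>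
      2 * C ^ 2 * (rankinLift f p * (p : ℝ) ^ (-(33 / 25) : ℝ)) +
        (C ^ 2 + 9) * 2 * (Λ (p : ℕ) * (p : ℝ) ^ (-(27 / 25) : ℝ)) :=
    (((summable_mul_rpow ArithmeticFunction.map_zero (summable_rankinLift hf
      (by norm_num : 1 < (((33 / 25 : ℝ)) : ℂ).re))).mul_left _).add
      ((summable_mul_rpow ArithmeticFunction.map_zero
        (ArithmeticFunction.LSeriesSummable_vonMangoldt
        (by norm_num : 1 < (((27 / 25 : ℝ)) : ℂ).re))).mul_left _)).comp_injective
        Subtype.val_injective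
  refine Summable.of_nonneg_of_le (fun v => mul_nonneg (higherPart_nonneg f _)
    (Real.rpow_nonneg (Nat.cast_nonneg _) _)) (fun v => higherPart_prime_pow_le hC v.1.2 v.2)
    (hA.mul_of_nonneg hr (fun p => ?_) fun j => pow_nonneg (Real.rpow_nonneg zero_le_two _) j)
  have := rankinLift_nonneg f p
  have := ArithmeticFunction.vonMangoldt_nonneg (n := (p : ℕ))
  positivity

theorem tendsto_higherPart (hk : 3 ≤ k) {f : CuspForm (Gamma0 1) (k : ℤ)}
    (hf : IsEigenformOne f) : Tendsto (fun x => upTo (higherPart f) x / x) atTop (𝓝 0) := by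
  have hs := summable_higherPart hk hf
  set T := ∑' n, higherPart f n * (n : ℝ) ^ (-(24 / 25) : ℝ)
  have hlim := (tendsto_rpow_neg_atTop (show (0 : ℝ) < 1 / 25 by norm_num)).const_mul T
  rw [mul_zero] at hlim
  refine squeeze_zero' ?_ ?_ hlim
  · filter_upwards [eventually_gt_atTop 0] with x hx
    exact div_nonneg (Finset.sum_nonneg fun n _ => higherPart_nonneg f n) hx.le
  filter_upwards [eventually_ge_atTop (1 : ℝ)] with x hx
  have hx0 : 0 < x := by linarith
  rw [div_le_iff₀ hx0, mul_assoc, ← Real.rpow_add_one hx0.ne',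
    show -(1 / 25 : ℝ) + 1 = 24 / 25 by norm_num]
  calc upTo (higherPart f) x
      ≤ ∑ n ∈ Finset.Icc 1 ⌊x⌋₊,
          higherPart f n * (n : ℝ) ^ (-(24 / 25) : ℝ) * x ^ (24 / 25 : ℝ) := by
        refine Finset.sum_le_sum fun n hn => ?_
        obtain ⟨h1, h2⟩ := Finset.mem_Icc.1 hn
        have hn0 : (0 : ℝ) < n := Nat.cast_pos.2 h1
        rw [mul_assoc]
        refine le_mul_of_one_le_right (higherPart_nonneg f n) ?_
        rw [Real.rpow_neg hn0.le, ← div_eq_inv_mul, one_le_div (Real.rpow_pos_of_pos hn0 _)]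
        exact Real.rpow_le_rpow hn0.le ((Nat.le_floor_iff hx0.le).1 h2) (by norm_num)
    _ ≤ T * x ^ (24 / 25 : ℝ) := by
        rw [← Finset.sum_mul]
        exact mul_le_mul_of_nonneg_right (hs.sum_le_tsum _ fun n _ => mul_nonneg
          (higherPart_nonneg f n) (Real.rpow_nonneg (Nat.cast_nonneg n) _))
          (Real.rpow_nonneg hx0.le _)

theorem upTo_sub_upToPrime (u : ℕ → ℝ) (x : ℝ) :
    upTo u x - upToPrime u x = ∑ n ∈ (Finset.Icc 1 ⌊x⌋₊).filter fun n => ¬ n.Prime, u n := by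
  rw [upTo, upToPrime, ← Finset.sum_filter_add_sum_filter_not _ Nat.Prime, add_sub_cancel_left]

theorem tendsto_upToPrime (hk : 3 ≤ k) {f : CuspForm (Gamma0 1) (k : ℤ)} (hf : IsEigenformOne f)
    {u : ℕ → ℝ} {L : ℝ} (hu : Tendsto (fun x => upTo u x / x) atTop (𝓝 L))
    (hb : ∀ n, |u n| ≤ Λ n + rankinLift f n) :
    Tendsto (fun x => upToPrime u x / x) atTop (𝓝 L) := by
  have h : Tendsto (fun x => (upTo u x - upToPrime u x) / x) atTop (𝓝 0) := by
    refine squeeze_zero_norm' ?_ (tendsto_higherPart hk hf)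
    filter_upwards [eventually_gt_atTop 0] with x hx
    rw [Real.norm_eq_abs, abs_div, abs_of_pos hx, upTo_sub_upToPrime]
    refine div_le_div_of_nonneg_right ((Finset.abs_sum_le_sum_abs _ _).trans ?_) hx.le
    rw [upTo, Finset.sum_filter]
    refine Finset.sum_le_sum fun n _ => ?_
    unfold higherPart
    split_ifs
    · exact le_rfl
    · exact hb n
  simpa [sub_div] using hu.sub h

theorem tendsto_prime_eig (hk : 3 ≤ k) {f : CuspForm (Gamma0 1) (k : ℤ)}
    (hf : IsEigenformOne f) :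
    Tendsto (fun x => upToPrime (eigLift f) x / x) atTop (𝓝 0) :=
  tendsto_upToPrime hk hf (tendsto_eigLift hf (by omega)) fun n => by
    linarith [two_mul_abs_eigLift_le f n, abs_nonneg (eigLift f n)]

theorem tendsto_prime_rankin (hk : 3 ≤ k) {f : CuspForm (Gamma0 1) (k : ℤ)}
    (hf : IsEigenformOne f) :
    Tendsto (fun x => upToPrime (rankinLift f) x / x) atTop (𝓝 1) :=
  tendsto_upToPrime hk hf (tendsto_rankinLift hf (by omega)) fun n => by
    rw [abs_of_nonneg (rankinLift_nonneg f n)]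
    exact le_add_of_nonneg_left ArithmeticFunction.vonMangoldt_nonneg

/-! ## Powers as weights -/

theorem by_parts (w u : ℕ → ℝ) : ∀ N : ℕ, ∑ n ∈ Finset.Icc 1 N, w n * u n =
    w N * ∑ n ∈ Finset.Icc 1 N, u n -
      ∑ i ∈ Finset.range N, (w (i + 1) - w i) * ∑ n ∈ Finset.Icc 1 i, u n
  | 0 => by simp
  | N + 1 => by
    rw [Finset.sum_Icc_succ_top (by omega), Finset.sum_Icc_succ_top (by omega),
      Finset.sum_range_succ, by_parts w u N]
    ring

theorem tendsto_weighted {u : ℕ → ℝ} (hu : Tendsto (fun x => upTo u x / x) atTop (𝓝 0)) {a : ℝ}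
    (ha : 0 ≤ a) :
    Tendsto (fun x => upTo (fun n => (n : ℝ) ^ a * u n) x / x ^ (a + 1)) atTop (𝓝 0) := by
  rw [NormedAddGroup.tendsto_nhds_zero]
  intro ε hε
  have hn := hu.comp (tendsto_natCast_atTop_atTop (R := ℝ))
  obtain ⟨N₀, hN₀⟩ := eventually_atTop.1 ((NormedAddGroup.tendsto_nhds_zero.1 hn) (ε / 4)
    (by positivity))
  set U : ℕ → ℝ := fun N => ∑ n ∈ Finset.Icc 1 N, u n with hU
  set K := ∑ i ∈ Finset.range (N₀ + 1), |U i|
  have hK : 0 ≤ K := Finset.sum_nonneg fun _ _ => abs_nonneg _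
  have hbound : ∀ i : ℕ, |U i| ≤ ε / 4 * i + K := fun i => by
    rcases lt_or_ge i (N₀ + 1) with hi | hi
    · have h := Finset.single_le_sum (fun j _ => abs_nonneg (U j)) (Finset.mem_range.2 hi)
      have : 0 ≤ ε / 4 * i := by positivity
      linarith
    · have h := hN₀ i (by omega)
      have hi0 : (0 : ℝ) < i := Nat.cast_pos.2 (by omega)
      rw [Function.comp_apply, Real.norm_eq_abs, upTo, Nat.floor_natCast, abs_div, abs_of_pos hi0,
        div_lt_iff₀ hi0] at h
      linarith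
  filter_upwards [eventually_ge_atTop (1 : ℝ), eventually_gt_atTop (8 * K / ε)] with x hx hxK
  have hx0 : 0 < x := by linarith
  set N := ⌊x⌋₊
  have hNx : (N : ℝ) ≤ x := Nat.floor_le hx0.le
  have hmono : ∀ i : ℕ, 0 ≤ ((i + 1 : ℕ) : ℝ) ^ a - (i : ℝ) ^ a := fun i =>
    sub_nonneg.2 (Real.rpow_le_rpow (Nat.cast_nonneg i) (by simp) ha)
  set B := ε / 4 * x + K
  have hB : ∀ i : ℕ, i ≤ N → |U i| ≤ B := fun i hi => (hbound i).trans (add_le_add
    (mul_le_mul_of_nonneg_left ((Nat.cast_le.2 hi).trans hNx) (by positivity)) le_rfl)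
  have hB0 : 0 ≤ B := by positivity
  have hsum : |upTo (fun n => (n : ℝ) ^ a * u n) x| ≤ 2 * x ^ a * B := by
    rw [upTo, by_parts (fun n => (n : ℝ) ^ a) u N]
    refine (abs_sub _ _).trans ?_
    have h1 : |(N : ℝ) ^ a * U N| ≤ x ^ a * B := by
      rw [abs_mul, abs_of_nonneg (Real.rpow_nonneg (Nat.cast_nonneg N) a)]
      exact mul_le_mul (Real.rpow_le_rpow (Nat.cast_nonneg N) hNx ha) (hB N le_rfl)
        (abs_nonneg _) (Real.rpow_nonneg hx0.le a)
    have h2 : |∑ i ∈ Finset.range N, (((i + 1 : ℕ) : ℝ) ^ a - (i : ℝ) ^ a) * U i| ≤ x ^ a * B := by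
      refine (Finset.abs_sum_le_sum_abs _ _).trans ((Finset.sum_le_sum
        (g := fun i : ℕ => (((i + 1 : ℕ) : ℝ) ^ a - (i : ℝ) ^ a) * B) fun i hi => ?_).trans ?_)
      · rw [abs_mul, abs_of_nonneg (hmono i)]
        exact mul_le_mul_of_nonneg_left (hB i (Finset.mem_range.1 hi).le) (hmono i)
      · rw [← Finset.sum_mul, Finset.sum_range_sub (fun i : ℕ => (i : ℝ) ^ a)]
        refine mul_le_mul_of_nonneg_right ?_ hB0
        have := Real.rpow_le_rpow (Nat.cast_nonneg N) hNx ha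
        have := Real.rpow_nonneg (Nat.cast_nonneg (α := ℝ) 0) a
        linarith
    linarith
  rw [Real.norm_eq_abs, abs_div, abs_of_nonneg (Real.rpow_nonneg hx0.le _),
    div_lt_iff₀ (Real.rpow_pos_of_pos hx0 _)]
  refine hsum.trans_lt ?_
  rw [Real.rpow_add_one hx0.ne']
  show 2 * x ^ a * (ε / 4 * x + K) < ε * (x ^ a * x)
  have hxK' : 8 * K < x * ε := (div_lt_iff₀ hε).1 hxK
  have hxa := Real.rpow_pos_of_pos hx0 a
  nlinarith [mul_lt_mul_of_pos_left hxK' hxa, mul_pos (mul_pos hxa hx0) hε]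

end FA.EigenPrimes

end
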