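import Fermat.Agent.EigenPrimes.Cross
import Fermat.Agent.EigenPrimes.Sums

/-!
# The convolution of two forms on the edge

No zeros for `re w ≥ 1`, hence `∑_{p ≤ x} λ p μ p log p = o(x)`.
-/

set_option autoImplicit false

noncomputable section

namespace FA.EigenPrimes

open UpperHalfPlane hiding I
open Complex CongruenceSubgroup LSeries Filter
open scoped MatrixGroups Real Topology ComplexOrder ArithmeticFunction.vonMangoldt
open FA.KohnenNonvanishing (IsEigenformOne)

variable {k : ℕ}

section Pair

variable {f g : CuspForm (Gamma0 1) (k : ℤ)} (hf : IsEigenformOne f) (hg : IsEigenformOne g)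
  (hk : 1 ≤ k) (hne : f ≠ g)

include hf hg hk hne

theorem exists_cross_order (t : ℝ) : ∃ m : ℕ, (m = 0 ↔ crossHat f g (atHeight t 1) ≠ 0) ∧
    Tendsto (fun σ : ℝ => (σ - 1) * linePart (crossLift f g) t σ) (𝓝[>] 1) (𝓝 (-(m : ℝ))) := by
  obtain ⟨w₁, h₁⟩ := exists_crossHat_ne_zero hf hg hk hne
  obtain ⟨m, hm, hlim⟩ := exists_order_of_deriv (differentiable_crossHat f g) h₁
    (fun _ h => deriv_crossHat hf hg hk hne h) t
  exact ⟨m, hm, hlim.neg.congr fun σ => by rw [linePart, neg_re]; ring⟩

omit hk hne in
theorem cross_inequality (t : ℝ) {σ : ℝ} (hσ : 1 < σ) :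
    0 ≤ linePart (rankinLift f) 0 σ + 4 * linePart (crossLift f g) t σ +
      2 * linePart (rankinLift g) 0 σ + 2 * linePart (rankinLift g) (2 * t) σ := by
  refine ((((hasSum_linePart (u := rankinLift f) (fun _ h => summable_rankinLift hf h) 0 hσ).add
    ((hasSum_linePart (u := crossLift f g) (fun _ h => summable_crossLift hf hg h) t
      hσ).mul_left 4)).add
    ((hasSum_linePart (u := rankinLift g) (fun _ h => summable_rankinLift hg h) 0 hσ).mul_left
      2)).add
    ((hasSum_linePart (u := rankinLift g) (fun _ h => summable_rankinLift hg h) (2 * t)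
      hσ).mul_left 2)).nonneg fun n => ?_
  rcases eq_or_ne n 0 with rfl | hn
  · simp [lineTerm]
  rw [lineTerm_eq _ _ _ hn, lineTerm_eq _ _ _ hn, lineTerm_eq _ _ _ hn, lineTerm_eq _ _ _ hn,
    mul_assoc 2 t, Real.cos_two_mul, zero_mul, Real.cos_zero]
  set c := Real.cos (t * Real.log n)
  set u := powerSum (eig f n.minFac) (n.factorization n.minFac)
  set v := powerSum (eig g n.minFac) (n.factorization n.minFac)
  have key : 0 ≤ rankinLift f n + 4 * c * crossLift f g n + 4 * c ^ 2 * rankinLift g n := by
    show 0 ≤ (if IsPrimePow n then Real.log n.minFac * u ^ 2 else 0) +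
      4 * c * (if IsPrimePow n then Real.log n.minFac * (u * v) else 0) +
      4 * c ^ 2 * if IsPrimePow n then Real.log n.minFac * v ^ 2 else 0
    split_ifs
    · refine le_of_le_of_eq (mul_nonneg (Real.log_natCast_nonneg n.minFac)
        (sq_nonneg (u + 2 * c * v))) ?_
      ring
    · simp
  refine le_of_le_of_eq (mul_nonneg key (Real.rpow_nonneg (Nat.cast_nonneg n) (-σ))) ?_
  ring

omit hk hne in
theorem landau_cross_nonneg (n : ℕ) :
    0 ≤ (rankinCoeff f * crossCoeff f g * crossCoeff f g * rankinCoeff g) n := by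
  refine ((((isLogDeriv_rankinCoeff hf).mul (isLogDeriv_crossCoeff hf hg)).mul
    (isLogDeriv_crossCoeff hf hg)).mul (isLogDeriv_rankinCoeff hg)).nonneg (fun m => ?_) ?_ ?_ n
  · simp only [ArithmeticFunction.add_apply]
    linarith [two_mul_abs_crossLift_le f g m, neg_abs_le (crossLift f g m)]
  · simp [crossLift, rankinLift, primeLift_one]
  · simp [rankinCoeff_one hf, rankinCoeff_one hg, crossCoeff_one hf hg]

theorem crossHat_one_ne_zero : crossHat f g 1 ≠ 0 := fun h0 => by
  set a := rankinCoeff f * crossCoeff f g * crossCoeff f g * rankinCoeff g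
  have h1 : ∀ s : ℂ, 1 < s.re → LSeriesSummable (cast' (rankinCoeff f * crossCoeff f g)) s :=
    fun s h => lSeriesSummable_mul (summable_rankinCoeff hf h) (summable_crossCoeff hf hg h)
  have h2 : ∀ s : ℂ, 1 < s.re →
      LSeriesSummable (cast' (rankinCoeff f * crossCoeff f g * crossCoeff f g)) s :=
    fun s h => lSeriesSummable_mul (h1 s h) (summable_crossCoeff hf hg h)
  have ha : ∀ s : ℂ, 1 < s.re → LSeriesSummable (cast' a) s :=
    fun s h => lSeriesSummable_mul (h2 s h) (summable_rankinCoeff hg h)
  have hD : Differentiable ℂ (dslope (crossHat f g) 1) := fun w =>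
    ((Complex.differentiableOn_dslope (univ_mem (f := 𝓝 (1 : ℂ)))).2
      (differentiable_crossHat f g).differentiableOn w (Set.mem_univ w)).differentiableAt univ_mem
  set G : ℂ → ℂ := fun w => rHat f w * rHat g w * dslope (crossHat f g) 1 w ^ 2
  have hG : Differentiable ℂ G :=
    ((differentiable_rHat f).mul (differentiable_rHat g)).mul (hD.pow 2)
  have hpos := LSeries.positive_of_differentiable_of_eqOn (a := cast' a)
    (fun n => Complex.zero_le_real.2 (landau_cross_nonneg hf hg n))
    (Complex.zero_lt_real.2
      (by simp [a, rankinCoeff_one hf, rankinCoeff_one hg, crossCoeff_one hf hg])) hG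
    (x := 1) (abscissa_le_one ha) (fun w hw => ?_) (-2)
  · refine hpos.ne' ?_
    simp only [G]
    push_cast
    simp [rHat_neg_two]
  · have hw' : 1 < w.re := hw
    have hne1 : w ≠ 1 := fun e => by simp [e] at hw'
    have hne' : w - 1 ≠ 0 := sub_ne_zero.2 hne1
    rw [lSeries_mul (h2 w hw') (summable_rankinCoeff hg hw'),
      lSeries_mul (h1 w hw') (summable_crossCoeff hf hg hw'),
      lSeries_mul (summable_rankinCoeff hf hw') (summable_crossCoeff hf hg hw')]
    simp only [G, rHat_eq hk hf hw', rHat_eq hk hg hw', dslope_of_ne _ hne1, slope_def_field, h0,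
      sub_zero, crossHat_eq hf hg hk hne hw']
    field_simp

theorem crossHat_line_ne_zero (t : ℝ) : crossHat f g (atHeight t 1) ≠ 0 := by
  rcases eq_or_ne t 0 with rfl | ht
  · rw [atHeight_zero_one]
    exact crossHat_one_ne_zero hf hg hk hne
  obtain ⟨m, hm, h1⟩ := exists_cross_order hf hg hk hne t
  obtain ⟨m', -, h2⟩ := exists_rankin_order hg hk (mul_ne_zero two_ne_zero ht)
  have hlim := (((tendsto_rankin_line_zero hf hk).add (h1.const_mul 4)).add
    ((tendsto_rankin_line_zero hg hk).const_mul 2)).add (h2.const_mul 2)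
  have h0 : (0 : ℝ) ≤ 1 + 4 * -(m : ℝ) + 2 * 1 + 2 * -(m' : ℝ) := by
    refine ge_of_tendsto hlim ?_
    filter_upwards [one_lt_eventually] with σ hσ
    have h := mul_nonneg (sub_nonneg.2 hσ.le) (cross_inequality hf hg t hσ)
    linarith
  refine hm.1 (Nat.lt_one_iff.1 ?_)
  exact_mod_cast (show (m : ℝ) < 1 by linarith [Nat.cast_nonneg (α := ℝ) m'])

/-- **No zeros of the convolution of two forms for `re w ≥ 1`.** -/
theorem crossHat_ne_zero {w : ℂ} (hw : 1 ≤ w.re) : crossHat f g w ≠ 0 := by
  rcases eq_or_lt_of_le hw with h | h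
  · have e : atHeight w.im 1 = w := by rw [atHeight, h]; exact Complex.re_add_im w
    exact e ▸ crossHat_line_ne_zero hf hg hk hne w.im
  · exact crossHat_ne_zero_of_one_lt hf hg hk hne h

theorem tendsto_crossLift : Tendsto (fun x => upTo (crossLift f g) x / x) atTop (𝓝 0) := by
  have key := Summary.wiener_ikehara_dirichlet
    (a := fun n => rankinLift f n + 2 * crossLift f g n + rankinLift g n) (A := 2)
    (G := fun w => -(deriv (rHat f) w / rHat f w) +
      2 * -(deriv (crossHat f g) w / crossHat f g w) + -(deriv (rHat g) w / rHat g w))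
    (fun n => by linarith [two_mul_abs_crossLift_le f g n, neg_abs_le (crossLift f g n)])
    (fun σ hσ => lSeriesSummable_add (lSeriesSummable_add
      (summable_rankinLift hf (by simpa using hσ))
      (lSeriesSummable_const_mul 2 (summable_crossLift hf hg (by simpa using hσ))))
      (summable_rankinLift hg (by simpa using hσ)))
    (((continuousOn_logDeriv (differentiable_rHat f) fun _ h => rHat_ne_zero hf hk h).add
      (continuousOn_const.mul (continuousOn_logDeriv (differentiable_crossHat f g)
        fun _ h => crossHat_ne_zero hf hg hk hne h))).add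
      (continuousOn_logDeriv (differentiable_rHat g) fun _ h => rHat_ne_zero hg hk h))
    fun s hs => ?_
  · have h := ((key.sub (tendsto_rankinLift hf hk)).sub (tendsto_rankinLift hg hk)).div_const 2
    norm_num at h
    refine h.congr fun x => ?_
    simp only [upTo, Finset.sum_add_distrib, ← Finset.mul_sum]
    ring
  · have e : (fun n => ((rankinLift f n + 2 * crossLift f g n + rankinLift g n : ℝ) : ℂ)) =
        cast' (rankinLift f) + (2 : ℂ) • cast' (crossLift f g) + cast' (rankinLift g) := by
      funext n
      simp [cast']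
    rw [e, LSeries_add ((summable_rankinLift hf hs).add ((summable_crossLift hf hg hs).smul 2))
      (summable_rankinLift hg hs),
      LSeries_add (summable_rankinLift hf hs) ((summable_crossLift hf hg hs).smul 2), LSeries_smul,
      neg_deriv_div (rHat_ne_zero hf hk hs.le) (deriv_rHat hk hf hs),
      neg_deriv_div (crossHat_ne_zero hf hg hk hne hs.le) (deriv_crossHat hf hg hk hne hs),
      neg_deriv_div (rHat_ne_zero hg hk hs.le) (deriv_rHat hk hg hs)]
    push_cast
    ring

omit hk in
/-- **Two forms are orthogonal at the primes.** -/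
theorem tendsto_prime_cross (hk : 3 ≤ k) :
    Tendsto (fun x => upToPrime (crossLift f g) x / x) atTop (𝓝 0) := by
  have hF := tendsto_higherPart hk hf
  have hG := tendsto_higherPart hk hg
  have h : Tendsto (fun x => (upTo (crossLift f g) x - upToPrime (crossLift f g) x) / x) atTop
      (𝓝 0) := by
    refine squeeze_zero_norm' ?_ (by simpa using hF.add hG)
    filter_upwards [eventually_gt_atTop 0] with x hx
    rw [Real.norm_eq_abs, abs_div, abs_of_pos hx, upTo_sub_upToPrime, ← add_div]
    refine div_le_div_of_nonneg_right ((Finset.abs_sum_le_sum_abs _ _).trans ?_) hx.le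
    rw [upTo, upTo, ← Finset.sum_add_distrib, Finset.sum_filter]
    refine Finset.sum_le_sum fun n _ => ?_
    unfold higherPart
    split_ifs
    · simp
    · linarith [two_mul_abs_crossLift_le f g n, abs_nonneg (crossLift f g n),
        ArithmeticFunction.vonMangoldt_nonneg (n := n)]
  simpa [sub_div] using (tendsto_crossLift hf hg (by omega) hne).sub h

end Pair

end FA.EigenPrimes

end
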