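import Mathlib

/-!
# Logarithmic derivatives of Dirichlet series

`IsLogDeriv G F` says that `G * F` is `log · F`. It is additive in products and, for multiplicative
`F`, it is decided at the prime powers; with `G ≥ 0` it makes `F` nonnegative.
-/

set_option autoImplicit false

noncomputable section

open Finset
open scoped ArithmeticFunction.vonMangoldt ArithmeticFunction.zeta

namespace FA.EigenPrimes

local notation "AF" => ArithmeticFunction ℝ

/-- `G * F` is `log · F`. -/
def IsLogDeriv (G F : AF) : Prop := ∀ n : ℕ, (G * F) n = Real.log n * F n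

theorem isLogDeriv_zeta : IsLogDeriv Λ (ζ : AF) := fun n => by
  rw [ArithmeticFunction.vonMangoldt_mul_zeta]
  rcases eq_or_ne n 0 with rfl | hn
  · simp
  · simp [ArithmeticFunction.zeta_apply, hn]

theorem IsLogDeriv.mul {G₁ F₁ G₂ F₂ : AF} (h₁ : IsLogDeriv G₁ F₁) (h₂ : IsLogDeriv G₂ F₂) :
    IsLogDeriv (G₁ + G₂) (F₁ * F₂) := fun n => by
  rw [show (G₁ + G₂) * (F₁ * F₂) = (G₁ * F₁) * F₂ + F₁ * (G₂ * F₂) by ring,
    ArithmeticFunction.add_apply, ArithmeticFunction.mul_apply, ArithmeticFunction.mul_apply,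
    ArithmeticFunction.mul_apply, mul_sum, ← sum_add_distrib]
  refine sum_congr rfl fun d hd => ?_
  obtain ⟨hdn, hn⟩ := Nat.mem_divisorsAntidiagonal.1 hd
  rw [h₁, h₂, ← hdn, Nat.cast_mul, Real.log_mul (Nat.cast_ne_zero.2 (left_ne_zero_of_mul
    (hdn ▸ hn))) (Nat.cast_ne_zero.2 (right_ne_zero_of_mul (hdn ▸ hn)))]
  ring

/-- A Dirichlet product at a prime power. -/
theorem mul_prime_pow (F G : AF) {p : ℕ} (hp : p.Prime) (r : ℕ) :
    (F * G) (p ^ r) = PowerSeries.coeff r
      (PowerSeries.mk (fun i => F (p ^ i)) * PowerSeries.mk fun i => G (p ^ i)) := by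
  rw [PowerSeries.coeff_mul, Finset.Nat.sum_antidiagonal_eq_sum_range_succ_mk,
    ArithmeticFunction.mul_apply, Nat.sum_divisorsAntidiagonal (f := fun a b => F a * G b),
    Nat.divisors_prime_pow hp, sum_map]
  refine sum_congr rfl fun i hi => ?_
  simp only [Function.Embedding.coeFn_mk, PowerSeries.coeff_mk]
  rw [Nat.pow_div (Nat.lt_succ_iff.1 (mem_range.1 hi)) hp.pos]

/-- `log p · φ p m` at `p ^ m`, `m ≥ 1`, zero elsewhere. -/
def primeLift (φ : ℕ → ℕ → ℝ) : AF :=
  ⟨fun n => if IsPrimePow n then Real.log n.minFac * φ n.minFac (n.factorization n.minFac) else 0,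
    by simp [not_isPrimePow_zero]⟩

theorem primeLift_apply_not {φ : ℕ → ℕ → ℝ} {n : ℕ} (h : ¬ IsPrimePow n) : primeLift φ n = 0 :=
  if_neg h

theorem primeLift_prime_pow (φ : ℕ → ℕ → ℝ) {p m : ℕ} (hp : p.Prime) (hm : m ≠ 0) :
    primeLift φ (p ^ m) = Real.log p * φ p m := by
  show (if IsPrimePow (p ^ m) then _ else (0 : ℝ)) = _
  rw [if_pos (hp.isPrimePow.pow hm), hp.pow_minFac hm, hp.factorization_pow, Finsupp.single_eq_same]

theorem primeLift_prime (φ : ℕ → ℕ → ℝ) {p : ℕ} (hp : p.Prime) :
    primeLift φ p = Real.log p * φ p 1 := by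
  simpa using primeLift_prime_pow φ hp one_ne_zero

theorem primeLift_one (φ : ℕ → ℕ → ℝ) : primeLift φ 1 = 0 :=
  primeLift_apply_not not_isPrimePow_one

/-- A property of all values follows from those at prime powers. -/
theorem primeLift_induction (φ : ℕ → ℕ → ℝ) {P : ℕ → ℝ → Prop} (h0 : ∀ n, P n 0)
    (h : ∀ p m, p.Prime → m ≠ 0 → P (p ^ m) (Real.log p * φ p m)) (n : ℕ) :
    P n (primeLift φ n) := by
  by_cases hn : IsPrimePow n
  · obtain ⟨p, m, hp, hm, rfl⟩ := (isPrimePow_nat_iff n).1 hn
    rw [primeLift_prime_pow φ hp hm.ne']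
    exact h p m hp hm.ne'
  · rw [primeLift_apply_not hn]
    exact h0 n

/-- At a multiplicative function it is enough to check the prime powers. -/
theorem isLogDeriv_of_local {F : AF} (hF : F.IsMultiplicative) (φ : ℕ → ℕ → ℝ)
    (h : ∀ p r : ℕ, p.Prime → (r : ℝ) * F (p ^ r) = PowerSeries.coeff r
      (PowerSeries.mk (fun i => if i = 0 then 0 else φ p i) *
        PowerSeries.mk fun i => F (p ^ i))) :
    IsLogDeriv (primeLift φ) F := by
  intro n
  induction n using Nat.recOnPrimeCoprime with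
  | zero => simp
  | prime_pow p r hp =>
    rw [mul_prime_pow _ _ hp, Nat.cast_pow, Real.log_pow, mul_right_comm, h p r hp]
    rw [show PowerSeries.mk (fun i => primeLift φ (p ^ i)) =
      PowerSeries.C (Real.log p) * PowerSeries.mk (fun i => if i = 0 then 0 else φ p i) by
      ext i
      rcases eq_or_ne i 0 with rfl | hi
      · simp [primeLift_one]
      · simp [hi, primeLift_prime_pow φ hp hi], mul_assoc, PowerSeries.coeff_C_mul]
    ring
  | coprime a b ha hb hab iha ihb =>
    have split : ∀ m : ℕ, (primeLift φ * F) m =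
        ∑ d ∈ m.divisors.filter IsPrimePow, primeLift φ d * F (m / d) := fun m => by
      rw [ArithmeticFunction.mul_apply,
        Nat.sum_divisorsAntidiagonal (f := fun x y => primeLift φ x * F y), sum_filter]
      refine sum_congr rfl fun d _ => ?_
      split_ifs with hd
      · rfl
      · rw [primeLift_apply_not hd, zero_mul]
    have hab0 : a * b ≠ 0 := by positivity
    rw [split] at iha ihb ⊢
    rw [Nat.mul_divisors_filter_prime_pow hab, filter_union,
      sum_union (Nat.disjoint_divisors_filter_isPrimePow hab),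
      Nat.cast_mul, Real.log_mul (by positivity) (by positivity), hF.map_mul_of_coprime hab]
    have h1 : ∑ d ∈ a.divisors.filter IsPrimePow, primeLift φ d * F (a * b / d) =
        (∑ d ∈ a.divisors.filter IsPrimePow, primeLift φ d * F (a / d)) * F b := by
      rw [sum_mul]
      refine sum_congr rfl fun d hd => ?_
      have hda := Nat.dvd_of_mem_divisors (mem_filter.1 hd).1
      rw [Nat.mul_comm a b, Nat.mul_div_assoc b hda, Nat.mul_comm b,
        hF.map_mul_of_coprime (Nat.Coprime.coprime_dvd_left (Nat.div_dvd_of_dvd hda) hab),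
        mul_assoc]
    have h2 : ∑ d ∈ b.divisors.filter IsPrimePow, primeLift φ d * F (a * b / d) =
        F a * ∑ d ∈ b.divisors.filter IsPrimePow, primeLift φ d * F (b / d) := by
      rw [mul_sum]
      refine sum_congr rfl fun d hd => ?_
      have hdb := Nat.dvd_of_mem_divisors (mem_filter.1 hd).1
      rw [Nat.mul_div_assoc a hdb,
        hF.map_mul_of_coprime (Nat.Coprime.coprime_dvd_right (Nat.div_dvd_of_dvd hdb) hab)]
      ring
    rw [h1, h2, iha, ihb]
    ring

/-- A nonnegative logarithmic derivative makes the coefficients nonnegative. -/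
theorem IsLogDeriv.nonneg {G F : AF} (h : IsLogDeriv G F) (hG : ∀ n, 0 ≤ G n) (hG1 : G 1 = 0)
    (hF1 : 0 ≤ F 1) : ∀ n, 0 ≤ F n := by
  intro n
  induction n using Nat.strong_induction_on with
  | h n ih =>
    rcases lt_trichotomy n 1 with hn | rfl | hn
    · obtain rfl : n = 0 := by omega
      simp
    · exact hF1
    · refine nonneg_of_mul_nonneg_right ?_ (Real.log_pos (x := (n : ℝ)) (by exact_mod_cast hn))
      rw [← h n, ArithmeticFunction.mul_apply]
      refine sum_nonneg fun d hd => ?_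
      obtain ⟨hdn, hn0⟩ := Nat.mem_divisorsAntidiagonal.1 hd
      rcases eq_or_ne d.1 1 with h1 | h1
      · rw [h1, hG1, zero_mul]
      · refine mul_nonneg (hG _) (ih _ ?_)
        have h0 : d.2 ≠ 0 := right_ne_zero_of_mul (hdn ▸ hn0)
        have h01 : d.1 ≠ 0 := left_ne_zero_of_mul (hdn ▸ hn0)
        rw [← hdn]
        exact lt_mul_of_one_lt_left (Nat.pos_of_ne_zero h0) (by omega)

/-- A nonnegative logarithmic derivative is at most `log · F`. -/
theorem IsLogDeriv.le_log_mul {G F : AF} (h : IsLogDeriv G F) (hG : ∀ n, 0 ≤ G n)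
    (hF : ∀ n, 0 ≤ F n) (hF1 : F 1 = 1) (n : ℕ) : G n ≤ Real.log n * F n := by
  rcases eq_or_ne n 0 with rfl | hn
  · simp
  rw [← h n, ArithmeticFunction.mul_apply]
  refine le_trans (le_of_eq (by rw [hF1, mul_one])) (single_le_sum
    (f := fun d : ℕ × ℕ => G d.1 * F d.2) (fun d _ => mul_nonneg (hG _) (hF _))
    (a := (n, 1)) (Nat.mem_divisorsAntidiagonal.2 ⟨mul_one n, hn⟩))

end FA.EigenPrimes

end
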