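import Fermat.Agent.KohnenNonvanishing.Eigen

/-!
# The coefficients of a normalised eigenform

Hecke's relations: multiplicativity, the recursion at a prime, and reality.
-/

set_option autoImplicit false

noncomputable section

namespace FA.EigenPrimes

open UpperHalfPlane hiding I
open Complex CongruenceSubgroup
open scoped MatrixGroups ComplexConjugate
open FA.KohnenNonvanishing (IsEigenformOne)

variable {k : ℕ}

/-- The coefficients. -/
abbrev coef (f : CuspForm (Gamma0 1) (k : ℤ)) (n : ℕ) : ℂ := (qExpansion 1 f).coeff n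

theorem coef_eq_qL (f : CuspForm (Gamma0 1) (k : ℤ)) (n : ℕ) :
    coef f n = EisCong.qL (k : ℤ) f n := rfl

theorem coef_zero (f : CuspForm (Gamma0 1) (k : ℤ)) : coef f 0 = 0 := EisCong.qL_zero f

theorem heckeT_eq_smul {f : CuspForm (Gamma0 1) (k : ℤ)} (hf : IsEigenformOne f) {p : ℕ}
    (hp : p.Prime) : CuspForm.heckeTLin (k : ℤ) hp hp.not_dvd_one f = coef f p • f := by
  obtain ⟨x, hx⟩ := hf.2 p hp
  suffices h : x = coef f p by rw [hx, h]
  have h := EisCong.qL_heckeT hp f 1
  rw [hx, map_smul, Pi.smul_apply, if_neg hp.not_dvd_one, one_mul, add_zero, smul_eq_mul,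
    ← coef_eq_qL, ← coef_eq_qL, show coef f 1 = 1 from hf.1, mul_one] at h
  exact h

/-- Hecke's relation. -/
theorem coef_hecke {f : CuspForm (Gamma0 1) (k : ℤ)} (hf : IsEigenformOne f) {p : ℕ}
    (hp : p.Prime) (n : ℕ) :
    coef f (n * p) + (if p ∣ n then (p : ℂ) ^ ((k : ℤ) - 1) * coef f (n / p) else 0) =
      coef f p * coef f n := by
  have h := EisCong.qL_heckeT hp f n
  rw [heckeT_eq_smul hf hp, map_smul, Pi.smul_apply, smul_eq_mul] at h
  exact h.symm

theorem coef_mul {f : CuspForm (Gamma0 1) (k : ℤ)} (hf : IsEigenformOne f) {m n : ℕ}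
    (h : m.Coprime n) : coef f (m * n) = coef f m * coef f n := by
  induction m using Nat.strongRecOn with
  | ind m ih =>
    rcases eq_or_ne m 1 with rfl | h1
    · rw [one_mul, show coef f 1 = 1 from hf.1, one_mul]
    rcases eq_or_ne m 0 with rfl | h0
    · rw [show n = 1 by simpa using h, mul_one, show coef f 1 = 1 from hf.1, mul_one]
    obtain ⟨p, hp, hpm⟩ := Nat.exists_prime_and_dvd h1
    obtain ⟨m', rfl⟩ := hpm
    have hm0 : m' ≠ 0 := right_ne_zero_of_mul h0
    have hlt : m' < p * m' := lt_mul_left (Nat.pos_of_ne_zero hm0) hp.one_lt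
    have hcop : m'.Coprime n := h.coprime_mul_left
    have hpn : ¬ p ∣ n := fun hd => hp.not_dvd_one (by
      have := Nat.dvd_gcd (dvd_mul_right p m') hd
      rwa [h] at this)
    have hiff : p ∣ m' * n ↔ p ∣ m' :=
      ⟨fun hd => (hp.dvd_mul.mp hd).resolve_right hpn, fun hd => hd.mul_right n⟩
    have e := coef_hecke hf hp (m' * n)
    have e' := coef_hecke hf hp m'
    rw [show p * m' * n = m' * n * p by ring, show p * m' = m' * p by ring]
    by_cases hd : p ∣ m'
    · rw [if_pos (hiff.mpr hd)] at e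
      rw [if_pos hd] at e'
      obtain ⟨r, rfl⟩ := hd
      have hr : r < p * (p * r) := lt_of_le_of_lt (Nat.le_mul_of_pos_left r hp.pos) hlt
      rw [mul_assoc p r n, Nat.mul_div_cancel_left _ hp.pos, ← mul_assoc p r n, ih _ hlt hcop,
        ih _ hr hcop.coprime_mul_left] at e
      rw [Nat.mul_div_cancel_left _ hp.pos] at e'
      linear_combination e - coef f n * e'
    · rw [if_neg fun h => hd (hiff.mp h), add_zero, ih _ hlt hcop] at e
      rw [if_neg hd, add_zero] at e'
      rw [e, e', mul_assoc]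

theorem coef_prime_pow {f : CuspForm (Gamma0 1) (k : ℤ)} (hf : IsEigenformOne f) {p : ℕ}
    (hp : p.Prime) (r : ℕ) :
    coef f (p ^ (r + 2)) =
      coef f p * coef f (p ^ (r + 1)) - (p : ℂ) ^ ((k : ℤ) - 1) * coef f (p ^ r) := by
  have e := coef_hecke hf hp (p ^ (r + 1))
  rw [if_pos (dvd_pow_self p r.succ_ne_zero), ← pow_succ, pow_succ p r,
    Nat.mul_div_cancel _ hp.pos] at e
  rw [← pow_succ] at e
  linear_combination e

theorem conj_coef_prime {f : CuspForm (Gamma0 1) (k : ℤ)} (hf : IsEigenformOne f) {p : ℕ}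
    (hp : p.Prime) : conj (coef f p) = coef f p := by
  have h := VerticalSatoTate.pairing_heckeT hp hp.not_dvd_one f f
  have hr : Poincare.pairing f (coef f p • f) = coef f p * Poincare.pairing f f := by
    rw [← Poincare.pairing_symm, Poincare.pairing_smul_left, map_mul, Complex.conj_conj,
      Poincare.pairing_symm]
  rw [heckeT_eq_smul hf hp, Poincare.pairing_smul_left, hr] at h
  refine mul_right_cancel₀ (fun h0 => ?_) h
  have h1 := hf.1
  simp [Poincare.pairing_definite f h0, qExpansion_zero] at h1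

theorem conj_coef {f : CuspForm (Gamma0 1) (k : ℤ)} (hf : IsEigenformOne f) (n : ℕ) :
    conj (coef f n) = coef f n := by
  induction n using Nat.strong_induction_on with
  | h n ih =>
    rcases lt_trichotomy n 1 with hn | rfl | hn
    · obtain rfl : n = 0 := by omega
      rw [coef_zero, map_zero]
    · rw [show coef f 1 = 1 from hf.1, map_one]
    · obtain ⟨p, hp, hpn⟩ := Nat.exists_prime_and_dvd hn.ne'
      obtain ⟨a, rfl⟩ := hpn
      have ha : a < p * a := lt_mul_of_one_lt_left
        (Nat.pos_of_ne_zero fun h => by simp [h] at hn) hp.one_lt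
      have e : coef f (p * a) = coef f p * coef f a -
          (if p ∣ a then (p : ℂ) ^ ((k : ℤ) - 1) * coef f (a / p) else 0) := by
        rw [mul_comm p a, ← coef_hecke hf hp a, add_sub_cancel_right]
      rw [e, map_sub, map_mul, conj_coef_prime hf hp, ih a ha]
      split_ifs with hd
      · rw [map_mul, map_zpow₀, map_natCast, ih _ (lt_of_le_of_lt (Nat.div_le_self a p) ha)]
      · rw [map_zero]

theorem ofReal_re_coef {f : CuspForm (Gamma0 1) (k : ℤ)} (hf : IsEigenformOne f) (n : ℕ) :
    ((coef f n).re : ℂ) = coef f n :=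
  Complex.conj_eq_iff_re.1 (conj_coef hf n)

theorem eigenform_ne_zero {f : CuspForm (Gamma0 1) (k : ℤ)} (hf : IsEigenformOne f) : f ≠ 0 :=
  fun h => by
    have h1 := hf.1
    simp [h, qExpansion_zero] at h1

end FA.EigenPrimes

end
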