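import Fermat.Agent.EigenPrimes.Series

/-!
# No zeros on the edge

Squares give the inequalities of Hadamard and de la Vallée Poussin off the real axis; at the real
point, a zero of the L-series would make an entire Dirichlet series with nonnegative coefficients
vanish at `-2`, against Landau's theorem.
-/

set_option autoImplicit false

noncomputable section

namespace FA.EigenPrimes

open UpperHalfPlane hiding I
open Complex CongruenceSubgroup LSeries Filter
open scoped MatrixGroups Real Topology ComplexOrder ArithmeticFunction.vonMangoldt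
  ArithmeticFunction.zeta
open FA.KohnenNonvanishing (IsEigenformOne centralLambda)

variable {k : ℕ}

/-- The real part of a series on the line of height `t`. -/
def linePart (u : ℕ → ℝ) (t σ : ℝ) : ℝ := (LSeries (fun n => (u n : ℂ)) (atHeight t σ)).re

/-- Its terms. -/
def lineTerm (u : ℕ → ℝ) (t σ : ℝ) (n : ℕ) : ℝ :=
  (term (fun n => (u n : ℂ)) (atHeight t σ) n).re

theorem hasSum_linePart {u : ℕ → ℝ}
    (hu : ∀ s : ℂ, 1 < s.re → LSeriesSummable (fun n => (u n : ℂ)) s) (t : ℝ) {σ : ℝ} (hσ : 1 < σ) :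
    HasSum (lineTerm u t σ) (linePart u t σ) :=
  Complex.hasSum_re (hu _ (by rwa [atHeight_re])).hasSum

theorem lineTerm_eq (u : ℕ → ℝ) (t σ : ℝ) {n : ℕ} (hn : n ≠ 0) :
    lineTerm u t σ n = u n * (n : ℝ) ^ (-σ) * Real.cos (t * Real.log n) := by
  rw [lineTerm, term_of_ne_zero hn, div_eq_mul_inv, ← cpow_neg, re_ofReal_mul,
    cpow_def_of_ne_zero (Nat.cast_ne_zero.2 hn), Complex.exp_re, mul_assoc,
    Real.rpow_def_of_pos (Nat.cast_pos.2 (Nat.pos_of_ne_zero hn)), ← Real.cos_neg (t * _)]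
  simp only [atHeight, neg_re, neg_im, add_re, add_im, ofReal_re, ofReal_im, mul_re, mul_im,
    Complex.I_re, Complex.I_im, mul_zero, mul_one, sub_zero, add_zero, zero_add,
    ← Complex.natCast_log, zero_mul]
  ring_nf

theorem one_lt_eventually : ∀ᶠ σ : ℝ in 𝓝[>] 1, 1 < σ := self_mem_nhdsWithin

theorem exists_order_of_deriv {F H : ℂ → ℂ} (hF : Differentiable ℂ F) {w₁ : ℂ} (hne : F w₁ ≠ 0)
    (h : ∀ w : ℂ, 1 < w.re → deriv F w = H w * F w) (t : ℝ) :
    ∃ m : ℕ, (m = 0 ↔ F (atHeight t 1) ≠ 0) ∧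
      Tendsto (fun σ : ℝ => (σ - 1) * (H (atHeight t σ)).re) (𝓝[>] 1) (𝓝 (m : ℝ)) := by
  obtain ⟨m, hm, hlim, hev⟩ := exists_order hF hne 1 t
  refine ⟨m, hm, Tendsto.congr' ?_ ((Complex.continuous_re.tendsto _).comp hlim)⟩
  filter_upwards [hev, one_lt_eventually] with σ hσ h1
  rw [Function.comp_apply, scaledLogDeriv, h _ (by rwa [atHeight_re]),
    mul_div_cancel_right₀ _ hσ, re_ofReal_mul]

theorem tendsto_pole_zero :
    Tendsto (fun σ : ℝ => (σ - 1) * (1 / (atHeight 0 σ - 1)).re) (𝓝[>] 1) (𝓝 1) := by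
  refine tendsto_const_nhds.congr' ?_
  filter_upwards [one_lt_eventually] with σ hσ
  rw [show atHeight 0 σ - 1 = ((σ - 1 : ℝ) : ℂ) by simp [atHeight], ← ofReal_one, ← ofReal_div,
    ofReal_re, mul_one_div_cancel (by linarith)]

theorem tendsto_pole_ne {t : ℝ} (ht : t ≠ 0) :
    Tendsto (fun σ : ℝ => (σ - 1) * (1 / (atHeight t σ - 1)).re) (𝓝[>] 1) (𝓝 0) := by
  have hc : ContinuousAt (fun σ : ℝ => (σ - 1) * (1 / (atHeight t σ - 1)).re) 1 :=
    (continuousAt_id.sub continuousAt_const).mul (Complex.continuous_re.continuousAt.comp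
      (continuousAt_const.div ((continuous_atHeight t).continuousAt.sub continuousAt_const)
        fun h => ht (by simpa [atHeight] using congrArg Complex.im h)))
  simpa using hc.tendsto.mono_left (nhdsWithin_le_nhds (s := Set.Ioi (1 : ℝ)))

theorem atHeight_zero_one : atHeight 0 1 = 1 := by simp [atHeight]

theorem tendsto_vonMangoldt_line :
    Tendsto (fun σ : ℝ => (σ - 1) * linePart (fun n => Λ n) 0 σ) (𝓝[>] 1) (𝓝 1) := by
  obtain ⟨m, hm, hlim⟩ := exists_order_of_deriv differentiable_zHat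
    (zHat_ne_zero (w := 1) (by simp)) (fun _ h => deriv_zHat h) 0
  obtain rfl : m = 0 := hm.2 (by rw [atHeight_zero_one, zHat_one]; exact one_ne_zero)
  have h := tendsto_pole_zero.sub hlim
  rw [Nat.cast_zero, sub_zero] at h
  exact h.congr fun σ => by rw [linePart, sub_re]; ring

section Eigenform

variable {f : CuspForm (Gamma0 1) (k : ℤ)} (hf : IsEigenformOne f) (hk : 1 ≤ k)

include hf hk

theorem exists_eig_order (t : ℝ) : ∃ m : ℕ, (m = 0 ↔ lHat f (atHeight t 1) ≠ 0) ∧
    Tendsto (fun σ : ℝ => (σ - 1) * linePart (eigLift f) t σ) (𝓝[>] 1) (𝓝 (-(m : ℝ))) := by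
  obtain ⟨w₁, h₁⟩ := exists_lHat_ne_zero hf hk
  obtain ⟨m, hm, hlim⟩ := exists_order_of_deriv (differentiable_lHat (by omega) f) h₁
    (fun _ h => deriv_lHat hf hk h) t
  exact ⟨m, hm, hlim.neg.congr fun σ => by rw [linePart, neg_re]; ring⟩

theorem tendsto_rankin_line_zero :
    Tendsto (fun σ : ℝ => (σ - 1) * linePart (rankinLift f) 0 σ) (𝓝[>] 1) (𝓝 1) := by
  obtain ⟨m, hm, hlim⟩ := exists_order_of_deriv (differentiable_rHat f) (rHat_one_ne_zero hk hf)
    (fun _ h => deriv_rHat hk hf h) 0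
  obtain rfl : m = 0 := hm.2 (by rw [atHeight_zero_one]; exact rHat_one_ne_zero hk hf)
  have h := tendsto_pole_zero.sub hlim
  rw [Nat.cast_zero, sub_zero] at h
  exact h.congr fun σ => by rw [linePart, sub_re]; ring

theorem exists_rankin_order {t : ℝ} (ht : t ≠ 0) :
    ∃ m : ℕ, (m = 0 ↔ rHat f (atHeight t 1) ≠ 0) ∧
      Tendsto (fun σ : ℝ => (σ - 1) * linePart (rankinLift f) t σ) (𝓝[>] 1) (𝓝 (-(m : ℝ))) := by
  obtain ⟨m, hm, hlim⟩ := exists_order_of_deriv (differentiable_rHat f) (rHat_one_ne_zero hk hf)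
    (fun _ h => deriv_rHat hk hf h) t
  have h := (tendsto_pole_ne ht).sub hlim
  rw [zero_sub] at h
  exact ⟨m, hm, h.congr fun σ => by rw [linePart, sub_re]; ring⟩

omit hk in
theorem rankin_inequality (t : ℝ) {σ : ℝ} (hσ : 1 < σ) :
    0 ≤ 3 * linePart (rankinLift f) 0 σ + 4 * linePart (rankinLift f) t σ +
      linePart (rankinLift f) (2 * t) σ := by
  have hR : ∀ s : ℂ, 1 < s.re → LSeriesSummable (cast' (rankinLift f)) s := fun _ h =>
    summable_rankinLift hf h
  refine ((((hasSum_linePart hR 0 hσ).mul_left 3).add ((hasSum_linePart hR t hσ).mul_left 4)).add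
    (hasSum_linePart hR (2 * t) hσ)).nonneg fun n => ?_
  rcases eq_or_ne n 0 with rfl | hn
  · simp [lineTerm]
  rw [lineTerm_eq _ _ _ hn, lineTerm_eq _ _ _ hn, lineTerm_eq _ _ _ hn, mul_assoc 2 t,
    Real.cos_two_mul, zero_mul, Real.cos_zero]
  refine le_of_le_of_eq (mul_nonneg (mul_nonneg (rankinLift_nonneg f n)
    (Real.rpow_nonneg (Nat.cast_nonneg n) (-σ)))
      (mul_nonneg zero_le_two (sq_nonneg (1 + Real.cos (t * Real.log n))))) ?_
  ring

theorem rHat_line_ne_zero (t : ℝ) : rHat f (atHeight t 1) ≠ 0 := by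
  rcases eq_or_ne t 0 with rfl | ht
  · rw [atHeight_zero_one]
    exact rHat_one_ne_zero hk hf
  obtain ⟨m, hm, h1⟩ := exists_rankin_order hf hk ht
  obtain ⟨m', -, h2⟩ := exists_rankin_order hf hk (mul_ne_zero two_ne_zero ht)
  have hlim := (((tendsto_rankin_line_zero hf hk).const_mul 3).add (h1.const_mul 4)).add h2
  have h0 : (0 : ℝ) ≤ 3 * 1 + 4 * -(m : ℝ) + -(m' : ℝ) := by
    refine ge_of_tendsto hlim ?_
    filter_upwards [one_lt_eventually] with σ hσ
    have h := mul_nonneg (sub_nonneg.2 hσ.le) (rankin_inequality hf t hσ)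
    linarith
  refine hm.1 (Nat.lt_one_iff.1 ?_)
  exact_mod_cast (show (m : ℝ) < 1 by linarith [Nat.cast_nonneg (α := ℝ) m'])

omit hk in
theorem eig_inequality (t : ℝ) {σ : ℝ} (hσ : 1 < σ) :
    0 ≤ linePart (fun n => Λ n) 0 σ + 4 * linePart (eigLift f) t σ +
      2 * linePart (rankinLift f) 0 σ + 2 * linePart (rankinLift f) (2 * t) σ := by
  have hR : ∀ s : ℂ, 1 < s.re → LSeriesSummable (cast' (rankinLift f)) s := fun _ h =>
    summable_rankinLift hf h
  have hZ : ∀ s : ℂ, 1 < s.re → LSeriesSummable (fun n => (Λ n : ℂ)) s := fun _ h =>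
    ArithmeticFunction.LSeriesSummable_vonMangoldt h
  refine ((((hasSum_linePart hZ 0 hσ).add ((hasSum_linePart (u := eigLift f)
    (fun _ h => summable_eigLift hf h) t hσ).mul_left 4)).add
    ((hasSum_linePart hR 0 hσ).mul_left 2)).add
    ((hasSum_linePart hR (2 * t) hσ).mul_left 2)).nonneg fun n => ?_
  rcases eq_or_ne n 0 with rfl | hn
  · simp [lineTerm]
  rw [lineTerm_eq _ _ _ hn, lineTerm_eq _ _ _ hn, lineTerm_eq _ _ _ hn, lineTerm_eq _ _ _ hn,
    mul_assoc 2 t, Real.cos_two_mul, zero_mul, Real.cos_zero]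
  set c := Real.cos (t * Real.log n)
  set v := powerSum (eig f n.minFac) (n.factorization n.minFac) with hv
  have key : 0 ≤ Λ n + 4 * c * eigLift f n + 4 * c ^ 2 * rankinLift f n := by
    rw [vonMangoldt_eq_primeLift]
    show 0 ≤ (if IsPrimePow n then Real.log n.minFac * 1 else 0) +
      4 * c * (if IsPrimePow n then Real.log n.minFac * v else 0) +
      4 * c ^ 2 * if IsPrimePow n then Real.log n.minFac * v ^ 2 else 0
    split_ifs
    · refine le_of_le_of_eq (mul_nonneg (Real.log_natCast_nonneg n.minFac)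
        (sq_nonneg (1 + 2 * c * v))) ?_
      ring
    · simp
  refine le_of_le_of_eq (mul_nonneg key (Real.rpow_nonneg (Nat.cast_nonneg n) (-σ))) ?_
  ring

omit hk in
/-- The coefficients of `ζ(w) L(w) ^ 2 R(w)` are nonnegative. -/
theorem landau_coeff_nonneg (n : ℕ) :
    0 ≤ ((ζ : ArithmeticFunction ℝ) * eig f * eig f * rankinCoeff f) n := by
  refine (((isLogDeriv_zeta.mul (isLogDeriv_eig hf)).mul (isLogDeriv_eig hf)).mul
    (isLogDeriv_rankinCoeff hf)).nonneg (fun m => ?_) ?_ ?_ n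
  · simp only [ArithmeticFunction.add_apply]
    linarith [two_mul_abs_eigLift_le f m, neg_abs_le (eigLift f m)]
  · simp [eigLift, rankinLift, primeLift_one]
  · simp [eig_one hf, rankinCoeff_one hf]

theorem lHat_one_ne_zero : lHat f 1 ≠ 0 := fun h0 => by
  set a := (ζ : ArithmeticFunction ℝ) * eig f * eig f * rankinCoeff f
  have hζ : ∀ s : ℂ, 1 < s.re → LSeriesSummable (cast' (ζ : ArithmeticFunction ℝ)) s := fun s h =>
    lSeriesSummable_of_le (fun n hn => by
      simp [ArithmeticFunction.zeta_apply, hn]) (lSeriesSummable_one_real h)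
  have h1 : ∀ s : ℂ, 1 < s.re →
      LSeriesSummable (cast' ((ζ : ArithmeticFunction ℝ) * eig f)) s :=
    fun s h => lSeriesSummable_mul (hζ s h) (summable_eig hf h)
  have h2 : ∀ s : ℂ, 1 < s.re →
      LSeriesSummable (cast' ((ζ : ArithmeticFunction ℝ) * eig f * eig f)) s :=
    fun s h => lSeriesSummable_mul (h1 s h) (summable_eig hf h)
  have ha : ∀ s : ℂ, 1 < s.re → LSeriesSummable (cast' a) s :=
    fun s h => lSeriesSummable_mul (h2 s h) (summable_rankinCoeff hf h)
  have hD : Differentiable ℂ (dslope (lHat f) 1) := fun w =>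
    ((Complex.differentiableOn_dslope (univ_mem (f := 𝓝 (1 : ℂ)))).2
      (differentiable_lHat (by omega) f).differentiableOn w (Set.mem_univ w)).differentiableAt
        univ_mem
  set G : ℂ → ℂ := fun w => zHat w * rHat f w * dslope (lHat f) 1 w ^ 2
  have hG : Differentiable ℂ G :=
    (differentiable_zHat.mul (differentiable_rHat f)).mul (hD.pow 2)
  have hpos := LSeries.positive_of_differentiable_of_eqOn (a := cast' a)
    (fun n => Complex.zero_le_real.2 (landau_coeff_nonneg hf n))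
    (Complex.zero_lt_real.2 (by simp [a, eig_one hf, rankinCoeff_one hf])) hG
    (x := 1) (abscissa_le_one ha) (fun w hw => ?_) (-2)
  · refine hpos.ne' ?_
    have hz : riemannZeta (-2) = 0 := by simpa using riemannZeta_neg_two_mul_nat_add_one 0
    have hw : ((-2 : ℝ) : ℂ) ≠ 1 := by norm_num
    simp only [G, zHat_of_ne hw]
    push_cast
    simp [hz]
  · have hw' : 1 < w.re := hw
    have hne : w ≠ 1 := fun e => by simp [e] at hw'
    have hne' : w - 1 ≠ 0 := sub_ne_zero.2 hne
    rw [lSeries_mul (h2 w hw') (summable_rankinCoeff hf hw'),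
      lSeries_mul (h1 w hw') (summable_eig hf hw'), lSeries_mul (hζ w hw') (summable_eig hf hw'),
      LSeries_congr (g := 1) (fun {n} hn => by simp [cast', ArithmeticFunction.zeta_apply, hn]),
      LSeries_one_eq_riemannZeta hw']
    simp only [G, zHat_of_ne hne, rHat_eq hk hf hw', dslope_of_ne _ hne, slope_def_field, h0,
      sub_zero, lHat_eq hf hk hw']
    field_simp

theorem lHat_line_ne_zero (t : ℝ) : lHat f (atHeight t 1) ≠ 0 := by
  rcases eq_or_ne t 0 with rfl | ht
  · rw [atHeight_zero_one]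
    exact lHat_one_ne_zero hf hk
  obtain ⟨m, hm, h1⟩ := exists_eig_order hf hk t
  obtain ⟨m', -, h2⟩ := exists_rankin_order hf hk (mul_ne_zero two_ne_zero ht)
  have hlim := ((tendsto_vonMangoldt_line.add (h1.const_mul 4)).add
    ((tendsto_rankin_line_zero hf hk).const_mul 2)).add (h2.const_mul 2)
  have h0 : (0 : ℝ) ≤ 1 + 4 * -(m : ℝ) + 2 * 1 + 2 * -(m' : ℝ) := by
    refine ge_of_tendsto hlim ?_
    filter_upwards [one_lt_eventually] with σ hσ
    have h := mul_nonneg (sub_nonneg.2 hσ.le) (eig_inequality hf t hσ)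
    linarith
  refine hm.1 (Nat.lt_one_iff.1 ?_)
  exact_mod_cast (show (m : ℝ) < 1 by linarith [Nat.cast_nonneg (α := ℝ) m'])

/-- **No zeros of the L-series for `re w ≥ 1`.** -/
theorem lHat_ne_zero {w : ℂ} (hw : 1 ≤ w.re) : lHat f w ≠ 0 := by
  rcases eq_or_lt_of_le hw with h | h
  · have e : atHeight w.im 1 = w := by rw [atHeight, h]; exact Complex.re_add_im w
    exact e ▸ lHat_line_ne_zero hf hk w.im
  · exact lHat_ne_zero_of_one_lt hf hk h

/-- **No zeros of the convolution for `re w ≥ 1`.** -/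
theorem rHat_ne_zero {w : ℂ} (hw : 1 ≤ w.re) : rHat f w ≠ 0 := by
  rcases eq_or_lt_of_le hw with h | h
  · have e : atHeight w.im 1 = w := by rw [atHeight, h]; exact Complex.re_add_im w
    exact e ▸ rHat_line_ne_zero hf hk w.im
  · exact rHat_ne_zero_of_one_lt hk hf h

end Eigenform

end FA.EigenPrimes

end
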