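import Mathlib

/-!
# Orders of zeros from logarithmic derivatives

For an entire `F`, not identically zero, `(σ - σ₀) F'/F (σ + it)` tends to the order of `F` at
`σ₀ + it` as `σ` decreases to `σ₀`.
-/

set_option autoImplicit false

noncomputable section

open Complex Filter
open scoped Topology

namespace FA.EigenPrimes

/-- The horizontal line at height `t`. -/
def atHeight (t σ : ℝ) : ℂ := σ + t * I

theorem atHeight_re (t σ : ℝ) : (atHeight t σ).re = σ := by simp [atHeight]

theorem atHeight_im (t σ : ℝ) : (atHeight t σ).im = t := by simp [atHeight]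

theorem continuous_atHeight (t : ℝ) : Continuous (atHeight t) :=
  Complex.continuous_ofReal.add continuous_const

/-- `(σ - σ₀) F'/F` on the line. -/
def scaledLogDeriv (F : ℂ → ℂ) (σ₀ t σ : ℝ) : ℂ :=
  ((σ - σ₀ : ℝ) : ℂ) * (deriv F (atHeight t σ) / F (atHeight t σ))

theorem exists_order {F : ℂ → ℂ} (hF : Differentiable ℂ F) {w₁ : ℂ} (hne : F w₁ ≠ 0)
    (σ₀ t : ℝ) : ∃ m : ℕ, (m = 0 ↔ F (atHeight t σ₀) ≠ 0) ∧
      Tendsto (scaledLogDeriv F σ₀ t) (𝓝[>] σ₀) (𝓝 (m : ℂ)) ∧
      ∀ᶠ σ in 𝓝[>] σ₀, F (atHeight t σ) ≠ 0 := by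
  set z₀ := atHeight t σ₀ with hz₀
  have hline : Tendsto (atHeight t) (𝓝[>] σ₀) (𝓝 z₀) :=
    (continuous_atHeight t).continuousWithinAt
  have hsub : ∀ σ : ℝ, atHeight t σ - z₀ = ((σ - σ₀ : ℝ) : ℂ) := fun σ => by
    simp [hz₀, atHeight]
  have hline' : Tendsto (atHeight t) (𝓝[>] σ₀) (𝓝[≠] z₀) := by
    refine tendsto_nhdsWithin_iff.2 ⟨hline, ?_⟩
    filter_upwards [self_mem_nhdsWithin] with σ hσ h
    have h' := congrArg Complex.re h
    rw [hz₀, atHeight_re, atHeight_re] at h'
    exact (Set.mem_Ioi.1 hσ).ne' h'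
  have ha : AnalyticAt ℂ F z₀ := hF.analyticAt z₀
  have hfin : ¬∀ᶠ z in 𝓝 z₀, F z = 0 := fun h => hne (congrFun
    (AnalyticOnNhd.eq_of_eventuallyEq (f := F) (g := 0)
      (fun z _ => hF.analyticAt z) (fun z _ => analyticAt_const) h) w₁)
  obtain ⟨m, g, hg, hg0, heq⟩ := (ha.exists_eventuallyEq_pow_smul_nonzero_iff).2 hfin
  simp only [smul_eq_mul] at heq
  have heq' : F =ᶠ[𝓝 z₀] fun z => (z - z₀) ^ m * g z := heq
  refine ⟨m, ?_, ?_, ?_⟩
  · rw [heq.self_of_nhds]
    rcases eq_or_ne m 0 with rfl | hm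
    · simpa using hg0
    · simp [hm]
  · have hd : ∀ᶠ z in 𝓝[≠] z₀, (z - z₀) * (deriv F z / F z) =
        (m : ℂ) + (z - z₀) * (deriv g z / g z) := by
      filter_upwards [nhdsWithin_le_nhds heq'.eventuallyEq_nhds,
        nhdsWithin_le_nhds hg.eventually_analyticAt,
        nhdsWithin_le_nhds (hg.continuousAt.eventually_ne hg0), self_mem_nhdsWithin]
        with z he hga hgz hz
      have hz0 : z - z₀ ≠ 0 := sub_ne_zero.2 hz
      rw [he.deriv_eq, he.self_of_nhds]
      have hpow : HasDerivAt (fun w => (w - z₀) ^ m * g w)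
          ((m : ℂ) * (z - z₀) ^ (m - 1) * g z + (z - z₀) ^ m * deriv g z) z := by
        simpa using ((hasDerivAt_id z).sub_const z₀).fun_pow m |>.fun_mul
          hga.differentiableAt.hasDerivAt
      rw [hpow.deriv]
      rcases m with _ | m
      · simp
      · rw [Nat.add_sub_cancel]
        field_simp
        ring
    have hlim : Tendsto (fun z => (m : ℂ) + (z - z₀) * (deriv g z / g z)) (𝓝 z₀)
        (𝓝 (m : ℂ)) := by
      have hc : ContinuousAt (fun z => (m : ℂ) + (z - z₀) * (deriv g z / g z)) z₀ :=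
        continuousAt_const.add ((continuousAt_id.sub continuousAt_const).mul
          (hg.deriv.continuousAt.div hg.continuousAt hg0))
      simpa using hc.tendsto
    refine (hlim.comp hline).congr' ((hline'.eventually hd).mono fun σ h => ?_)
    rw [Function.comp_apply, ← h, hsub, scaledLogDeriv]
  · refine hline'.eventually (p := fun z => F z ≠ 0) ?_
    filter_upwards [nhdsWithin_le_nhds heq,
      nhdsWithin_le_nhds (hg.continuousAt.eventually_ne hg0), self_mem_nhdsWithin] with z he hgz hz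
    rw [he]
    exact mul_ne_zero (pow_ne_zero _ (sub_ne_zero.2 hz)) hgz

/-- A function with `F' = H F` and `H` continuous on a half plane has no zeros there. -/
theorem ne_zero_of_deriv_eq {F H : ℂ → ℂ} (hF : Differentiable ℂ F) {w₁ : ℂ} (hne : F w₁ ≠ 0)
    {a : ℝ} (hH : ContinuousOn H {w | a < w.re}) (h : ∀ w : ℂ, a < w.re → deriv F w = H w * F w)
    {w : ℂ} (hw : a < w.re) : F w ≠ 0 := by
  obtain ⟨m, hm, hlim, hev⟩ := exists_order hF hne w.re w.im
  have hwe : atHeight w.im w.re = w := Complex.re_add_im w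
  rw [hwe] at hm
  refine hm.1 ?_
  have hHc : ContinuousAt H (atHeight w.im w.re) := by
    rw [hwe]
    exact hH.continuousAt ((isOpen_lt continuous_const Complex.continuous_re).mem_nhds hw)
  have h0 : Tendsto (fun σ : ℝ => ((σ - w.re : ℝ) : ℂ) * H (atHeight w.im σ)) (𝓝[>] w.re)
      (𝓝 0) := by
    have hc : ContinuousAt (fun σ : ℝ => ((σ - w.re : ℝ) : ℂ) * H (atHeight w.im σ)) w.re :=
      (Complex.continuous_ofReal.continuousAt.comp (continuousAt_id.sub continuousAt_const)).mul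
        (hHc.comp (continuous_atHeight w.im).continuousAt)
    simpa using hc.tendsto.mono_left (nhdsWithin_le_nhds (s := Set.Ioi w.re))
  have heq : ∀ᶠ σ in 𝓝[>] w.re,
      scaledLogDeriv F w.re w.im σ = ((σ - w.re : ℝ) : ℂ) * H (atHeight w.im σ) := by
    filter_upwards [hev, self_mem_nhdsWithin] with σ hσ hσ'
    rw [scaledLogDeriv, h _ (by rw [atHeight_re]; exact lt_trans hw hσ'),
      mul_div_cancel_right₀ _ hσ]
  exact_mod_cast tendsto_nhds_unique (hlim.congr' heq) h0

end FA.EigenPrimes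

end
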