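import Fermat.Agent.EigenPrimes.Coefficients
import Fermat.Agent.EigenPrimes.Order
import Fermat.Agent.RankinSelberg.Asymptotic
import Fermat.Agent.KohnenNonvanishing.Lambda

/-!
# The entire functions

The normalised L-series, and the convolution and `ζ` with their poles at `1` removed, with their
derivatives to the right of `1`.
-/

set_option autoImplicit false

noncomputable section

namespace FA.EigenPrimes

open UpperHalfPlane hiding I
open Complex CongruenceSubgroup LSeries Filter
open scoped MatrixGroups Real Topology ArithmeticFunction.vonMangoldt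
open FA.KohnenNonvanishing (IsEigenformOne centralLambda)

variable {k : ℕ}

theorem isOpen_right : IsOpen {w : ℂ | 1 < w.re} := isOpen_lt continuous_const Complex.continuous_re

theorem analyticOnNhd_lSeries {u : ℕ → ℂ} (h : ∀ s : ℂ, 1 < s.re → LSeriesSummable u s) :
    AnalyticOnNhd ℂ (LSeries u) {w | 1 < w.re} :=
  (LSeries_analyticOnNhd u).mono fun _ hw => abscissa_lt_re h hw

theorem continuousOn_lSeries {u : ℕ → ℂ} (h : ∀ s : ℂ, 1 < s.re → LSeriesSummable u s) :
    ContinuousOn (LSeries u) {w | 1 < w.re} :=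
  (analyticOnNhd_lSeries h).continuousOn

/-- The derivative after removing a pole at `1`. -/
theorem deriv_sub_one_mul {F L H : ℂ → ℂ} (heq : ∀ w : ℂ, 1 < w.re → F w = (w - 1) * L w)
    {w : ℂ} (hw : 1 < w.re) (hL : DifferentiableAt ℂ L w) (h : deriv L w = -H w * L w) :
    deriv F w = (1 / (w - 1) - H w) * F w := by
  have hne : w - 1 ≠ 0 := fun e => by
    rw [sub_eq_zero] at e
    rw [e] at hw
    norm_num at hw
  have hev : F =ᶠ[𝓝 w] fun z => (z - 1) * L z :=
    eventually_of_mem (isOpen_right.mem_nhds hw) heq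
  have hd : HasDerivAt (fun z => (z - 1) * L z) (1 * L w + (w - 1) * deriv L w) w :=
    ((hasDerivAt_id w).sub_const 1).fun_mul hL.hasDerivAt
  rw [hev.deriv_eq, hd.deriv, h, heq w hw]
  simp only [one_mul]
  field_simp
  ring

/-! ## The L-series -/

/-- `(k - 1) / 2`. -/
def shift (k : ℕ) : ℂ := ((k : ℂ) - 1) / 2

theorem shift_re (k : ℕ) : (shift k).re = ((k : ℝ) - 1) / 2 := by simp [shift]

/-- The normalised L-series, continued. -/
def lHat (f : CuspForm (Gamma0 1) (k : ℤ)) (w : ℂ) : ℂ :=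
  centralLambda f (w + shift k) * ((2 * π : ℝ) : ℂ) ^ (w + shift k) * (Gamma (w + shift k))⁻¹

theorem differentiable_lHat (hk : 0 < k) (f : CuspForm (Gamma0 1) (k : ℤ)) :
    Differentiable ℂ (lHat f) := by
  have hadd : Differentiable ℂ fun w : ℂ => w + shift k := differentiable_id.add_const _
  exact (((KohnenNonvanishing.differentiable_centralLambda hk f).comp hadd).mul
    (hadd.const_cpow (Or.inl (ofReal_ne_zero.2 (by positivity))))).mul
      (differentiable_one_div_Gamma.comp hadd)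

theorem lSeries_term_eig {f : CuspForm (Gamma0 1) (k : ℤ)} (hf : IsEigenformOne f) (w : ℂ)
    (n : ℕ) : term (coef f) (w + shift k) n = term (cast' (eig f)) w n := by
  rcases eq_or_ne n 0 with rfl | hn
  · simp
  rw [term_of_ne_zero hn, term_of_ne_zero hn, cast', eig_apply, ofReal_div, ofReal_re_coef hf,
    ofReal_cpow (Nat.cast_nonneg n), div_div, ofReal_natCast,
    ← cpow_add _ _ (Nat.cast_ne_zero.2 hn), shift]
  congr 2
  push_cast
  ring

section Eigenform

variable {f : CuspForm (Gamma0 1) (k : ℤ)} (hf : IsEigenformOne f)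

include hf

theorem lHat_eq (hk : 1 ≤ k) {w : ℂ} (hw : 1 < w.re) : lHat f w = LSeries (cast' (eig f)) w := by
  set U : Set ℂ := {w | 1 < w.re}
  have hk' : (1 : ℝ) ≤ k := by exact_mod_cast hk
  have hbig : ∀ z : ℂ, ((k : ℝ) + 3) / 2 < z.re → lHat f z = LSeries (cast' (eig f)) z := by
    intro z hz
    have hre : (k : ℝ) + 1 < (z + shift k).re := by
      rw [add_re, shift_re]
      linarith
    have hπ : ((2 * π : ℝ) : ℂ) ≠ 0 := ofReal_ne_zero.2 (by positivity)
    rw [lHat, KohnenNonvanishing.centralLambda_eq_LSeries (by omega) f hre,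
      show LSeries (EisCong.qL (k : ℤ) f) (z + shift k) = LSeries (cast' (eig f)) z from
        tsum_congr (lSeries_term_eig hf z)]
    have h1 : ((2 * π : ℝ) : ℂ) ^ (z + shift k) ≠ 0 := cpow_ne_zero_iff.2 (Or.inl hπ)
    have h2 : Gamma (z + shift k) ≠ 0 := Gamma_ne_zero_of_re_pos (by linarith)
    rw [cpow_neg]
    field_simp
  set z₀ : ℂ := (((k : ℝ) + 3 : ℝ) : ℂ)
  have hz₀ : ((k : ℝ) + 3) / 2 < z₀.re := by
    simp only [z₀, ofReal_re]
    linarith
  refine AnalyticOnNhd.eqOn_of_preconnected_of_eventuallyEq (𝕜 := ℂ)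
    (fun z _ => (differentiable_lHat (by omega) f).analyticAt z)
    (analyticOnNhd_lSeries fun _ h => summable_eig hf h)
    (convex_halfSpace_re_gt 1).isPreconnected (show z₀ ∈ U by simp [U, z₀]; linarith)
    (eventually_of_mem ((isOpen_lt continuous_const Complex.continuous_re).mem_nhds hz₀) hbig) hw

theorem deriv_lHat (hk : 1 ≤ k) {w : ℂ} (hw : 1 < w.re) :
    deriv (lHat f) w = -LSeries (cast' (eigLift f)) w * lHat f w := by
  rw [(lSeries_eventuallyEq (fun _ h => lHat_eq hf hk h) hw).deriv_eq, lHat_eq hf hk hw]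
  exact deriv_lSeries_of_isLogDeriv (isLogDeriv_eig hf) (fun _ h => summable_eigLift hf h)
    (fun _ h => summable_eig hf h) hw

theorem exists_lHat_ne_zero (hk : 1 ≤ k) : ∃ w, lHat f w ≠ 0 := by
  obtain ⟨s, hs, hne⟩ := exists_lSeries_ne_zero (f := cast' (eig f))
    (fun _ h => summable_eig hf h) (by simp [cast', eig_one hf])
  exact ⟨s, by rwa [lHat_eq hf hk hs]⟩

theorem lHat_ne_zero_of_one_lt (hk : 1 ≤ k) {w : ℂ} (hw : 1 < w.re) : lHat f w ≠ 0 := by
  obtain ⟨w₁, h₁⟩ := exists_lHat_ne_zero hf hk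
  exact ne_zero_of_deriv_eq (differentiable_lHat (by omega) f) h₁
    (continuousOn_lSeries fun _ h => summable_eigLift hf h).neg
    (fun _ h => deriv_lHat hf hk h) hw

end Eigenform

/-! ## The convolution -/

/-- The convolution with its pole removed, continued. -/
def rHat (f : CuspForm (Gamma0 1) (k : ℤ)) (w : ℂ) : ℂ :=
  (π : ℂ) ^ w * ((4 * π : ℝ) : ℂ) ^ (w + k - 1) / 2 * (Gamma (w + k - 1))⁻¹ *
    ((w - 1) * (RankinSelberg.pair f).Λ₀ w * (Gamma w)⁻¹ -
      (RankinSelberg.mass f : ℂ) * (w - 1) * (Gamma (w + 1))⁻¹ +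
      (RankinSelberg.mass f : ℂ) * (Gamma w)⁻¹)

theorem differentiable_rHat (f : CuspForm (Gamma0 1) (k : ℤ)) : Differentiable ℂ (rHat f) := by
  have hG : Differentiable ℂ fun w : ℂ => (Gamma w)⁻¹ := differentiable_one_div_Gamma
  have h1 : Differentiable ℂ fun w : ℂ => w - 1 := differentiable_id.sub_const 1
  have hk1 : Differentiable ℂ fun w : ℂ => w + k - 1 :=
    (differentiable_id.add_const _).sub_const 1
  refine (((differentiable_id.const_cpow (Or.inl (ofReal_ne_zero.2 Real.pi_ne_zero))).mul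
    (hk1.const_cpow (Or.inl (ofReal_ne_zero.2 (by positivity))))).div_const 2 |>.mul
    (hG.comp hk1)).mul (((h1.mul (RankinSelberg.pair f).differentiable_Λ₀).mul hG).sub
      ((h1.const_mul _).mul (hG.comp (differentiable_id.add_const 1))) |>.add (hG.const_mul _))

theorem mass_pos {f : CuspForm (Gamma0 1) (k : ℤ)} (hf : IsEigenformOne f) :
    0 < RankinSelberg.mass f := by
  refine lt_of_le_of_ne (RankinSelberg.mass_nonneg f) fun h => eigenform_ne_zero hf ?_
  exact Poincare.pairing_definite f (by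
    rw [RankinSelberg.pairing_self_eq_mass, ← h, ofReal_zero])

theorem rHat_one_ne_zero (hk : 1 ≤ k) {f : CuspForm (Gamma0 1) (k : ℤ)} (hf : IsEigenformOne f) :
    rHat f 1 ≠ 0 := by
  have hk' : (1 : ℝ) ≤ k := by exact_mod_cast hk
  simp only [rHat, sub_self, zero_mul, mul_zero, zero_add, Gamma_one, inv_one, mul_one]
  refine mul_ne_zero (mul_ne_zero (div_ne_zero (mul_ne_zero ?_ ?_) two_ne_zero)
    (inv_ne_zero (Gamma_ne_zero_of_re_pos ?_))) (ofReal_ne_zero.2 (mass_pos hf).ne')
  · exact cpow_ne_zero_iff.2 (Or.inl (ofReal_ne_zero.2 Real.pi_ne_zero))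
  · exact cpow_ne_zero_iff.2 (Or.inl (ofReal_ne_zero.2 (by positivity)))
  · simp
    linarith

theorem lSeries_sqInd {w : ℂ} (hw : 1 < w.re) :
    LSeries (cast' sqInd) w = riemannZeta (2 * w) := by
  rw [zeta_eq_tsum_one_div_nat_cpow (by simp; linarith), LSeries]
  refine ((Function.Injective.tsum_eq (g := fun n : ℕ => n ^ 2)
    (f := term (cast' sqInd) w) (fun a b h => Nat.pow_left_injective two_ne_zero h) ?_)).symm.trans
      (tsum_congr fun n => ?_)
  · intro n hn
    by_contra h
    refine hn ?_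
    rcases eq_or_ne n 0 with rfl | hn0
    · simp
    have h0 : sqInd n = 0 := if_neg fun ⟨_, c, hc⟩ => h ⟨c, (sq c).trans hc.symm⟩
    simp [term_of_ne_zero hn0, cast', h0]
  · rcases eq_or_ne n 0 with rfl | hn
    · rw [zero_pow two_ne_zero, term_zero, Nat.cast_zero, zero_cpow (fun h => ?_), div_zero]
      have := congrArg Complex.re h
      simp at this
      linarith
    · rw [term_of_ne_zero (pow_ne_zero 2 hn), cast', sqInd_sq hn, ofReal_one, Nat.cast_pow]
      congr 1
      rw [show (2 : ℂ) * w = ((2 : ℕ) : ℂ) * w by norm_num, natCast_cpow_natCast_mul]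

theorem lSeries_rankinCoeff {f : CuspForm (Gamma0 1) (k : ℤ)} (hf : IsEigenformOne f) {w : ℂ}
    (hw : 1 < w.re) :
    LSeries (cast' (rankinCoeff f)) w =
      riemannZeta (2 * w) * RankinSelberg.series f (w + k - 1) := by
  rw [rankinCoeff, lSeries_mul (lSeriesSummable_of_le (fun n _ => by
    rw [abs_of_nonneg (sqInd_nonneg n)]; exact sqInd_le_one n) (lSeriesSummable_one_real hw))
    (summable_eigSq hf hw), lSeries_sqInd hw]
  congr 1
  refine tsum_congr fun n => ?_
  rcases eq_or_ne n 0 with rfl | hn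
  · simp
  exact lSeries_term_eigSq hf hn w

theorem rHat_eq_series (hk : 1 ≤ k) (f : CuspForm (Gamma0 1) (k : ℤ)) {w : ℂ} (hw : 1 < w.re) :
    rHat f w = (w - 1) * (riemannZeta (2 * w) * RankinSelberg.series f (w + k - 1)) := by
  have h := RankinSelberg.pair_lambda f hw
  rw [RankinSelberg.pair_lambda_eq] at h
  have hk' : (1 : ℝ) ≤ k := by exact_mod_cast hk
  have hw0 : w ≠ 0 := fun e => by rw [e] at hw; norm_num at hw
  have hw1 : w - 1 ≠ 0 := fun e => by rw [sub_eq_zero] at e; rw [e] at hw; norm_num at hw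
  have g0 : Gamma w ≠ 0 := Gamma_ne_zero_of_re_pos (by linarith)
  have g1 : Gamma (w + k - 1) ≠ 0 := Gamma_ne_zero_of_re_pos (by simp; linarith)
  have p1 : (π : ℂ) ^ w ≠ 0 := cpow_ne_zero_iff.2 (Or.inl (ofReal_ne_zero.2 Real.pi_ne_zero))
  have p2 : ((4 * π : ℝ) : ℂ) ^ (w + k - 1) ≠ 0 :=
    cpow_ne_zero_iff.2 (Or.inl (ofReal_ne_zero.2 (by positivity)))
  rw [cpow_neg, cpow_neg] at h
  rw [rHat, Gamma_add_one w hw0]
  generalize (π : ℂ) ^ w = A at *
  generalize ((4 * π : ℝ) : ℂ) ^ (w + k - 1) = B at *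
  generalize (RankinSelberg.pair f).Λ₀ w = E at *
  field_simp at h ⊢
  linear_combination h

theorem rHat_eq (hk : 1 ≤ k) {f : CuspForm (Gamma0 1) (k : ℤ)} (hf : IsEigenformOne f) {w : ℂ}
    (hw : 1 < w.re) : rHat f w = (w - 1) * LSeries (cast' (rankinCoeff f)) w := by
  rw [lSeries_rankinCoeff hf hw, rHat_eq_series hk f hw]

theorem deriv_rHat (hk : 1 ≤ k) {f : CuspForm (Gamma0 1) (k : ℤ)} (hf : IsEigenformOne f) {w : ℂ}
    (hw : 1 < w.re) :
    deriv (rHat f) w = (1 / (w - 1) - LSeries (cast' (rankinLift f)) w) * rHat f w :=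
  deriv_sub_one_mul (fun _ h => rHat_eq hk hf h) hw
    (analyticOnNhd_lSeries (fun _ h => summable_rankinCoeff hf h) w hw).differentiableAt
    (deriv_lSeries_of_isLogDeriv (isLogDeriv_rankinCoeff hf)
      (fun _ h => summable_rankinLift hf h) (fun _ h => summable_rankinCoeff hf h) hw)

theorem continuousOn_inv_sub_one : ContinuousOn (fun w : ℂ => 1 / (w - 1)) {w | 1 < w.re} :=
  continuousOn_const.div (continuousOn_id.sub continuousOn_const) fun w hw e => by
    rw [sub_eq_zero] at e
    simp [e] at hw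

theorem rHat_ne_zero_of_one_lt (hk : 1 ≤ k) {f : CuspForm (Gamma0 1) (k : ℤ)}
    (hf : IsEigenformOne f) {w : ℂ} (hw : 1 < w.re) : rHat f w ≠ 0 :=
  ne_zero_of_deriv_eq (differentiable_rHat f) (rHat_one_ne_zero hk hf)
    (continuousOn_inv_sub_one.sub (continuousOn_lSeries fun _ h => summable_rankinLift hf h))
    (fun _ h => deriv_rHat hk hf h) hw

/-! ## The zeta function -/

/-- `(w - 1) ζ w`, continued. -/
def zHat : ℂ → ℂ := Function.update (fun w => (w - 1) * riemannZeta w) 1 1

theorem zHat_one : zHat 1 = 1 := Function.update_self ..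

theorem zHat_of_ne {w : ℂ} (hw : w ≠ 1) : zHat w = (w - 1) * riemannZeta w :=
  Function.update_of_ne hw ..

theorem differentiable_zHat : Differentiable ℂ zHat := by
  have hd : ∀ w : ℂ, w ≠ 1 → DifferentiableAt ℂ zHat w := fun w hw =>
    ((differentiableAt_id.sub_const 1).mul (differentiableAt_riemannZeta hw)).congr_of_eventuallyEq
      (eventually_of_mem (isOpen_ne.mem_nhds hw) fun z hz => zHat_of_ne hz)
  intro w
  rcases ne_or_eq w 1 with hw | rfl
  · exact hd w hw
  refine (analyticAt_of_differentiable_on_punctured_nhds_of_continuousAt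
    (eventually_nhdsWithin_of_forall hd) ?_).differentiableAt
  rw [continuousAt_iff_punctured_nhds, zHat_one]
  exact riemannZeta_residue_one.congr'
    (eventually_nhdsWithin_of_forall fun z hz => (zHat_of_ne hz).symm)

theorem zHat_ne_zero {w : ℂ} (hw : 1 ≤ w.re) : zHat w ≠ 0 := by
  rcases ne_or_eq w 1 with h | rfl
  · rw [zHat_of_ne h]
    exact mul_ne_zero (sub_ne_zero.2 h) (riemannZeta_ne_zero_of_one_le_re hw)
  · rw [zHat_one]
    exact one_ne_zero

theorem deriv_zHat {w : ℂ} (hw : 1 < w.re) :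
    deriv zHat w = (1 / (w - 1) - LSeries (fun n => (Λ n : ℂ)) w) * zHat w := by
  have h1 : w ≠ 1 := fun e => by simp [e] at hw
  refine deriv_sub_one_mul (fun z hz => zHat_of_ne fun e => by simp [e] at hz) hw
    (differentiableAt_riemannZeta h1) ?_
  rw [ArithmeticFunction.LSeries_vonMangoldt_eq_deriv_riemannZeta_div hw, neg_div, neg_neg,
    div_mul_cancel₀ _ (riemannZeta_ne_zero_of_one_le_re hw.le)]

end FA.EigenPrimes

end
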