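import Fermat.Agent.EigenPrimes.Sums
import Fermat.Agent.OneSided.Landau
import Fermat.Agent.PeriodPolynomial.Positive

/-!
# Signs of the coefficients at the primes

If almost all `λ p` had one sign, `∑ |λ p| log p p^(-s)` would converge, by Landau's theorem, up to
the largest real zero of the L-series. For positive signs there is no such zero, and convergence at
`69/100` contradicts the mean square. For negative signs the absence of zeros is assumed; `Δ` has
none, being positive on the imaginary axis.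
-/

set_option autoImplicit false

noncomputable section

namespace FA.EigenPrimes

open UpperHalfPlane hiding I
open Complex CongruenceSubgroup LSeries Filter
open scoped MatrixGroups Real Topology ComplexOrder ArithmeticFunction.vonMangoldt
open FA.KohnenNonvanishing (IsEigenformOne centralLambda)

variable {k : ℕ}

/-- The higher prime powers and a finite set of primes. -/
def smallPart (f : CuspForm (Gamma0 1) (k : ℤ)) (T : Finset ℕ) (n : ℕ) : ℝ :=
  if n.Prime ∧ n ∉ T then 0 else eigLift f n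

/-- The primes outside a finite set, with a sign. -/
def signPart (ε : ℝ) (f : CuspForm (Gamma0 1) (k : ℤ)) (T : Finset ℕ) (n : ℕ) : ℝ :=
  if n.Prime ∧ n ∉ T then ε * eigLift f n else 0

theorem signPart_add (ε : ℝ) (f : CuspForm (Gamma0 1) (k : ℤ)) (T : Finset ℕ) (n : ℕ) :
    signPart ε f T n + ε * smallPart f T n = ε * eigLift f n := by
  unfold signPart smallPart
  split_ifs <;> ring

theorem eigLift_prime_pow_le {f : CuspForm (Gamma0 1) (k : ℤ)} {C : ℝ} (hC0 : 0 ≤ C)
    (hC : ∀ p m : ℕ, p.Prime → m ≠ 0 →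
      |powerSum (eig f p) m| ≤ C * ((p : ℝ) ^ (3 / 10 : ℝ)) ^ m) {p : ℕ} (hp : p.Prime) (j : ℕ) :
    |eigLift f (p ^ (j + 2))| * ((p ^ (j + 2) : ℕ) : ℝ) ^ (-(67 / 100) : ℝ) ≤
      (rankinLift f p * (p : ℝ) ^ (-(134 / 100) : ℝ) +
        (C + 2) * 2 * (Λ p * (p : ℝ) ^ (-(111 / 100) : ℝ))) *
        ((2 : ℝ) ^ (-(37 / 100) : ℝ)) ^ j := by
  have hp0 : (0 : ℝ) < p := Nat.cast_pos.2 hp.pos
  have hp1 : (1 : ℝ) ≤ p := by exact_mod_cast hp.one_le
  have hl := Real.log_natCast_nonneg p
  set r : ℝ := (2 : ℝ) ^ (-(37 / 100) : ℝ) with hr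
  have hpow : ((p ^ (j + 2) : ℕ) : ℝ) ^ (-(67 / 100) : ℝ) =
      (p : ℝ) ^ (((j + 2 : ℕ) : ℝ) * -(67 / 100)) := by
    rw [Nat.cast_pow, ← Real.rpow_natCast, ← Real.rpow_mul hp0.le]
  rw [hpow, ArithmeticFunction.vonMangoldt_apply_prime hp, eigLift, rankinLift,
    primeLift_prime_pow _ hp (by omega), primeLift_prime _ hp, abs_mul, abs_of_nonneg hl]
  set x := eig f p with hx
  rw [show powerSum x 1 = x from rfl]
  rcases j with _ | j
  · rw [show ((0 + 2 : ℕ) : ℝ) * -(67 / 100) = -(134 / 100) by norm_num, pow_zero, mul_one,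
      show powerSum x (0 + 2) = x ^ 2 - 2 by simp only [powerSum]; ring]
    set P := (p : ℝ) ^ (-(134 / 100) : ℝ)
    have hP : 0 ≤ P := Real.rpow_nonneg hp0.le _
    have hPQ : P ≤ (p : ℝ) ^ (-(111 / 100) : ℝ) :=
      Real.rpow_le_rpow_of_exponent_le hp1 (by norm_num)
    have h1 : |x ^ 2 - 2| ≤ x ^ 2 + 2 := abs_le.2 ⟨by linarith [sq_nonneg x], by linarith⟩
    have h2 := mul_le_mul_of_nonneg_left h1 (mul_nonneg hl hP)
    have h3 := mul_le_mul_of_nonneg_left hPQ hl
    nlinarith [mul_nonneg (mul_nonneg hC0 hl) (hP.trans hPQ),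
      mul_nonneg hl (hP.trans hPQ)]
  · set m := j + 1 + 2
    set q := (p : ℝ) ^ (3 / 10 : ℝ)
    have h3 : q ^ m * (p : ℝ) ^ ((m : ℝ) * -(67 / 100)) ≤
        (p : ℝ) ^ (-(111 / 100) : ℝ) * r ^ j := by
      rw [← Real.rpow_natCast q, ← Real.rpow_mul hp0.le, ← Real.rpow_add hp0,
        show (3 / 10 : ℝ) * (m : ℝ) + (m : ℝ) * -(67 / 100) =
          -(111 / 100) + -(37 / 100) * (j : ℝ) by simp only [m]; push_cast; ring,
        Real.rpow_add hp0, Real.rpow_mul hp0.le, Real.rpow_natCast]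
      refine mul_le_mul_of_nonneg_left (pow_le_pow_left₀ (Real.rpow_nonneg hp0.le _) ?_ j)
        (Real.rpow_nonneg hp0.le _)
      exact Real.rpow_le_rpow_of_nonpos two_pos (by exact_mod_cast hp.two_le) (by norm_num)
    have hr2 : 1 ≤ 2 * r := by
      calc (1 : ℝ) ≤ (2 : ℝ) ^ (1 + -(37 / 100) : ℝ) := Real.one_le_rpow one_le_two (by norm_num)
        _ = 2 * r := by rw [Real.rpow_add two_pos, Real.rpow_one]
    calc Real.log p * |powerSum x m| * (p : ℝ) ^ ((m : ℝ) * -(67 / 100))
        ≤ Real.log p * (C * q ^ m) * (p : ℝ) ^ ((m : ℝ) * -(67 / 100)) :=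
          mul_le_mul_of_nonneg_right (mul_le_mul_of_nonneg_left (hC p m hp (by omega)) hl)
            (Real.rpow_nonneg hp0.le _)
      _ = Real.log p * C * (q ^ m * (p : ℝ) ^ ((m : ℝ) * -(67 / 100))) := by ring
      _ ≤ Real.log p * C * ((p : ℝ) ^ (-(111 / 100) : ℝ) * r ^ j) :=
          mul_le_mul_of_nonneg_left h3 (mul_nonneg hl hC0)
      _ ≤ (Real.log p * x ^ 2 * (p : ℝ) ^ (-(134 / 100) : ℝ) +
          (C + 2) * 2 * (Real.log p * (p : ℝ) ^ (-(111 / 100) : ℝ))) * r ^ (j + 1) := by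
          have h0 : 0 ≤ Real.log p * x ^ 2 * (p : ℝ) ^ (-(134 / 100) : ℝ) * r ^ (j + 1) := by
            positivity
          have h1 := mul_le_mul_of_nonneg_left hr2 (show 0 ≤ (C + 2) *
            (Real.log p * (p : ℝ) ^ (-(111 / 100) : ℝ)) * r ^ j by positivity)
          have h2 : 0 ≤ Real.log p * (p : ℝ) ^ (-(111 / 100) : ℝ) * r ^ j := by positivity
          rw [pow_succ r j] at h0 ⊢
          linarith

theorem summable_smallPart (hk : 3 ≤ k) {f : CuspForm (Gamma0 1) (k : ℤ)}
    (hf : IsEigenformOne f) (T : Finset ℕ) :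
    Summable fun n => |smallPart f T n| * (n : ℝ) ^ (-(67 / 100) : ℝ) := by
  obtain ⟨C, hC0, hC⟩ := exists_powerSum_bound hk hf
  set u : ℕ → ℝ := fun n => if n.Prime then 0 else |eigLift f n|
  have hu : Summable fun n => u n * (n : ℝ) ^ (-(67 / 100) : ℝ) := by
    set g : Nat.Primes × ℕ → ℕ := fun v => (v.1 : ℕ) ^ (v.2 + 2)
    have hg : Function.Injective g := fun v w h => by
      obtain ⟨h1, h2⟩ := Nat.Prime.pow_inj' v.1.2 w.1.2 (by omega) (by omega) h
      exact Prod.ext (Subtype.ext h1) (by omega)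
    refine (hg.summable_iff fun n hn => ?_).1 ?_
    · by_cases hP : n.Prime
      · simp [u, hP]
      have hpp : ¬ IsPrimePow n := fun hpp => by
        obtain ⟨p, m, hp, hm, rfl⟩ := (isPrimePow_nat_iff n).1 hpp
        rcases m with _ | _ | m
        · omega
        · exact hP (by simpa using hp)
        · exact hn ⟨(⟨p, hp⟩, m), rfl⟩
      simp [u, hP, eigLift, primeLift_apply_not hpp]
    set r : ℝ := (2 : ℝ) ^ (-(37 / 100) : ℝ)
    have hr : Summable fun j : ℕ => r ^ j := summable_geometric_of_lt_one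
      (Real.rpow_nonneg zero_le_two _)
      (Real.rpow_lt_one_of_one_lt_of_neg one_lt_two (by norm_num))
    have hA : Summable fun p : Nat.Primes =>
        rankinLift f p * (p : ℝ) ^ (-(134 / 100) : ℝ) +
          (C + 2) * 2 * (Λ (p : ℕ) * (p : ℝ) ^ (-(111 / 100) : ℝ)) :=
      ((summable_mul_rpow ArithmeticFunction.map_zero (summable_rankinLift hf
        (by norm_num : 1 < (((134 / 100 : ℝ)) : ℂ).re))).add
        ((summable_mul_rpow ArithmeticFunction.map_zero
          (ArithmeticFunction.LSeriesSummable_vonMangoldt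
            (by norm_num : 1 < (((111 / 100 : ℝ)) : ℂ).re))).mul_left _)).comp_injective
          Subtype.val_injective
    refine Summable.of_nonneg_of_le (fun v => ?_) (fun v => ?_)
      (hA.mul_of_nonneg hr (fun p => ?_) fun j => pow_nonneg (Real.rpow_nonneg zero_le_two _) j)
    · have h : 0 ≤ u (g v) := by
        simp only [u]
        split_ifs <;> simp
      exact mul_nonneg h (Real.rpow_nonneg (Nat.cast_nonneg _) _)
    · simp only [u, g, Function.comp_apply,
        if_neg (Nat.Prime.not_prime_pow (show 2 ≤ v.2 + 2 by omega))]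
      exact eigLift_prime_pow_le hC0 hC v.1.2 v.2
    · have := rankinLift_nonneg f p
      have := ArithmeticFunction.vonMangoldt_nonneg (n := (p : ℕ))
      positivity
  have hT : Summable fun n => if n ∈ T then |eigLift f n| * (n : ℝ) ^ (-(67 / 100) : ℝ) else 0 :=
    summable_of_ne_finset_zero (s := T) fun n hn => if_neg hn
  refine Summable.of_nonneg_of_le (fun n => mul_nonneg (abs_nonneg _)
    (Real.rpow_nonneg (Nat.cast_nonneg n) _)) (fun n => ?_) (hu.add hT)
  have h0 : (0 : ℝ) ≤ |eigLift f n| * (n : ℝ) ^ (-(67 / 100) : ℝ) := by positivity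
  by_cases hP : n.Prime <;> by_cases hn : n ∈ T <;> simp [smallPart, u, hP, hn, h0]

theorem summable_smallPart_series (hk : 3 ≤ k) {f : CuspForm (Gamma0 1) (k : ℤ)}
    (hf : IsEigenformOne f) (T : Finset ℕ) {s : ℂ} (hs : 67 / 100 ≤ s.re) :
    LSeriesSummable (fun n => (smallPart f T n : ℂ)) s := by
  refine (summable_smallPart hk hf T).of_norm_bounded fun n => ?_
  rcases eq_or_ne n 0 with rfl | hn
  · simp
  rw [norm_term_eq, if_neg hn, Complex.norm_real, Real.norm_eq_abs,
    Real.rpow_neg (Nat.cast_nonneg n), ← div_eq_mul_inv]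
  exact div_le_div_of_nonneg_left (abs_nonneg _)
    (Real.rpow_pos_of_pos (Nat.cast_pos.2 (Nat.pos_of_ne_zero hn)) _)
    (Real.rpow_le_rpow_of_exponent_le (Nat.one_le_cast.2 (Nat.pos_of_ne_zero hn)) hs)

theorem lHat_ofReal_ne_zero {f : CuspForm (Gamma0 1) (k : ℤ)}
    (hz : ∀ x : ℝ, (k : ℝ) / 2 < x → centralLambda f x ≠ 0) {x : ℝ} (hx : 1 / 2 < x)
    (hk : 1 ≤ k) : lHat f x ≠ 0 := by
  have hk' : (1 : ℝ) ≤ k := by exact_mod_cast hk
  have e : (x : ℂ) + shift k = ((x + ((k : ℝ) - 1) / 2 : ℝ) : ℂ) := by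
    simp [shift]
  rw [lHat, e]
  refine mul_ne_zero (mul_ne_zero (hz _ (by linarith))
    (cpow_ne_zero_iff.2 (Or.inl (ofReal_ne_zero.2 (by positivity))))) (inv_ne_zero ?_)
  exact Gamma_ne_zero_of_re_pos (by simp; linarith)

/-- The primes of one sign. -/
def signSet (ε : ℝ) (f : CuspForm (Gamma0 1) (k : ℤ)) : Set ℕ :=
  {p | p.Prime ∧ ε * eigLift f p < 0}

section Sign

variable {f : CuspForm (Gamma0 1) (k : ℤ)} (hf : IsEigenformOne f) (hk : 3 ≤ k)
  {ε : ℝ} {T : Finset ℕ} (hT : ∀ p, p ∈ signSet ε f → p ∈ T)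

omit hf hk
include hT

theorem signPart_nonneg (n : ℕ) : 0 ≤ signPart ε f T n := by
  unfold signPart
  split_ifs with h
  · exact not_lt.1 fun hlt => h.2 (hT n ⟨h.1, hlt⟩)
  · exact le_rfl

include hf hk

omit hT in
theorem lSeries_signPart {w : ℂ} (hw : 1 < w.re) :
    LSeriesSummable (fun n => (signPart ε f T n : ℂ)) w ∧
      lHat f w * LSeries (fun n => (signPart ε f T n : ℂ)) w =
        -(ε : ℂ) * deriv (lHat f) w -
          (ε : ℂ) * LSeries (fun n => (smallPart f T n : ℂ)) w * lHat f w := by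
  have hg := summable_eigLift hf hw
  have hs := summable_smallPart_series hk hf T (s := w) (by linarith)
  have e : (fun n => (signPart ε f T n : ℂ)) =
      (ε : ℂ) • cast' (eigLift f) - (ε : ℂ) • fun n => (smallPart f T n : ℂ) := by
    funext n
    simp only [Pi.sub_apply, Pi.smul_apply, smul_eq_mul, cast', ← ofReal_mul, ← ofReal_sub,
      ← signPart_add ε f T n, add_sub_cancel_right]
  rw [e]
  refine ⟨(hg.smul _).sub (hs.smul _), ?_⟩
  rw [LSeries_sub (hg.smul _) (hs.smul _), LSeries_smul, LSeries_smul,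
    deriv_lHat hf (by omega) hw]
  ring

theorem landau_signPart {α : ℝ} (hα : 67 / 100 ≤ α) (hD0 : ∀ x : ℝ, α < x → lHat f x ≠ 0)
    {w : ℂ} (hw : α < w.re) :
    LSeriesSummable (fun n => (signPart ε f T n : ℂ)) w ∧
      lHat f w * LSeries (fun n => (signPart ε f T n : ℂ)) w =
        -(ε : ℂ) * deriv (lHat f) w -
          (ε : ℂ) * LSeries (fun n => (smallPart f T n : ℂ)) w * lHat f w := by
  refine OneSided.lSeriesSummable_of_nonneg
    (fun n => Complex.zero_le_real.2 (signPart_nonneg hT n)) (x₀ := 1)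
    (fun w hw => (lSeries_signPart hf hk hw).1) (Den := lHat f)
    (Num := fun w => -(ε : ℂ) * deriv (lHat f) w -
      (ε : ℂ) * LSeries (fun n => (smallPart f T n : ℂ)) w * lHat f w)
    (fun w hw => (lSeries_signPart hf hk hw).2) ?_
    (differentiable_lHat (by omega) f).differentiableOn hD0 hw
  intro z hz
  have hz' : α < z.re := hz
  have hab : abscissaOfAbsConv (fun n => (smallPart f T n : ℂ)) < z.re :=
    lt_of_le_of_lt (abscissaOfAbsConv_le_of_forall_lt_LSeriesSummable (x := 67 / 100)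
      fun y hy => summable_smallPart_series hk hf T (by simpa using hy.le))
      (EReal.coe_lt_coe_iff.2 (lt_of_le_of_lt hα hz'))
  refine DifferentiableAt.differentiableWithinAt (DifferentiableAt.sub
    ((((differentiable_lHat (by omega) f).analyticAt z).deriv.differentiableAt).const_mul _)
    ((DifferentiableAt.const_mul ?_ _).mul (differentiable_lHat (by omega) f z)))
  exact ((LSeries_analyticOnNhd _) z hab).differentiableAt

omit hk in
theorem false_of_summable (hk : 3 ≤ k) (hε : |ε| = 1)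
    (h : LSeriesSummable (fun n => (signPart ε f T n : ℂ)) ((69 / 100 : ℝ) : ℂ)) : False := by
  obtain ⟨C, hC0, hC⟩ := exists_powerSum_bound hk hf
  have hS : Summable fun n => signPart ε f T n * (n : ℝ) ^ (-(69 / 100) : ℝ) :=
    summable_mul_rpow (by simp [signPart, Nat.not_prime_zero]) h
  set S := ∑' n, signPart ε f T n * (n : ℝ) ^ (-(69 / 100) : ℝ)
  set K := ∑ p ∈ T, rankinLift f p
  have hb : ∀ x : ℝ, 1 ≤ x →
      upToPrime (rankinLift f) x ≤ C * S * x ^ (99 / 100 : ℝ) + K := by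
    intro x hx
    have hx0 : 0 < x := by linarith
    rw [upToPrime, ← Finset.sum_filter_add_sum_filter_not _ (fun p => p ∉ T)]
    refine add_le_add ?_ ?_
    · calc ∑ p ∈ Finset.filter (fun p => p ∉ T) ((Finset.Icc 1 ⌊x⌋₊).filter Nat.Prime),
            rankinLift f p
          ≤ ∑ p ∈ Finset.filter (fun p => p ∉ T) ((Finset.Icc 1 ⌊x⌋₊).filter Nat.Prime),
            C * (signPart ε f T p * (p : ℝ) ^ (-(69 / 100) : ℝ)) * x ^ (99 / 100 : ℝ) := by
            refine Finset.sum_le_sum fun p hp => ?_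
            obtain ⟨hp1, hpT⟩ := Finset.mem_filter.1 hp
            obtain ⟨hp2, hpp⟩ := Finset.mem_filter.1 hp1
            have hp0 : (0 : ℝ) < p := Nat.cast_pos.2 hpp.pos
            have hpx : (p : ℝ) ≤ x := (Nat.le_floor_iff hx0.le).1 (Finset.mem_Icc.1 hp2).2
            have habs : signPart ε f T p = |eigLift f p| := by
              rw [← abs_of_nonneg (signPart_nonneg hT p), signPart, if_pos ⟨hpp, hpT⟩, abs_mul,
                hε, one_mul]
            have hCp := hC p 1 hpp one_ne_zero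
            rw [pow_one] at hCp
            have hv : rankinLift f p ≤ C * (p : ℝ) ^ (3 / 10 : ℝ) * |eigLift f p| := by
              rw [rankinLift, eigLift, primeLift_prime _ hpp, primeLift_prime _ hpp, abs_mul,
                abs_of_nonneg (Real.log_natCast_nonneg p), ← sq_abs, sq]
              calc Real.log p * (|powerSum (eig f p) 1| * |powerSum (eig f p) 1|)
                  ≤ Real.log p * (C * (p : ℝ) ^ (3 / 10 : ℝ) * |powerSum (eig f p) 1|) :=
                    mul_le_mul_of_nonneg_left (mul_le_mul_of_nonneg_right hCp (abs_nonneg _))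
                      (Real.log_natCast_nonneg p)
                _ = _ := by ring
            have hpow : (p : ℝ) ^ (3 / 10 : ℝ) ≤
                (p : ℝ) ^ (-(69 / 100) : ℝ) * x ^ (99 / 100 : ℝ) := by
              rw [show (3 / 10 : ℝ) = -(69 / 100) + 99 / 100 by norm_num, Real.rpow_add hp0]
              exact mul_le_mul_of_nonneg_left (Real.rpow_le_rpow hp0.le hpx (by norm_num))
                (Real.rpow_nonneg hp0.le _)
            rw [habs]
            refine hv.trans ?_
            calc C * (p : ℝ) ^ (3 / 10 : ℝ) * |eigLift f p|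
                ≤ C * ((p : ℝ) ^ (-(69 / 100) : ℝ) * x ^ (99 / 100 : ℝ)) * |eigLift f p| := by
                  gcongr
              _ = _ := by ring
        _ ≤ C * S * x ^ (99 / 100 : ℝ) := by
            rw [← Finset.sum_mul, ← Finset.mul_sum]
            refine mul_le_mul_of_nonneg_right (mul_le_mul_of_nonneg_left ?_ hC0)
              (Real.rpow_nonneg hx0.le _)
            exact hS.sum_le_tsum _ fun n _ =>
              mul_nonneg (signPart_nonneg hT n) (Real.rpow_nonneg (Nat.cast_nonneg n) _)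
    · refine Finset.sum_le_sum_of_subset_of_nonneg (fun p hp => ?_)
        fun p _ _ => rankinLift_nonneg f p
      exact not_not.1 (Finset.mem_filter.1 hp).2
  have hlim : Tendsto (fun x : ℝ => C * S * x ^ (-(1 / 100) : ℝ) + K * x⁻¹) atTop (𝓝 0) := by
    simpa using ((tendsto_rpow_neg_atTop (show (0 : ℝ) < 1 / 100 by norm_num)).const_mul
      (C * S)).add (tendsto_inv_atTop_zero.const_mul K)
  refine absurd (le_of_tendsto_of_tendsto (tendsto_prime_rankin hk hf) hlim ?_) (by norm_num)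
  filter_upwards [eventually_ge_atTop (1 : ℝ)] with x hx
  have hx0 : 0 < x := by linarith
  rw [div_le_iff₀ hx0, add_mul, mul_assoc (C * S), ← Real.rpow_add_one hx0.ne',
    show -(1 / 100 : ℝ) + 1 = 99 / 100 by norm_num, mul_assoc K, inv_mul_cancel₀ hx0.ne', mul_one]
  exact hb x hx

end Sign

theorem infinite_signSet_of_no_zero (hk : 3 ≤ k) {f : CuspForm (Gamma0 1) (k : ℤ)}
    (hf : IsEigenformOne f) (hz : ∀ x : ℝ, (k : ℝ) / 2 < x → centralLambda f x ≠ 0)
    {ε : ℝ} (hε : |ε| = 1) : (signSet ε f).Infinite := fun hfin => by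
  have hT : ∀ p, p ∈ signSet ε f → p ∈ hfin.toFinset := fun p hp => hfin.mem_toFinset.2 hp
  exact false_of_summable hf hT hk hε (landau_signPart hf hk hT (α := 68 / 100) (by norm_num)
    (fun x hx => lHat_ofReal_ne_zero hz (by linarith) (by omega)) (w := ((69 / 100 : ℝ) : ℂ))
    (by norm_num)).1

/-- **Infinitely many negative coefficients at primes.** -/
theorem infinite_signSet_one (hk : 3 ≤ k) {f : CuspForm (Gamma0 1) (k : ℤ)}
    (hf : IsEigenformOne f) : (signSet 1 f).Infinite := fun hfin => by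
  have hT : ∀ p, p ∈ signSet 1 f → p ∈ hfin.toFinset := fun p hp => hfin.mem_toFinset.2 hp
  set T := hfin.toFinset
  set Z : Set ℝ := Set.Icc (68 / 100) 1 ∩ {x : ℝ | lHat f x = 0}
  have hZ : Z.Nonempty := by
    by_contra hZ
    refine false_of_summable hf hT hk abs_one (landau_signPart hf hk hT (α := 68 / 100)
      (by norm_num) (fun x hx h0 => ?_) (w := ((69 / 100 : ℝ) : ℂ)) (by norm_num)).1
    rcases le_or_gt x 1 with h1 | h1
    · exact hZ ⟨x, ⟨hx.le, h1⟩, h0⟩
    · exact lHat_ne_zero hf (by omega) (w := (x : ℂ)) (by simpa using h1.le) h0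
  have hc : IsCompact Z := isCompact_Icc.inter_right (isClosed_eq
    ((differentiable_lHat (by omega) f).continuous.comp Complex.continuous_ofReal)
    continuous_const)
  obtain ⟨⟨hs1, -⟩, hs0⟩ := hc.sSup_mem hZ
  set σ₀ := sSup Z
  have hD0 : ∀ x : ℝ, σ₀ < x → lHat f x ≠ 0 := fun x hx h0 => by
    rcases le_or_gt x 1 with h1 | h1
    · exact absurd (le_csSup hc.bddAbove (show x ∈ Z from ⟨⟨hs1.trans hx.le, h1⟩, h0⟩)) hx.not_ge
    · exact lHat_ne_zero hf (by omega) (w := (x : ℂ)) (by simpa using h1.le) h0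
  obtain ⟨w₁, h₁⟩ := exists_lHat_ne_zero hf (show 1 ≤ k by omega)
  obtain ⟨m, hm, hlim, hev⟩ := exists_order (differentiable_lHat (by omega) f) h₁ σ₀ 0
  have hat : ∀ σ : ℝ, atHeight 0 σ = (σ : ℂ) := fun σ => by simp [atHeight]
  set R : ℂ → ℂ := LSeries (fun n => (smallPart f T n : ℂ))
  have hR : Tendsto (fun σ : ℝ => ((σ - σ₀ : ℝ) : ℂ) * R σ) (𝓝[>] σ₀) (𝓝 0) := by
    have hab : abscissaOfAbsConv (fun n => (smallPart f T n : ℂ)) < (σ₀ : ℂ).re :=
      lt_of_le_of_lt (abscissaOfAbsConv_le_of_forall_lt_LSeriesSummable (x := 67 / 100)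
        fun y hy => summable_smallPart_series hk hf T (by simpa using hy.le))
        (EReal.coe_lt_coe_iff.2 (by simp only [ofReal_re]; linarith))
    have hc1 : ContinuousAt (fun σ : ℝ => ((σ - σ₀ : ℝ) : ℂ) * R σ) σ₀ :=
      (Complex.continuous_ofReal.continuousAt.comp (continuousAt_id.sub continuousAt_const)).mul
        (((LSeries_analyticOnNhd _) (σ₀ : ℂ) hab).continuousAt.comp
          Complex.continuous_ofReal.continuousAt)
    simpa using hc1.tendsto.mono_left (nhdsWithin_le_nhds (s := Set.Ioi σ₀))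
  have key := (hlim.neg.sub hR)
  rw [sub_zero] at key
  have key' : (0 : ℝ) ≤ -(m : ℝ) := by
    refine ge_of_tendsto (a := -(m : ℝ))
      (f := fun σ : ℝ => (-scaledLogDeriv (lHat f) σ₀ 0 σ - ((σ - σ₀ : ℝ) : ℂ) * R σ).re)
      (x := 𝓝[>] σ₀) ?_ ?_
    · rw [show -(m : ℝ) = (-(m : ℂ)).re by simp]
      exact (Complex.continuous_re.tendsto _).comp key
    filter_upwards [self_mem_nhdsWithin, hev] with σ hσ hne
    have hσ' : σ₀ < σ := hσ
    obtain ⟨hsum, hid⟩ := landau_signPart hf hk hT (α := σ₀) (by linarith) hD0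
      (w := (σ : ℂ)) (by simpa using hσ')
    rw [hat] at hne
    have e : -scaledLogDeriv (lHat f) σ₀ 0 σ - ((σ - σ₀ : ℝ) : ℂ) * R σ =
        ((σ - σ₀ : ℝ) : ℂ) * LSeries (fun n => (signPart 1 f T n : ℂ)) σ := by
      rw [scaledLogDeriv, hat]
      simp only [ofReal_one] at hid
      field_simp
      linear_combination -((σ - σ₀ : ℝ) : ℂ) * hid
    rw [e, re_ofReal_mul]
    refine mul_nonneg (sub_nonneg.2 hσ'.le) ?_
    have hnn : 0 ≤ LSeries (fun n => (signPart 1 f T n : ℂ)) σ :=
      tsum_nonneg fun n => LSeries.term_nonneg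
        (Complex.zero_le_real.2 (signPart_nonneg hT n)) σ
    exact (Complex.le_def.1 hnn).1
  have hm0 : m = 0 := by
    have h0 : (m : ℝ) ≤ 0 := by linarith
    exact_mod_cast le_antisymm h0 (Nat.cast_nonneg m)
  exact hm.1 hm0 (by rw [hat]; exact hs0)

/-! ## The discriminant -/

theorem deltaForm_no_zero (x : ℝ) :
    centralLambda (k := 12) (Tau.deltaForm : CuspForm (Gamma0 1) ((12 : ℕ) : ℤ)) x ≠ 0 := by
  set f : CuspForm (Gamma0 1) ((12 : ℕ) : ℤ) := Tau.deltaForm
  have hq : EisCong.qL ((12 : ℕ) : ℤ) f = PeriodPolynomial.tauC := rfl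
  have hE : PeriodPolynomial.IsContinuation PeriodPolynomial.tauC (centralLambda f) := by
    refine ⟨KohnenNonvanishing.differentiable_centralLambda (by norm_num) f,
      ((12 : ℕ) : ℝ) + 1, fun s hs => ?_⟩
    rw [KohnenNonvanishing.centralLambda_eq_LSeries (by norm_num) f hs, hq,
      HeckeConverse.completed, div_one]
  intro h0
  have h := (PeriodPolynomial.continuation_pos hE x).2
  rw [h0] at h
  simp at h

end FA.EigenPrimes

end
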